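import Fermat.Agent.EllReduction.NodeBasic
import Mathlib.FieldTheory.IsAlgClosed.Basic

/-!
# The component group of the node model is cyclic
-/

set_option autoImplicit false

open scoped Classical

namespace FLTA.EllReduction

open WeierstrassCurve WeierstrassCurve.Affine Polynomial

variable {L : Type*} [Field L] {A : ValuationSubring L} {a : L}

lemma nodeCurve_Δ (a : L) : (nodeCurve a).Δ = -a * (1 + 432 * a) := by
  simp only [nodeCurve, WeierstrassCurve.Δ, WeierstrassCurve.b₂, WeierstrassCurve.b₄,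
    WeierstrassCurve.b₆, WeierstrassCurve.b₈]
  ring

lemma nodeCurve_Δ_ne_zero (ha : A.valuation a < 1) (ha0 : a ≠ 0) : (nodeCurve a).Δ ≠ 0 := by
  rw [nodeCurve_Δ]
  refine mul_ne_zero (neg_ne_zero.mpr ha0) fun h => ?_
  have h' : A.valuation (432 * a) < 1 := by
    rw [mul_comm]
    exact valuation_mul_lt_one ha ((show ((432 : ℕ) : L) = 432 from rfl) ▸ natCast_mem A 432)
  rw [show 432 * a = -1 by linear_combination h, Valuation.map_neg, map_one] at h'
  exact lt_irrefl _ h'

section Components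

variable [DecidableEq L] (ha : A.valuation a < 1) (ha0 : a ≠ 0)

include ha ha0

/-- Points with the same valuations of `x`, `y`, `y + x` lie in the same component. -/
lemma node_same_component {x₁ y₁ x₂ y₂ : L} {h₁ : (nodeCurve a).toAffine.Nonsingular x₁ y₁}
    {h₂ : (nodeCurve a).toAffine.Nonsingular x₂ y₂}
    (hx : A.valuation x₁ = A.valuation x₂) (hy : A.valuation y₁ = A.valuation y₂)
    (hw : A.valuation (y₁ + x₁) = A.valuation (y₂ + x₂)) :
    InE0 A (nodeCurve a).toAffine (.some x₁ y₁ h₁ - .some x₂ y₂ h₂) := by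
  have hWint := nodeCurve_integralAt ha
  by_cases hx1 : 1 ≤ A.valuation x₁
  · exact (E0 hWint).sub_mem ((node_inE0_iff ha (h := h₁)).mpr hx1)
      ((node_inE0_iff ha (h := h₂)).mpr (hx ▸ hx1))
  rw [not_le] at hx1
  rcases le_or_gt (A.valuation x₁ ^ 2) (A.valuation a) with hm | hlt
  · rw [sub_eq_add_neg, Point.neg_some]
    exact node_middle_add_middle ha ha0 hx1 hm (hx ▸ hx1) (hx ▸ hm)
  · rcases node_branch h₁.1 hx1 hlt with hb | hb
    · exact node_plus_sub_plus ha hlt hb (by rw [← hy, ← hx]; exact hb) hx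
    · rw [show (.some x₁ y₁ h₁ - .some x₂ y₂ h₂ : (nodeCurve a).toAffine.Point)
        = -((-.some x₁ y₁ h₁) - (-.some x₂ y₂ h₂)) by abel, inE0_neg hWint, Point.neg_some,
        Point.neg_some]
      refine node_plus_sub_plus ha hlt ?_ ?_ hx
      · rw [nodeCurve_negY, Valuation.map_neg]; exact hb
      · rw [nodeCurve_negY, Valuation.map_neg, ← hw, ← hx]; exact hb

end Components

/-- `P` is in the `k`-th component with respect to `h`, where `v a = v h ^ (2 m)` and `1 ≤ k ≤ m`. -/
def IsClass (A : ValuationSubring L) (a h : L) (m k : ℕ) : (nodeCurve a).toAffine.Point → Prop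
  | .zero => False
  | .some x y _ => A.valuation x < 1 ∧
      (k < m → A.valuation x = A.valuation h ^ k ∧ A.valuation y < A.valuation x) ∧
      (k = m → A.valuation x ^ 2 ≤ A.valuation a)

section Cyclic

variable [DecidableEq L] (ha : A.valuation a < 1) (ha0 : a ≠ 0) {h : L}
  (hh : A.valuation h < 1) {m : ℕ} (hm : A.valuation a = A.valuation h ^ (2 * m))

include ha ha0 hh hm

lemma IsClass.not_inE0 {k : ℕ} {P : (nodeCurve a).toAffine.Point} (hP : IsClass A a h m k P) :
    ¬ InE0 A (nodeCurve a).toAffine P := by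
  cases P with
  | zero => exact hP.elim
  | some x y hns => exact fun h0 => absurd ((node_inE0_iff ha).mp h0) (not_le.mpr hP.1)

omit ha0 in
lemma m_pos : 0 < m := by
  rcases Nat.eq_zero_or_pos m with rfl | h'
  · rw [mul_zero, pow_zero] at hm
    exact absurd ha (by rw [hm]; exact lt_irrefl 1)
  · exact h'

lemma valuation_h_pos : 0 < A.valuation h := by
  refine zero_lt_iff.mpr fun e => ?_
  have := m_pos ha hh hm
  rw [e, zero_pow (by omega)] at hm
  exact ha0 ((map_eq_zero _).mp hm)

lemma lt_pow_sq {k : ℕ} (hk : k < m) : A.valuation a < (A.valuation h ^ k) ^ 2 := by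
  rw [← pow_mul, hm]
  exact pow_lt_pow_right_of_lt_one₀ (valuation_h_pos ha ha0 hh hm) hh (by omega)

lemma IsClass.sub_inE0 {k : ℕ} (hk : k ≤ m) {P Q : (nodeCurve a).toAffine.Point}
    (hP : IsClass A a h m k P) (hQ : IsClass A a h m k Q) :
    InE0 A (nodeCurve a).toAffine (P - Q) := by
  cases P with
  | zero => exact hP.elim
  | some x₁ y₁ h₁ =>
    cases Q with
    | zero => exact hQ.elim
    | some x₂ y₂ h₂ =>
      rcases hk.lt_or_eq with hlt | heq
      · obtain ⟨e₁, b₁⟩ := hP.2.1 hlt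
        obtain ⟨e₂, b₂⟩ := hQ.2.1 hlt
        exact node_plus_sub_plus ha (e₁ ▸ lt_pow_sq ha ha0 hh hm hlt) b₁ b₂ (e₁.trans e₂.symm)
      · rw [sub_eq_add_neg, Point.neg_some]
        exact node_middle_add_middle ha ha0 hP.1 (hP.2.2 heq) hQ.1 (hQ.2.2 heq)

lemma IsClass.add {i j : ℕ} (hi : 1 ≤ i) (hj : 1 ≤ j) (hij : i + j ≤ m)
    {P Q : (nodeCurve a).toAffine.Point} (hP : IsClass A a h m i P) (hQ : IsClass A a h m j Q) :
    IsClass A a h m (i + j) (P + Q) := by
  cases P with
  | zero => exact hP.elim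
  | some x₁ y₁ h₁ =>
    cases Q with
    | zero => exact hQ.elim
    | some x₂ y₂ h₂ =>
      obtain ⟨e₁, b₁⟩ := hP.2.1 (by omega)
      obtain ⟨e₂, b₂⟩ := hQ.2.1 (by omega)
      have e : A.valuation x₁ * A.valuation x₂ = A.valuation h ^ (i + j) := by rw [e₁, e₂, pow_add]
      obtain ⟨x, y, hns, heq, hx, hlt, hmid⟩ := node_plus_add_plus ha (h₁ := h₁) (h₂ := h₂)
        hP.1 b₁ hQ.1 b₂ (by
          rw [e, ← pow_mul, hm]
          exact pow_le_pow_right_of_le_one' hh.le (by omega))
      rw [heq]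
      refine ⟨hx, fun hk => ?_, fun hk => hmid ?_⟩
      · have hlt' := lt_pow_sq ha ha0 hh hm hk
        rw [← e] at hlt' ⊢
        exact hlt hlt'
      · rw [e, hk, ← pow_mul, hm, mul_comm m 2]

lemma exists_plus_point [IsAlgClosed L] {c : L} (hc : A.valuation c < 1)
    (hlt : A.valuation a < A.valuation c ^ 2) :
    ∃ (y : L) (hns : (nodeCurve a).toAffine.Nonsingular c y), A.valuation y < A.valuation c := by
  have hdeg : (X ^ 2 + C c * X - C (c ^ 3 + a) : L[X]).degree ≠ 0 := by
    have : (X ^ 2 + C c * X - C (c ^ 3 + a) : L[X]) = C 1 * X ^ 2 + C c * X + C (-(c ^ 3 + a)) := by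
      simp [sub_eq_add_neg]
    rw [this, degree_quadratic one_ne_zero]
    decide
  obtain ⟨y, hy⟩ := IsAlgClosed.exists_root _ hdeg
  rw [IsRoot, eval_sub, eval_add, eval_pow, eval_mul, eval_C, eval_C, eval_X] at hy
  have heq : (nodeCurve a).toAffine.Equation c y :=
    nodeCurve_equation.mpr (by linear_combination hy)
  rcases node_branch heq hc hlt with hb | hb
  · exact ⟨y, (equation_iff_nonsingular_of_Δ_ne_zero (nodeCurve_Δ_ne_zero ha ha0)).mp heq, hb⟩
  · refine ⟨-(y + c), ?_, by rwa [Valuation.map_neg]⟩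
    refine (equation_iff_nonsingular_of_Δ_ne_zero (nodeCurve_Δ_ne_zero ha ha0)).mp ?_
    exact nodeCurve_equation.mpr (by linear_combination hy)

lemma exists_isClass_one [IsAlgClosed L] : ∃ G, IsClass A a h m 1 G := by
  rcases eq_or_lt_of_le (Nat.succ_le_of_lt (m_pos ha hh hm)) with h1 | h1
  · obtain ⟨y, hy⟩ := IsAlgClosed.exists_pow_nat_eq a two_pos
    have heq : (nodeCurve a).toAffine.Equation 0 y :=
      nodeCurve_equation.mpr (by linear_combination hy)
    refine ⟨.some 0 y ((equation_iff_nonsingular_of_Δ_ne_zero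
      (nodeCurve_Δ_ne_zero ha ha0)).mp heq), by simp, fun hk => absurd hk (by omega), fun _ => ?_⟩
    simp
  · obtain ⟨y, hns, hy⟩ := exists_plus_point ha ha0 hh hm (c := h) hh (by
      simpa using lt_pow_sq ha ha0 hh hm h1)
    exact ⟨.some h y hns, hh, fun _ => ⟨(pow_one _).symm, hy⟩, fun hk => absurd hk (by omega)⟩

lemma isClass_nsmul {G : (nodeCurve a).toAffine.Point} (hG : IsClass A a h m 1 G) :
    ∀ k : ℕ, 1 ≤ k → k ≤ m → IsClass A a h m k (k • G) := by
  intro k hk1
  induction k, hk1 using Nat.le_induction with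
  | base => intro _; rwa [one_smul]
  | succ k hk ih =>
    intro hk'
    rw [succ_nsmul]
    exact (ih (by omega)).add ha ha0 hh hm hk le_rfl hk' hG

/-- The components form a cyclic group of order `2 m`. -/
theorem zsmul_inE0_iff {G : (nodeCurve a).toAffine.Point} (hG : IsClass A a h m 1 G) (k : ℤ) :
    InE0 A (nodeCurve a).toAffine (k • G) ↔ ((2 * m : ℕ) : ℤ) ∣ k := by
  have hW := nodeCurve_integralAt ha
  have hmpos := m_pos ha hh hm
  have hmid := isClass_nsmul ha ha0 hh hm hG m hmpos le_rfl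
  have h2m : InE0 A (nodeCurve a).toAffine (((2 * m : ℕ) : ℤ) • G) := by
    rw [natCast_zsmul, two_mul, add_nsmul]
    generalize hM : m • G = M at hmid
    cases M with
    | zero => exact hmid.elim
    | some x y hns =>
      exact node_middle_add_middle ha ha0 hmid.1 (hmid.2.2 rfl) hmid.1 (hmid.2.2 rfl)
  constructor
  · intro hk
    have hr := Int.emod_nonneg k (b := ((2 * m : ℕ) : ℤ)) (by omega)
    have hrlt := Int.emod_lt_of_pos k (b := ((2 * m : ℕ) : ℤ)) (by omega)
    have hrem : InE0 A (nodeCurve a).toAffine ((k % ((2 * m : ℕ) : ℤ)) • G) := by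
      rw [Int.emod_def, sub_zsmul, mul_comm, mul_zsmul]
      exact (E0 hW).sub_mem hk ((E0 hW).zsmul_mem h2m _)
    obtain ⟨r, hr'⟩ := Int.eq_ofNat_of_zero_le hr
    rw [Int.dvd_iff_emod_eq_zero]
    rw [hr'] at hrem hrlt ⊢
    by_contra hne
    rcases le_or_gt r m with hle | hgt
    · rw [natCast_zsmul] at hrem
      exact (isClass_nsmul ha ha0 hh hm hG r (by omega) hle).not_inE0 ha ha0 hh hm hrem
    · have hneg : InE0 A (nodeCurve a).toAffine ((2 * m - r) • G) := by
        rw [← natCast_zsmul, Nat.cast_sub (by omega), sub_zsmul]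
        exact (E0 hW).sub_mem h2m hrem
      exact (isClass_nsmul ha ha0 hh hm hG _ (by omega) (by omega)).not_inE0 ha ha0 hh hm hneg
  · rintro ⟨j, rfl⟩
    rw [mul_comm, mul_zsmul]
    exact (E0 hW).zsmul_mem h2m j

lemma IsClass.sub_nsmul_inE0 {G P : (nodeCurve a).toAffine.Point} {k : ℕ}
    (hP : IsClass A a h m k P) (hG : IsClass A a h m 1 G) (hk1 : 1 ≤ k) (hk : k ≤ m) :
    InE0 A (nodeCurve a).toAffine (P - k • G) :=
  hP.sub_inE0 ha ha0 hh hm hk (isClass_nsmul ha ha0 hh hm hG k hk1 hk)

end Cyclic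

section Applications

variable [DecidableEq L] [IsAlgClosed L] (ha : A.valuation a < 1) (ha0 : a ≠ 0) {π : L}
  (hπ : A.valuation π < 1) {n : ℕ} (hn : A.valuation a = A.valuation π ^ n)

include ha ha0 hπ hn

omit [DecidableEq L] in
lemma valuation_pi_pos : 0 < A.valuation π := by
  refine zero_lt_iff.mpr fun e => ?_
  rcases Nat.eq_zero_or_pos n with rfl | hn0
  · rw [pow_zero] at hn; exact ha.ne hn
  · rw [e, zero_pow hn0.ne'] at hn
    exact ha0 ((map_eq_zero _).mp hn)

omit [DecidableEq L] in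
/-- A refinement of the uniformiser: `h ^ (2 N) = π`. -/
lemma exists_refine {N : ℕ} (hN : 0 < N) :
    ∃ h : L, A.valuation h < 1 ∧ A.valuation π = A.valuation h ^ (2 * N) ∧
      A.valuation a = A.valuation h ^ (2 * (n * N)) := by
  obtain ⟨h, hh⟩ := IsAlgClosed.exists_pow_nat_eq π (show 0 < 2 * N by omega)
  have e : A.valuation π = A.valuation h ^ (2 * N) := by rw [← hh, map_pow]
  refine ⟨h, ?_, e, by rw [hn, e, ← pow_mul]; ring_nf⟩
  rw [e] at hπ
  exact (pow_lt_one_iff_of_nonneg zero_le (by omega)).mp hπ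

/-- A point whose coordinates have valuations in `v π ^ ℤ` is killed by `n` in the component
group. -/
theorem node_nsmul_inE0 {x y : L} {hns : (nodeCurve a).toAffine.Nonsingular x y}
    (hlog : A.valuation x < 1 → A.valuation a < A.valuation x ^ 2 →
      ∃ j : ℤ, A.valuation x = A.valuation π ^ j)
    (hlogy : A.valuation x < 1 → A.valuation x ^ 2 ≤ A.valuation a →
      ∃ j : ℤ, A.valuation y = A.valuation π ^ j) :
    InE0 A (nodeCurve a).toAffine (n • (.some x y hns : (nodeCurve a).toAffine.Point)) := by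
  have hW := nodeCurve_integralAt ha
  by_cases hx1 : 1 ≤ A.valuation x
  · exact (E0 hW).nsmul_mem ((node_inE0_iff ha (h := hns)).mpr hx1) n
  rw [not_le] at hx1
  have hpos := valuation_pi_pos ha ha0 hπ hn
  obtain ⟨h, hh, he, hm⟩ := exists_refine ha ha0 hπ hn one_pos
  rw [mul_one] at hm he
  obtain ⟨G, hG⟩ := exists_isClass_one ha ha0 hh hm
  have hn0 := m_pos ha hh hm
  have key : ∀ {Q : (nodeCurve a).toAffine.Point} {k : ℕ}, 1 ≤ k → k ≤ n → 2 ∣ k →
      IsClass A a h n k Q → InE0 A (nodeCurve a).toAffine (n • Q) := by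
    intro Q k hk1 hk h2 hQ
    have h1 : InE0 A (nodeCurve a).toAffine (n • k • G) := by
      rw [← mul_nsmul', ← natCast_zsmul, zsmul_inE0_iff ha ha0 hh hm hG]
      obtain ⟨j, rfl⟩ := h2
      exact Int.natCast_dvd_natCast.mpr ⟨j, by ring⟩
    have h2' := (E0 hW).nsmul_mem (hQ.sub_nsmul_inE0 ha ha0 hh hm hG hk1 hk) n
    rw [nsmul_sub] at h2'
    simpa using (E0 hW).add_mem h2' h1
  rcases le_or_gt (A.valuation x ^ 2) (A.valuation a) with hmid | hlt
  · obtain ⟨hy, -⟩ := node_middle ha ha0 hns.1 hx1 hmid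
    obtain ⟨j, hj⟩ := hlogy hx1 hmid
    rw [hj, hn, ← zpow_natCast, ← zpow_mul, ← zpow_natCast (A.valuation π) n] at hy
    have := (zpow_right_strictAnti₀ hpos hπ).injective hy
    exact key hn0 le_rfl (by omega) ⟨hx1, fun hk => absurd hk (lt_irrefl _), fun _ => hmid⟩
  · obtain ⟨j, hj⟩ := hlog hx1 hlt
    have hj0 : 0 < j := by
      by_contra hc
      exact absurd hx1 (not_lt.mpr (hj ▸ one_le_zpow_of_nonpos₀ hpos hπ.le (by omega)))
    obtain ⟨j', rfl⟩ := Int.eq_ofNat_of_zero_le hj0.le
    rw [zpow_natCast] at hj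
    have hjn : 2 * j' < n := by
      by_contra hc
      rw [hj, hn, ← pow_mul] at hlt
      exact absurd hlt (not_lt.mpr (pow_le_pow_right_of_le_one' hπ.le (by omega)))
    have hje : A.valuation x = A.valuation h ^ (2 * j') := by rw [hj, he, ← pow_mul]
    rcases node_branch hns.1 hx1 hlt with hb | hb
    · exact key (by omega) hjn.le (dvd_mul_right 2 _)
        ⟨hx1, fun _ => ⟨hje, hb⟩, fun hk => absurd hk (by omega)⟩
    · have := key (Q := -.some x y hns) (by omega) hjn.le (dvd_mul_right 2 _) (by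
        rw [Point.neg_some]
        exact ⟨hx1, fun _ => ⟨hje, by rw [nodeCurve_negY, Valuation.map_neg]; exact hb⟩,
          fun hk => absurd hk (by omega)⟩)
      rw [smul_neg] at this
      exact (inE0_neg hW).mp this

/-- A point that is `p`-torsion in the component group, `p` an odd prime dividing `n`, lies in the
component of a point whose abscissa is a power of `π`. -/
theorem node_exists_fixed {p : ℕ} (hp : p.Prime) (hp2 : p ≠ 2) (hpn : p ∣ n)
    (hdiv : ∀ x : L, x ≠ 0 → ∃ N : ℕ, 0 < N ∧ ∃ M : ℤ, A.valuation x ^ N = A.valuation π ^ M)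
    (P : (nodeCurve a).toAffine.Point) (hpP : InE0 A (nodeCurve a).toAffine (p • P)) :
    InE0 A (nodeCurve a).toAffine P ∨ ∃ (i : ℕ) (y : L)
      (hns : (nodeCurve a).toAffine.Nonsingular (π ^ i) y),
      A.valuation y < A.valuation (π ^ i) ∧
      (InE0 A (nodeCurve a).toAffine (P - .some _ _ hns) ∨
        InE0 A (nodeCurve a).toAffine (P + .some _ _ hns)) := by
  have hW := nodeCurve_integralAt ha
  cases P with
  | zero => exact Or.inl trivial
  | some x y hns =>
    by_cases hx1 : 1 ≤ A.valuation x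
    · exact Or.inl ((node_inE0_iff ha).mpr hx1)
    rw [not_le] at hx1
    right
    have hpos := valuation_pi_pos ha ha0 hπ hn
    rcases le_or_gt (A.valuation x ^ 2) (A.valuation a) with hmid | hlt
    · -- the middle component has order two
      exfalso
      obtain ⟨h, hh, -, hm⟩ := exists_refine ha ha0 hπ hn one_pos
      rw [mul_one] at hm
      obtain ⟨G, hG⟩ := exists_isClass_one ha ha0 hh hm
      have hn0 := m_pos ha hh hm
      have h1 := (E0 hW).nsmul_mem (IsClass.sub_nsmul_inE0 (P := .some x y hns) ha ha0 hh hm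
        ⟨hx1, fun hk => absurd hk (lt_irrefl _), fun _ => hmid⟩ hG hn0 le_rfl) p
      rw [nsmul_sub] at h1
      have h2 : InE0 A (nodeCurve a).toAffine (p • n • G) := by
        simpa using (E0 hW).sub_mem hpP h1
      rw [← mul_nsmul', ← natCast_zsmul, zsmul_inE0_iff ha ha0 hh hm hG,
        Int.natCast_dvd_natCast, mul_comm p n, mul_comm 2 n,
        Nat.mul_dvd_mul_iff_left hn0] at h2
      exact hp2 ((Nat.prime_dvd_prime_iff_eq Nat.prime_two hp).mp h2).symm
    · have hxne : x ≠ 0 := fun e => by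
        rw [e, map_zero, zero_pow two_ne_zero] at hlt
        exact absurd hlt not_lt_zero
      obtain ⟨N, hN, M, hM⟩ := hdiv x hxne
      have hM0 : 0 < M := by
        by_contra hc
        have h1 : A.valuation x ^ N < 1 := pow_lt_one₀ zero_le hx1 hN.ne'
        rw [hM] at h1
        exact absurd h1 (not_lt.mpr (one_le_zpow_of_nonpos₀ hpos hπ.le (by omega)))
      obtain ⟨M, rfl⟩ := Int.eq_ofNat_of_zero_le hM0.le
      rw [zpow_natCast] at hM
      obtain ⟨h, hh, he, hm⟩ := exists_refine ha ha0 hπ hn hN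
      have hMN : 2 * M < n * N := by
        by_contra hc
        have : A.valuation a ^ N < (A.valuation x ^ 2) ^ N := pow_lt_pow_left₀ hlt zero_le hN.ne'
        rw [← pow_mul, mul_comm 2 N, pow_mul, hM, hn, ← pow_mul, ← pow_mul] at this
        exact absurd this (not_lt.mpr (pow_le_pow_right_of_le_one' hπ.le (by omega)))
      have hxe : A.valuation x = A.valuation h ^ (2 * M) := by
        refine (pow_left_inj₀ zero_le zero_le hN.ne').mp ?_
        rw [hM, he, ← pow_mul, ← pow_mul]
        ring_nf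
      obtain ⟨G, hG⟩ := exists_isClass_one ha ha0 hh hm
      -- reduce to the plus branch
      suffices H : ∀ {y' : L} (hns' : (nodeCurve a).toAffine.Nonsingular x y'),
          A.valuation y' < A.valuation x →
          InE0 A (nodeCurve a).toAffine (p • (.some x y' hns' : (nodeCurve a).toAffine.Point)) →
          ∃ (i : ℕ) (y'' : L) (hns'' : (nodeCurve a).toAffine.Nonsingular (π ^ i) y''),
            A.valuation y'' < A.valuation (π ^ i) ∧
            InE0 A (nodeCurve a).toAffine (.some x y' hns' - .some _ _ hns'') by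
        rcases node_branch hns.1 hx1 hlt with hb | hb
        · obtain ⟨i, y'', hns'', h1, h2⟩ := H hns hb hpP
          exact ⟨i, y'', hns'', h1, Or.inl h2⟩
        · obtain ⟨i, y'', hns'', h1, h2⟩ := H ((nonsingular_neg ..).mpr hns)
            (by rw [nodeCurve_negY, Valuation.map_neg]; exact hb) (by
              rw [← Point.neg_some hns, smul_neg]; exact (inE0_neg hW).mpr hpP)
          refine ⟨i, y'', hns'', h1, Or.inr ?_⟩
          rw [← inE0_neg hW]
          convert h2 using 1
          rw [← Point.neg_some hns]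
          abel
      intro y' hns' hb hp'
      have hcl : IsClass A a h (n * N) (2 * M) (.some x y' hns') :=
        ⟨hx1, fun _ => ⟨hxe, hb⟩, fun hk => absurd hk (by omega)⟩
      have h1 := (E0 hW).nsmul_mem (hcl.sub_nsmul_inE0 ha ha0 hh hm hG (by omega) hMN.le) p
      rw [nsmul_sub] at h1
      have h2 : InE0 A (nodeCurve a).toAffine (p • (2 * M) • G) := by
        simpa using (E0 hW).sub_mem hp' h1
      rw [← mul_nsmul', ← natCast_zsmul, zsmul_inE0_iff ha ha0 hh hm hG,
        Int.natCast_dvd_natCast] at h2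
      obtain ⟨d, rfl⟩ := hpn
      obtain ⟨i₀, hi₀⟩ := h2
      have hMi : M = d * i₀ * N := by
        apply Nat.eq_of_mul_eq_mul_left (show 0 < p * 2 by have := hp.pos; omega)
        linear_combination hi₀
      have hin : 2 * (d * i₀) < p * d := by
        have : 2 * (d * i₀) * N < p * d * N := by rw [mul_assoc 2 (d * i₀), ← hMi]; exact hMN
        exact Nat.lt_of_mul_lt_mul_right this
      have hc : A.valuation (π ^ (d * i₀)) = A.valuation h ^ (2 * M) := by
        rw [map_pow, he, ← pow_mul, hMi]; ring_nf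
      have hc1 : A.valuation (π ^ (d * i₀)) < 1 := by rw [hc, ← hxe]; exact hx1
      obtain ⟨y'', hns'', hy''⟩ := exists_plus_point ha ha0 hh hm hc1 (by rw [hc, ← hxe]; exact hlt)
      refine ⟨d * i₀, y'', hns'', hy'', ?_⟩
      exact hcl.sub_inE0 ha ha0 hh hm hMN.le
        ⟨hc1, fun _ => ⟨hc, hy''⟩, fun hk => absurd hk (by omega)⟩

end Applications

end FLTA.EllReduction
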