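import Fermat.Agent.EllReduction.VarChange
import Mathlib.FieldTheory.IsAlgClosed.Basic

/-!
# Normal form `y² + xy = x³ + a` of a curve with multiplicative reduction
-/

set_option autoImplicit false

namespace FLTA.EllReduction

open WeierstrassCurve

variable {L : Type*} [Field L] {A : ValuationSubring L}

private lemma lit_mem (A : ValuationSubring L) (n : ℕ) [n.AtLeastTwo] :
    (OfNat.ofNat n : L) ∈ A := by
  rw [← Nat.cast_ofNat]; exact natCast_mem A n

private lemma lit_le (A : ValuationSubring L) (n : ℕ) [n.AtLeastTwo] :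
    A.valuation (OfNat.ofNat n : L) ≤ 1 :=
  (A.valuation_le_one_iff _).mpr (lit_mem A n)

/-- The `x`-coordinate of the singular point of the reduction of a multiplicative curve. -/
def nodeX (W : WeierstrassCurve L) : L := (18 * W.b₆ - W.b₂ * W.b₄) / W.c₄

lemma nodeX_b₄ {W : WeierstrassCurve L} (h : W.c₄ ≠ 0) :
    W.b₄ + nodeX W * W.b₂ + 6 * nodeX W ^ 2 = -72 * W.Δ / W.c₄ ^ 2 := by
  rw [eq_div_iff (pow_ne_zero 2 h)]
  have hx : nodeX W * W.c₄ = 18 * W.b₆ - W.b₂ * W.b₄ := div_mul_cancel₀ _ h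
  calc (W.b₄ + nodeX W * W.b₂ + 6 * nodeX W ^ 2) * W.c₄ ^ 2
      = W.b₄ * W.c₄ ^ 2 + (nodeX W * W.c₄) * W.c₄ * W.b₂ + 6 * (nodeX W * W.c₄) ^ 2 := by ring
    _ = _ := by
      rw [hx, c₄, Δ]
      linear_combination -18 * W.b₂ ^ 2 * W.b_relation

lemma nodeX_b₆ {W : WeierstrassCurve L} (h : W.c₄ ≠ 0) :
    W.b₆ + 2 * nodeX W * W.b₄ + nodeX W ^ 2 * W.b₂ + 4 * nodeX W ^ 3
      = W.Δ * (-4 * W.b₂ ^ 3 + 144 * W.b₂ * W.b₄ - 864 * W.b₆) / W.c₄ ^ 3 := by
  rw [eq_div_iff (pow_ne_zero 3 h)]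
  have hx : nodeX W * W.c₄ = 18 * W.b₆ - W.b₂ * W.b₄ := div_mul_cancel₀ _ h
  calc (W.b₆ + 2 * nodeX W * W.b₄ + nodeX W ^ 2 * W.b₂ + 4 * nodeX W ^ 3) * W.c₄ ^ 3
      = W.b₆ * W.c₄ ^ 3 + 2 * (nodeX W * W.c₄) * W.c₄ ^ 2 * W.b₄
          + (nodeX W * W.c₄) ^ 2 * W.c₄ * W.b₂ + 4 * (nodeX W * W.c₄) ^ 3 := by ring
    _ = _ := by
      rw [hx, c₄, Δ]
      linear_combination (-W.b₂ ^ 5 + 36 * W.b₂ ^ 3 * W.b₄ - 216 * W.b₂ ^ 2 * W.b₆) * W.b_relation

section Mem

variable {W : WeierstrassCurve L} (hW : IntegralAt A W)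
include hW

lemma b₂_mem : W.b₂ ∈ A := by
  rw [b₂]
  exact add_mem (pow_mem hW.a₁ _) (mul_mem (lit_mem A 4) hW.a₂)

lemma b₄_mem : W.b₄ ∈ A := by
  rw [b₄]
  exact add_mem (mul_mem (lit_mem A 2) hW.a₄) (mul_mem hW.a₁ hW.a₃)

lemma b₆_mem : W.b₆ ∈ A := by
  rw [b₆]
  exact add_mem (pow_mem hW.a₃ _) (mul_mem (lit_mem A 4) hW.a₆)

lemma nodeX_mem (hc₄ : A.valuation W.c₄ = 1) : nodeX W ∈ A := by
  rw [nodeX, div_eq_mul_inv]
  exact mul_mem (sub_mem (mul_mem (lit_mem A 18) (b₆_mem hW))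
    (mul_mem (b₂_mem hW) (b₄_mem hW)))
    (A.mem_of_valuation_le_one _ (by rw [map_inv₀, hc₄, inv_one]))

end Mem

/-- A root of `6 d² + B d + g` of valuation at most that of `g`, when `B` is a unit. -/
lemma exists_small_root [IsAlgClosed L] {B g : L} (hB : A.valuation B = 1)
    (hg : A.valuation g < 1) :
    ∃ d : L, 6 * d ^ 2 + B * d + g = 0 ∧ A.valuation d ≤ A.valuation g := by
  have hB0 : B ≠ 0 := by intro h; rw [h, map_zero] at hB; exact zero_ne_one hB
  by_cases h6 : (6 : L) = 0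
  · refine ⟨-g / B, by rw [h6]; field_simp; ring, ?_⟩
    rw [map_div₀, Valuation.map_neg, hB, div_one]
  obtain ⟨d, hd⟩ := IsAlgClosed.exists_root
    (Polynomial.C 6 * Polynomial.X ^ 2 + Polynomial.C B * Polynomial.X + Polynomial.C g)
    (by rw [Polynomial.degree_quadratic h6]; decide)
  simp only [Polynomial.IsRoot, Polynomial.eval_add, Polynomial.eval_mul, Polynomial.eval_C,
    Polynomial.eval_pow, Polynomial.eval_X] at hd
  by_cases h : A.valuation (6 * d) < 1
  · refine ⟨d, hd, ?_⟩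
    have h1 : A.valuation (6 * d + B) = 1 := by
      rw [A.valuation.map_add_eq_of_lt_right (by rwa [hB]), hB]
    have h2 : d * (6 * d + B) = -g := by linear_combination hd
    have := congrArg A.valuation h2
    rw [map_mul, h1, mul_one, Valuation.map_neg] at this
    exact this.le
  · rw [not_lt] at h
    have hd6 : 6 * d ≠ 0 := by
      intro h0; rw [h0, map_zero] at h; exact absurd h (not_le.mpr zero_lt_one)
    refine ⟨g / (6 * d), ?_, ?_⟩
    · have hd0 : d ≠ 0 := right_ne_zero_of_mul hd6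
      rw [show 6 * (g / (6 * d)) ^ 2 + B * (g / (6 * d)) + g
        = g / (6 * d ^ 2) * (6 * d ^ 2 + B * d + g) by field_simp; ring, hd, mul_zero]
    · rw [map_div₀]
      exact div_le_of_le_mul₀ zero_le zero_le (le_mul_of_one_le_right' h)

/-- Ring automorphisms of `L` acting trivially on the residue field of `A`. -/
def TrivialMod (A : ValuationSubring L) (σ : L ≃+* L) : Prop :=
  ∀ x ∈ A, σ x ∈ A ∧ A.valuation (σ x - x) < 1

/-- Existence of the normal form `y² + xy = x³ + a` at a multiplicative place. -/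
theorem exists_normalForm [IsAlgClosed L] {W : WeierstrassCurve L} (hW : IntegralAt A W)
    (hΔ : A.valuation W.Δ < 1) (hc₄ : A.valuation W.c₄ = 1) (hΔ0 : W.Δ ≠ 0) :
    ∃ (C : VariableChange L) (a : L), IntegralVC A C ∧
      C • W = ⟨1, 0, 0, 0, a⟩ ∧ a ≠ 0 ∧ A.valuation a = A.valuation W.Δ ∧
      A.valuation (C.r - nodeX W) ≤ A.valuation W.Δ ∧
      ∀ σ : L ≃+* L, TrivialMod A σ →
        σ W.a₁ = W.a₁ → σ W.a₂ = W.a₂ → σ W.a₃ = W.a₃ → σ W.a₄ = W.a₄ → σ W.a₆ = W.a₆ →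
        σ (C.u : L) = C.u ∧ σ C.r = C.r ∧ σ C.s = C.s ∧ σ C.t = C.t ∧ σ a = a := by
  have hc0 : W.c₄ ≠ 0 := by intro h; rw [h, map_zero] at hc₄; exact zero_ne_one hc₄
  have hn : ∀ n : ℕ, A.valuation (n : L) ≤ 1 := fun n =>
    (A.valuation_le_one_iff _).mpr (natCast_mem A n)
  set x₀ := nodeX W with hx₀
  have hx₀A : x₀ ∈ A := nodeX_mem hW hc₄
  set g := W.b₄ + x₀ * W.b₂ + 6 * x₀ ^ 2 with hg
  have hgv : A.valuation g ≤ A.valuation W.Δ := by
    rw [hg, hx₀, nodeX_b₄ hc0, map_div₀, map_pow, hc₄, one_pow, div_one, map_mul,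
      Valuation.map_neg]
    exact mul_le_of_le_one_left' (lit_le A 72)
  have hgv1 : A.valuation g < 1 := hgv.trans_lt hΔ
  set B := W.b₂ + 12 * x₀ with hB
  have hBv : A.valuation B = 1 := by
    have h2 : B ^ 2 = W.c₄ + 24 * g := by rw [hB, hg, c₄]; ring
    have := congrArg A.valuation h2
    have hlt : A.valuation (24 * g) < A.valuation W.c₄ := by
      rw [hc₄, map_mul]
      exact (mul_le_of_le_one_left' (lit_le A 24)).trans_lt hgv1
    have he : A.valuation (W.c₄ + 24 * g) = 1 :=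
      (A.valuation.map_add_eq_of_lt_left hlt).trans hc₄
    rw [map_pow, he] at this
    exact (pow_eq_one_iff.mp this).resolve_right two_ne_zero
  obtain ⟨d, hd, hdv⟩ := exists_small_root hBv hgv1
  set r := x₀ + d with hr
  have hdΔ : A.valuation d ≤ A.valuation W.Δ := hdv.trans hgv
  have hd1 : A.valuation d < 1 := hdΔ.trans_lt hΔ
  have hrA : r ∈ A := add_mem hx₀A (mem_of_valuation_lt_one hd1)
  have hb4 : W.b₄ + r * W.b₂ + 6 * r ^ 2 = 0 := by
    rw [← hd, hr, hB, hg]; ring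
  have hB' : A.valuation (W.b₂ + 12 * r) = 1 := by
    rw [hr, show W.b₂ + 12 * (x₀ + d) = B + 12 * d by rw [hB]; ring,
      A.valuation.map_add_eq_of_lt_left (by
        rw [hBv, map_mul]
        exact (mul_le_of_le_one_left' (lit_le A 12)).trans_lt hd1), hBv]
  have h2A : (2 : L) ∈ A := (lit_mem A 2)
  have h3A : (3 : L) ∈ A := (lit_mem A 3)
  -- `t`
  obtain ⟨t, htA, ht3, ht4, htu⟩ : ∃ t ∈ A, W.a₃ + r * W.a₁ + 2 * t = 0 ∧
      W.a₄ + 2 * r * W.a₂ - t * W.a₁ + 3 * r ^ 2 = 0 ∧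
      ∀ σ : L ≃+* L, σ W.a₁ = W.a₁ → σ W.a₂ = W.a₂ → σ W.a₃ = W.a₃ → σ W.a₄ = W.a₄ →
        σ r = r → σ t = t := by
    have hlin : ∀ t : L, W.a₁ * (W.a₃ + r * W.a₁ + 2 * t)
        + 2 * (W.a₄ + 2 * r * W.a₂ - t * W.a₁ + 3 * r ^ 2) = 0 := fun t => by
      rw [← hb4, b₄, b₂]; ring
    by_cases h2 : A.valuation (2 : L) < 1
    · have ha1 : A.valuation W.a₁ = 1 := by
        have h4 : A.valuation (4 * (W.a₂ + 3 * r)) < 1 := by
          rw [show (4 : L) * (W.a₂ + 3 * r) = 2 * (2 * (W.a₂ + 3 * r)) by ring]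
          exact valuation_mul_lt_one h2 (mul_mem h2A (add_mem hW.a₂ (mul_mem h3A hrA)))
        have h5 : A.valuation (W.a₁ ^ 2) = 1 := by
          rw [show W.a₁ ^ 2 = (W.b₂ + 12 * r) - 4 * (W.a₂ + 3 * r) by rw [b₂]; ring,
            A.valuation.map_sub_eq_of_lt_left (by rwa [hB']), hB']
        rw [map_pow] at h5
        exact (pow_eq_one_iff.mp h5).resolve_right two_ne_zero
      have ha0 : W.a₁ ≠ 0 := by intro h; rw [h, map_zero] at ha1; exact zero_ne_one ha1
      refine ⟨(W.a₄ + 2 * r * W.a₂ + 3 * r ^ 2) / W.a₁, ?_, ?_, ?_,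
        fun σ h1 h2 _ h4 hr' => by simp [h1, h2, h4, hr', map_ofNat]⟩
      · rw [div_eq_mul_inv]
        exact mul_mem (add_mem (add_mem hW.a₄ (mul_mem (mul_mem h2A hrA) hW.a₂))
          (mul_mem h3A (pow_mem hrA _)))
          (A.mem_of_valuation_le_one _ (by rw [map_inv₀, ha1, inv_one]))
      · apply mul_left_cancel₀ ha0
        rw [mul_zero]
        have := hlin ((W.a₄ + 2 * r * W.a₂ + 3 * r ^ 2) / W.a₁)
        rw [show W.a₄ + 2 * r * W.a₂ - (W.a₄ + 2 * r * W.a₂ + 3 * r ^ 2) / W.a₁ * W.a₁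
          + 3 * r ^ 2 = 0 by field_simp; ring, mul_zero, add_zero] at this
        exact this
      · field_simp; ring
    · have h2v : A.valuation (2 : L) = 1 :=
        le_antisymm ((A.valuation_le_one_iff _).mpr h2A) (not_lt.mp h2)
      have h20 : (2 : L) ≠ 0 := by intro h; rw [h, map_zero] at h2v; exact zero_ne_one h2v
      refine ⟨-(W.a₃ + r * W.a₁) / 2, ?_, ?_, ?_,
        fun σ h1 _ h3 _ hr' => by simp [h1, h3, hr', map_ofNat]⟩
      · rw [div_eq_mul_inv]
        exact mul_mem (neg_mem (add_mem hW.a₃ (mul_mem hrA hW.a₁)))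
          (A.mem_of_valuation_le_one _ (by rw [map_inv₀, h2v, inv_one]))
      · field_simp; ring
      · apply mul_left_cancel₀ h20
        rw [mul_zero]
        have := hlin (-(W.a₃ + r * W.a₁) / 2)
        rw [show W.a₃ + r * W.a₁ + 2 * (-(W.a₃ + r * W.a₁) / 2) = 0 by field_simp; ring,
          mul_zero, zero_add] at this
        exact this
  -- `s` and `u`
  obtain ⟨s, hs⟩ := IsAlgClosed.exists_root
    (Polynomial.C 1 * Polynomial.X ^ 2 + Polynomial.C W.a₁ * Polynomial.X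
      + Polynomial.C (-(W.a₂ + 3 * r)))
    (by rw [Polynomial.degree_quadratic one_ne_zero]; decide)
  simp only [Polynomial.IsRoot, Polynomial.eval_add, Polynomial.eval_mul, Polynomial.eval_C,
    Polynomial.eval_pow, Polynomial.eval_X] at hs
  have hu2 : (W.a₁ + 2 * s) ^ 2 = W.b₂ + 12 * r := by rw [b₂]; linear_combination 4 * hs
  have huv : A.valuation (W.a₁ + 2 * s) = 1 := by
    have := congrArg A.valuation hu2
    rw [map_pow, hB'] at this
    exact (pow_eq_one_iff.mp this).resolve_right two_ne_zero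
  have hu0 : W.a₁ + 2 * s ≠ 0 := by intro h; rw [h, map_zero] at huv; exact zero_ne_one huv
  have hsA : s ∈ A := by
    by_contra h
    have hinv : s⁻¹ ∈ A := (A.mem_or_inv_mem s).resolve_left h
    have hs0 : s ≠ 0 := fun h0 => h (h0 ▸ zero_mem A)
    apply h
    have e : s = -W.a₁ + (W.a₂ + 3 * r) * s⁻¹ := by field_simp; linear_combination hs
    rw [e]
    exact add_mem (neg_mem hW.a₁) (mul_mem (add_mem hW.a₂ (mul_mem h3A hrA)) hinv)
  set C : VariableChange L := ⟨Units.mk0 _ hu0, r, s, t⟩ with hC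
  set a := ((W.a₁ + 2 * s)⁻¹) ^ 6 *
    (W.a₆ + r * W.a₄ + r ^ 2 * W.a₂ + r ^ 3 - t * W.a₃ - t ^ 2 - r * t * W.a₁) with ha
  have hCW : C • W = ⟨1, 0, 0, 0, a⟩ := by
    rw [variableChange_def]
    congr 1 <;> simp only [hC, Units.val_inv_eq_inv_val, Units.val_mk0]
    · rw [inv_mul_cancel₀ hu0]
    · rw [show W.a₂ - s * W.a₁ + 3 * r - s ^ 2 = 0 by linear_combination -hs, mul_zero]
    · rw [ht3, mul_zero]
    · rw [show W.a₄ - s * W.a₃ + 2 * r * W.a₂ - (t + r * s) * W.a₁ + 3 * r ^ 2 - 2 * s * t = 0 by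
        linear_combination ht4 - s * ht3, mul_zero]
  have hΔC : (C • W).Δ = ((W.a₁ + 2 * s)⁻¹) ^ 12 * W.Δ := by
    rw [variableChange_Δ]; simp [hC]
  have hΔa : (C • W).Δ = a * (-1 - 432 * a) := by
    rw [hCW]; simp only [WeierstrassCurve.Δ, b₂, b₄, b₆, b₈]; ring
  have ha0 : a ≠ 0 := by
    intro h
    rw [h, zero_mul, hΔC] at hΔa
    exact mul_ne_zero (pow_ne_zero _ (inv_ne_zero hu0)) hΔ0 hΔa
  have hΔ' : A.valuation a * A.valuation (-1 - 432 * a) = A.valuation W.Δ := by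
    rw [← map_mul, ← hΔa, hΔC, map_mul, map_pow, map_inv₀, huv, inv_one, one_pow, one_mul]
  have haA : a ∈ A := mul_mem
    (pow_mem (A.mem_of_valuation_le_one _ (by rw [map_inv₀, huv, inv_one])) _)
    (by
      obtain ⟨a₁, a₂, a₃, a₄, a₆⟩ := hW
      repeat' first
        | assumption | apply sub_mem | apply add_mem | apply mul_mem | apply pow_mem)
  have hsmall : A.valuation (432 * a) < 1 := by
    by_contra hne
    rw [not_lt] at hne
    rw [map_mul] at hne
    have hav : A.valuation a ≤ 1 := (A.valuation_le_one_iff _).mpr haA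
    have h432 : A.valuation (432 : L) = 1 := le_antisymm (lit_le A 432)
      (hne.trans (mul_le_of_le_one_right' hav))
    rw [h432, one_mul] at hne
    have ha1 : A.valuation a = 1 := le_antisymm hav hne
    have h4 : A.valuation (4 : L) = 1 := by
      refine le_antisymm (lit_le A 4) ?_
      rw [← h432, show (432 : L) = 4 * 108 by norm_num, map_mul]
      exact mul_le_of_le_one_right' (lit_le A 108)
    have hb6 : 4 * a * (W.a₁ + 2 * s) ^ 6 = W.b₆ + 2 * r * W.b₄ + r ^ 2 * W.b₂ + 4 * r ^ 3 := by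
      rw [ha]
      field_simp
      rw [b₂, b₄, b₆]
      linear_combination -(W.a₃ + r * W.a₁ + 2 * t) * ht3
    have hdiff : W.b₆ + 2 * r * W.b₄ + r ^ 2 * W.b₂ + 4 * r ^ 3 =
        (W.b₆ + 2 * x₀ * W.b₄ + x₀ ^ 2 * W.b₂ + 4 * x₀ ^ 3) +
          d * (2 * W.b₄ + (2 * x₀ + d) * W.b₂ + 4 * (3 * x₀ ^ 2 + 3 * x₀ * d + d ^ 2)) := by
      rw [hr]; ring
    have hlt : A.valuation (W.b₆ + 2 * r * W.b₄ + r ^ 2 * W.b₂ + 4 * r ^ 3) < 1 := by
      have hdA := mem_of_valuation_lt_one hd1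
      have h4A : (4 : L) ∈ A := (lit_mem A 4)
      have hb2 := b₂_mem hW
      have hb4' := b₄_mem hW
      have hb6' := b₆_mem hW
      rw [hdiff, hx₀, nodeX_b₆ hc0]
      refine valuation_add_lt_one ?_ (valuation_mul_lt_one hd1 ?_)
      · rw [map_div₀, map_pow, hc₄, one_pow, div_one]
        refine valuation_mul_lt_one hΔ ?_
        have h144 : (144 : L) ∈ A := (lit_mem A 144)
        have h864 : (864 : L) ∈ A := (lit_mem A 864)
        repeat' first
          | assumption | apply neg_mem | apply sub_mem | apply add_mem | apply mul_mem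
          | apply pow_mem
      · repeat' first
          | assumption | apply sub_mem | apply add_mem | apply mul_mem | apply pow_mem
    rw [← hb6, map_mul, map_mul, map_pow, h4, ha1, huv, one_pow, one_mul, one_mul] at hlt
    exact lt_irrefl _ hlt
  have hunit : A.valuation (-1 - 432 * a) = 1 := by
    rw [A.valuation.map_sub_eq_of_lt_left (by rwa [Valuation.map_neg, map_one]),
      Valuation.map_neg, map_one]
  have hav : A.valuation a = A.valuation W.Δ := by rwa [hunit, mul_one] at hΔ'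
  refine ⟨C, a, ⟨huv, hrA, hsA, htA⟩, hCW, ha0, hav, ?_, ?_⟩
  · show A.valuation (r - x₀) ≤ _
    rw [show r - x₀ = d by rw [hr]; ring]
    exact hdΔ
  intro σ hσ h1 h2 h3 h4 h6
  have hσb2 : σ W.b₂ = W.b₂ := by simp [b₂, h1, h2, map_ofNat]
  have hσb4 : σ W.b₄ = W.b₄ := by simp [b₄, h1, h3, h4, map_ofNat]
  have hσb6 : σ W.b₆ = W.b₆ := by simp [b₆, h3, h6, map_ofNat]
  have hσr : σ r = r := by
    have heq : (σ r - r) * (6 * (σ r + r) + W.b₂) = 0 := by
      have := congrArg σ hb4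
      simp only [map_add, map_mul, map_pow, map_ofNat, hσb2, hσb4, map_zero] at this
      linear_combination this - hb4
    rcases mul_eq_zero.mp heq with h | h
    · exact sub_eq_zero.mp h
    · exfalso
      have hlt : A.valuation (6 * (σ r - r)) < 1 := by
        rw [mul_comm]; exact valuation_mul_lt_one (hσ r hrA).2 (lit_mem A 6)
      rw [show 6 * (σ r - r) = -(W.b₂ + 12 * r) by linear_combination h, Valuation.map_neg,
        hB'] at hlt
      exact lt_irrefl _ hlt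
  have hσt : σ t = t := htu σ h1 h2 h3 h4 hσr
  have hσs : σ s = s := by
    have heq : (σ s - s) * (σ s + s + W.a₁) = 0 := by
      have := congrArg σ hs
      simp only [map_add, map_mul, map_pow, map_ofNat, map_neg, map_one, h1, h2, hσr, map_zero]
        at this
      linear_combination this - hs
    rcases mul_eq_zero.mp heq with h | h
    · exact sub_eq_zero.mp h
    · exfalso
      have hlt : A.valuation (σ s - s) < 1 := (hσ s hsA).2
      rw [show σ s - s = -(W.a₁ + 2 * s) by linear_combination h, Valuation.map_neg, huv] at hlt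
      exact lt_irrefl _ hlt
  refine ⟨?_, hσr, hσs, hσt, ?_⟩
  · simp [hC, h1, hσs, map_ofNat]
  · simp [ha, h1, h2, h3, h4, h6, hσr, hσs, hσt, map_ofNat]

end FLTA.EllReduction
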