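import Fermat.Agent.EllReduction.NodeBasic
import Mathlib.RingTheory.RootsOfUnity.PrimitiveRoots
import Mathlib.Algebra.CharP.Lemmas

/-!
# The smooth part of the nodal cubic `y² + xy = x³` is the multiplicative group
-/

set_option autoImplicit false

open scoped Classical

namespace FLTA.EllReduction

open WeierstrassCurve WeierstrassCurve.Affine

section NodalCubic

variable {k : Type*} [Field k]

lemma nodeZero_coords {x y : k} (h : (nodeCurve (0 : k)).toAffine.Nonsingular x y) :
    x ≠ 0 ∧ y ≠ 0 ∧ y + x ≠ 0 := by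
  have he : y * (y + x) = x ^ 3 := by simpa using nodeCurve_equation.mp h.1
  have hx : x ≠ 0 := by
    rintro rfl
    have hy : y = 0 := by
      rcases mul_eq_zero.mp (he.trans (zero_pow three_ne_zero)) with h' | h'
      · exact h'
      · simpa using h'
    subst hy
    rw [nonsingular_zero] at h
    simp [nodeCurve] at h
  have := mul_ne_zero_iff.mp (he.symm ▸ pow_ne_zero 3 hx)
  exact ⟨hx, this.1, this.2⟩

/-- The multiplicative parameter `(y + x) / y`. -/
noncomputable def torusParam : (nodeCurve (0 : k)).toAffine.Point → kˣ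
  | .zero => 1
  | .some x y h => Units.mk0 ((y + x) / y)
      (div_ne_zero (nodeZero_coords h).2.2 (nodeZero_coords h).2.1)

@[simp] lemma torusParam_zero : torusParam (0 : (nodeCurve (0 : k)).toAffine.Point) = 1 := rfl

@[simp] lemma torusParam_some {x y : k} (h : (nodeCurve (0 : k)).toAffine.Nonsingular x y) :
    (torusParam (.some x y h) : k) = (y + x) / y := rfl

lemma torusParam_neg (P : (nodeCurve (0 : k)).toAffine.Point) :
    torusParam (-P) = (torusParam P)⁻¹ := by
  cases P with
  | zero => simp [← Point.zero_def]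
  | some x y h =>
    obtain ⟨-, hy, hw⟩ := nodeZero_coords h
    ext
    rw [Point.neg_some, Units.val_inv_eq_inv_val, torusParam_some, torusParam_some, nodeCurve_negY,
      inv_div]
    field_simp
    ring

lemma torusParam_injective : Function.Injective (torusParam (k := k)) := by
  have key : ∀ {x y : k}, (nodeCurve (0 : k)).toAffine.Equation x y → x ≠ 0 → y ≠ 0 →
      ((y + x) / y - 1) ^ 3 * y = (y + x) / y := by
    intro x y h hx hy
    have he : y * (y + x) = x ^ 3 := by simpa using nodeCurve_equation.mp h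
    field_simp
    linear_combination -he
  rintro (_ | ⟨x₁, y₁, h₁⟩) (_ | ⟨x₂, y₂, h₂⟩) h
  · rfl
  · obtain ⟨hx, hy, -⟩ := nodeZero_coords h₂
    rw [← Point.zero_def, torusParam_zero, Units.ext_iff, torusParam_some, Units.val_one,
      eq_div_iff hy, one_mul] at h
    exact absurd (by linear_combination -h) hx
  · obtain ⟨hx, hy, -⟩ := nodeZero_coords h₁
    rw [← Point.zero_def, torusParam_zero, Units.ext_iff, torusParam_some, Units.val_one,
      div_eq_one_iff_eq hy] at h
    exact absurd (by linear_combination h) hx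
  · obtain ⟨hx₁, hy₁, hw₁⟩ := nodeZero_coords h₁
    obtain ⟨hx₂, hy₂, -⟩ := nodeZero_coords h₂
    rw [Units.ext_iff, torusParam_some, torusParam_some] at h
    have k₁ := key h₁.1 hx₁ hy₁
    have k₂ := key h₂.1 hx₂ hy₂
    rw [← h] at k₂
    have hne : ((y₁ + x₁) / y₁ - 1) ^ 3 ≠ 0 := by
      intro e
      rw [e, zero_mul, eq_comm] at k₁
      exact div_ne_zero hw₁ hy₁ k₁
    have hy : y₁ = y₂ := mul_left_cancel₀ hne (k₁.trans k₂.symm)
    subst hy
    have hx : x₁ = x₂ := by
      field_simp at h
      linear_combination h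
    subst hx
    rfl

variable [DecidableEq k]

lemma torusParam_add (P Q : (nodeCurve (0 : k)).toAffine.Point) :
    torusParam (P + Q) = torusParam P * torusParam Q := by
  cases P with
  | zero => simp [← Point.zero_def]
  | some x₁ y₁ h₁ =>
    cases Q with
    | zero => simp [← Point.zero_def]
    | some x₂ y₂ h₂ =>
      by_cases hne : x₁ = x₂ ∧ y₁ = (nodeCurve (0 : k)).toAffine.negY x₂ y₂
      · obtain ⟨rfl, rfl⟩ := hne
        rw [Point.add_of_Y_eq rfl rfl, torusParam_zero]
        have := torusParam_neg (.some x₁ y₂ h₂)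
        rw [Point.neg_some] at this
        rw [this, inv_mul_cancel]
      · have hR := nonsingular_negAdd h₁ h₂ hne
        have hsum : (.some x₁ y₁ h₁ + .some x₂ y₂ h₂ : (nodeCurve (0 : k)).toAffine.Point)
            = -.some _ _ hR := by
          rw [Point.add_some hne, Point.neg_some]; rfl
        rw [hsum, torusParam_neg, inv_eq_iff_mul_eq_one]
        ext
        rw [Units.val_mul, Units.val_mul, Units.val_one, torusParam_some, torusParam_some,
          torusParam_some]
        obtain ⟨-, hy₁, -⟩ := nodeZero_coords h₁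
        obtain ⟨-, hy₂, -⟩ := nodeZero_coords h₂
        obtain ⟨-, hy₃, -⟩ := nodeZero_coords hR
        have e₂ := slope_symm_sum₂ h₁.1 h₂.1 hne
        have e₃ := slope_symm_sum₃ h₁.1 h₂.1 hne
        have hI := slope_mul_X_sub h₁.1 h₂.1 hne
        simp only [negAddY] at hy₃ ⊢
        set lam := (nodeCurve (0 : k)).toAffine.slope x₁ x₂ y₁ y₂
        set x₃ := (nodeCurve (0 : k)).toAffine.addX x₁ x₂ lam with hx₃
        have e₁ : x₁ + x₂ + x₃ = lam ^ 2 + lam := by
          rw [hx₃]; simp only [addX, nodeCurve]; ring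
        simp only [nodeCurve] at e₂ e₃
        generalize hmu : y₁ - lam * x₁ = mu at e₂ e₃
        have l₁ : y₁ = lam * x₁ + mu := by rw [← hmu]; ring
        have l₂ : y₂ = lam * x₂ + mu := by rw [← hmu]; linear_combination hI
        have l₃ : lam * (x₃ - x₁) + y₁ = lam * x₃ + mu := by rw [← hmu]; ring
        rw [l₃] at hy₃ ⊢
        rw [l₁] at hy₁ ⊢
        rw [l₂] at hy₂ ⊢
        field_simp
        linear_combination ((lam + 1) ^ 3 - lam ^ 3) * e₃ + ((lam + 1) ^ 2 - lam ^ 2) * mu * e₂
          + mu ^ 2 * e₁

/-- The parameter as a homomorphism. -/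
noncomputable def torusHom : (nodeCurve (0 : k)).toAffine.Point →+ Additive kˣ where
  toFun P := Additive.ofMul (torusParam P)
  map_zero' := rfl
  map_add' P Q := congrArg Additive.ofMul (torusParam_add P Q)

lemma torusParam_nsmul (n : ℕ) (P : (nodeCurve (0 : k)).toAffine.Point) :
    torusParam (n • P) = torusParam P ^ n :=
  congrArg Additive.toMul (map_nsmul torusHom n P)

/-- The nodal cubic has no torsion of order equal to the characteristic. -/
lemma nodeZero_eq_zero_of_char_nsmul {q : ℕ} [Fact q.Prime] [CharP k q]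
    {P : (nodeCurve (0 : k)).toAffine.Point} (hP : q • P = 0) : P = 0 := by
  refine torusParam_injective ?_
  have h := congrArg torusParam hP
  rw [torusParam_nsmul, torusParam_zero, Units.ext_iff, Units.val_pow_eq_pow_val, Units.val_one] at h
  ext
  rw [torusParam_zero, Units.val_one, ← sub_eq_zero]
  refine pow_eq_zero_iff (n := q) (NeZero.ne q) |>.mp ?_
  rw [sub_pow_char, one_pow, h, sub_self]

/-- The `p`-torsion of the nodal cubic is cyclic. -/
lemma nodeZero_exists_nsmul {p : ℕ} (hp : p.Prime)
    {P Q : (nodeCurve (0 : k)).toAffine.Point} (hP : p • P = 0) (hQ : p • Q = 0) (hP0 : P ≠ 0) :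
    ∃ m : ℕ, Q = m • P := by
  have : NeZero p := ⟨hp.ne_zero⟩
  have : Fact p.Prime := ⟨hp⟩
  have hz : orderOf (torusParam P) = p := by
    refine orderOf_eq_prime ?_ fun e => hP0 (torusParam_injective (e.trans torusParam_zero.symm))
    rw [← torusParam_nsmul, hP, torusParam_zero]
  have hprim : IsPrimitiveRoot ((torusParam P : kˣ) : k) p := by
    rw [IsPrimitiveRoot.coe_units_iff]
    exact hz ▸ IsPrimitiveRoot.orderOf _
  have hQ' : ((torusParam Q : kˣ) : k) ^ p = 1 := by
    rw [← Units.val_pow_eq_pow_val, ← torusParam_nsmul, hQ, torusParam_zero, Units.val_one]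
  obtain ⟨m, -, hm⟩ := hprim.eq_pow_of_pow_eq_one hQ'
  refine ⟨m, torusParam_injective ?_⟩
  ext
  rw [torusParam_nsmul, Units.val_pow_eq_pow_val, hm]

end NodalCubic

section Reduction

variable {L : Type*} [Field L] {A : ValuationSubring L} {a : L}

lemma reducedCurve_nodeCurve (ha : A.valuation a < 1) :
    reducedCurve (nodeCurve_integralAt ha) = nodeCurve (0 : IsLocalRing.ResidueField A) := by
  ext
  · exact map_one (IsLocalRing.residue A)
  · exact map_zero (IsLocalRing.residue A)
  · exact map_zero (IsLocalRing.residue A)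
  · exact map_zero (IsLocalRing.residue A)
  · exact (IsLocalRing.residue_eq_zero_iff _).mpr ((A.valuation_lt_one_iff _).mpr ha)

end Reduction

end FLTA.EllReduction
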