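import Fermat.Agent.EllReduction.IntModel
import Fermat.Agent.EllReduction.NormalForm
import Fermat.Agent.EllReduction.NodeGroup
import Fermat.Agent.EllReduction.Torus
import Mathlib.FieldTheory.Galois.Infinite

/-!
# Integral curves at a multiplicative place: transfer to the node model
-/

set_option autoImplicit false

open scoped Classical

namespace FLTA.EllReduction

open WeierstrassCurve WeierstrassCurve.Affine FLTA.EllIsogeny

open scoped WeierstrassCurve.Affine

local notation "Qbar" => AlgebraicClosure ℚ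

-- use the algebra structure of the prelude definitions
attribute [local instance 10000] AlgebraicClosure.instAlgebra

/-- An element fixed by the whole Galois group is rational, so its valuation is a power of `v q`. -/
lemma exists_zpow_of_fixed {A : ValuationSubring Qbar} {q : ℕ} (hq : q.Prime)
    (hA : A.LiesOverPrime q) {x : Qbar} (hx0 : x ≠ 0)
    (hfix : ∀ σ : Qbar ≃ₐ[ℚ] Qbar, σ x = x) :
    ∃ j : ℤ, A.valuation x = A.valuation (q : Qbar) ^ j := by
  have : Algebra.IsAlgebraic ℚ Qbar := AlgebraicClosure.isAlgebraic ℚ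
  have : IsAlgClosure ℚ Qbar := ⟨inferInstance, inferInstance⟩
  have : Algebra.IsSeparable ℚ Qbar := Algebra.IsAlgebraic.isSeparable_of_perfectField
  have : Normal ℚ Qbar := IsAlgClosure.normal ℚ Qbar
  have : IsGalois ℚ Qbar := ⟨⟩
  obtain ⟨r, rfl⟩ := (InfiniteGalois.mem_range_algebraMap_iff_fixed x).mpr hfix
  have hr : r ≠ 0 := fun e => hx0 (by rw [e, map_zero])
  refine ⟨(padicValInt q r.num : ℤ) - padicValInt q r.den, ?_⟩
  have e : (algebraMap ℚ Qbar r) = ((r.num : ℤ) : Qbar) / (((r.den : ℕ) : ℤ) : Qbar) := by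
    conv_lhs => rw [← Rat.num_div_den r]
    simp
  have hqpos : A.valuation (q : Qbar) ≠ 0 :=
    A.valuation.ne_zero_iff.mpr (Nat.cast_ne_zero.mpr hq.ne_zero)
  rw [e, map_div₀, FreyAux.valuation_intCast A hq hA (Rat.num_ne_zero.mpr hr),
    FreyAux.valuation_intCast A hq hA (Int.natCast_ne_zero.mpr r.den_ne_zero),
    zpow_sub₀ hqpos, zpow_natCast, zpow_natCast]

variable (W : WeierstrassCurve ℤ) (A : ValuationSubring Qbar)

/-- A node model of an integral curve with multiplicative reduction at `A`. -/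
structure MultData where
  /-- The change of variables. -/
  C : VariableChange Qbar
  /-- The parameter of the node model. -/
  a : Qbar
  integral : IntegralVC A C
  eq : C • geomCurve W = nodeCurve a
  ne : a ≠ 0
  lt : A.valuation a < 1
  val : A.valuation a = A.valuation (geomCurve W).Δ
  fix : ∀ σ : Qbar ≃ₐ[ℚ] Qbar, ActsTriviallyMod A σ →
    σ (C.u : Qbar) = C.u ∧ σ C.r = C.r ∧ σ C.s = C.s ∧ σ C.t = C.t ∧ σ a = a

variable {W A}

lemma exists_multData {q : ℕ} (hq : q.Prime) (hA : A.LiesOverPrime q) (hΔ : W.Δ ≠ 0)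
    (hΔq : (q : ℤ) ∣ W.Δ) (hc₄ : ¬ (q : ℤ) ∣ W.c₄) : Nonempty (MultData W A) := by
  obtain ⟨C, a, hC, heq, ha0, hval, -, hfix⟩ :=
    exists_normalForm (geomCurve_integralAt W A)
      (by rw [geomCurve_Δ]; exact valuation_intCast_lt_one hA hΔq)
      (by rw [geomCurve_c₄]; exact valuation_intCast_of_not_dvd hq hA hc₄)
      (by rw [geomCurve_Δ]; exact Int.cast_ne_zero.mpr hΔ)
  refine ⟨⟨C, a, hC, heq, ha0, ?_, hval, fun σ hσ => ?_⟩⟩
  · rw [hval, geomCurve_Δ]; exact valuation_intCast_lt_one hA hΔq
  · have e := geomCurve_eq W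
    refine hfix σ.toRingEquiv hσ ?_ ?_ ?_ ?_ ?_ <;>
      · rw [e]; exact map_intCast σ.toRingEquiv _

namespace MultData

variable (D : MultData W A)
include D

/-- The isomorphism from the node model. -/
noncomputable def equiv : (nodeCurve D.a).toAffine.Point ≃+ (geomCurve W).Point :=
  vcPointEquivOfEq D.eq

lemma equiv_some {x y : Qbar} (h : (nodeCurve D.a).toAffine.Nonsingular x y) :
    D.equiv (.some x y h)
      = .some (vcX D.C x) (vcY D.C x y) (vc_nonsingular_of_eq D.eq h) :=
  vcPointEquivOfEq_some D.eq h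

lemma nodeInt : IntegralAt A (nodeCurve D.a) := nodeCurve_integralAt D.lt

lemma inE0_iff (P : (nodeCurve D.a).toAffine.Point) :
    InE0 A (geomCurve W) (D.equiv P) ↔ InE0 A (nodeCurve D.a).toAffine P := by
  have : ∀ (W' : WeierstrassCurve.Affine Qbar) (h : D.C • geomCurve W = W') (P : W'.Point),
      InE0 A (geomCurve W) (vcPointEquivOfEq h P) ↔ InE0 A W' P := by
    intro W' h P
    subst h
    exact inE0_vcPointEquiv D.integral (geomCurve_integralAt W A) P
  exact this _ D.eq P

lemma inE1_iff (P : (nodeCurve D.a).toAffine.Point) :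
    InE1 A (geomCurve W) (D.equiv P) ↔ InE1 A (nodeCurve D.a).toAffine P := by
  have : ∀ (W' : WeierstrassCurve.Affine Qbar) (h : D.C • geomCurve W = W') (P : W'.Point),
      InE1 A (geomCurve W) (vcPointEquivOfEq h P) ↔ InE1 A W' P := by
    intro W' h P
    subst h
    exact inE1_vcPointEquiv D.integral P
  exact this _ D.eq P

lemma nonsingular_map {σ : Qbar ≃ₐ[ℚ] Qbar} (hσ : ActsTriviallyMod A σ) {x y : Qbar}
    (h : (nodeCurve D.a).toAffine.Nonsingular x y) :
    (nodeCurve D.a).toAffine.Nonsingular (σ x) (σ y) := by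
  refine (equation_iff_nonsingular_of_Δ_ne_zero (nodeCurve_Δ_ne_zero D.lt D.ne)).mp ?_
  have he := congrArg σ (nodeCurve_equation.mp h.1)
  simp only [map_add, map_mul, map_pow, (D.fix σ hσ).2.2.2.2] at he
  exact nodeCurve_equation.mpr he

lemma smul_equiv {σ : Qbar ≃ₐ[ℚ] Qbar} (hσ : ActsTriviallyMod A σ) {x y : Qbar}
    (h : (nodeCurve D.a).toAffine.Nonsingular x y) :
    Point.map (W' := W.map (Int.castRingHom ℚ)) (σ : Qbar →ₐ[ℚ] Qbar) (D.equiv (.some x y h))
      = D.equiv (.some (σ x) (σ y) (D.nonsingular_map hσ h)) := by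
  obtain ⟨hu, hr, hs, ht, -⟩ := D.fix σ hσ
  rw [D.equiv_some, D.equiv_some, Point.map_some]
  simp [vcX, vcY, hu, hr, hs, ht]

/-- Inertia preserves components. -/
lemma map_sub_inE0 {σ : Qbar ≃ₐ[ℚ] Qbar} (hσ : ActsTriviallyMod A σ)
    (hval : ∀ x, A.valuation (σ x) = A.valuation x) (P : (geomCurve W).Point) :
    InE0 A (geomCurve W)
      (Point.map (W' := W.map (Int.castRingHom ℚ)) (σ : Qbar →ₐ[ℚ] Qbar) P - P) := by
  obtain ⟨Q, rfl⟩ := D.equiv.surjective P
  cases Q with
  | zero =>
    rw [← Point.zero_def, map_zero, map_zero, sub_zero]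
    exact inE0_zero _
  | some x y h =>
    rw [D.smul_equiv hσ h, ← map_sub, D.inE0_iff]
    exact node_same_component D.lt D.ne (hval x) (hval y) (by rw [← map_add]; exact hval _)

lemma exists_torus_hom :
    ∃ φ : E0 (geomCurve_integralAt W A) →+ (nodeCurve (0 : IsLocalRing.ResidueField A)).toAffine.Point,
      ∀ P, φ P = 0 ↔ InE1 A (geomCurve W) P.1 := by
  have key : ∀ (W0 : WeierstrassCurve (IsLocalRing.ResidueField A))
      (_ : W0 = nodeCurve (0 : IsLocalRing.ResidueField A)),
      ∃ ψ : W0.toAffine.Point →+ (nodeCurve (0 : IsLocalRing.ResidueField A)).toAffine.Point,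
        Function.Injective ψ := by
    rintro W0 rfl
    exact ⟨AddMonoidHom.id _, fun _ _ h => h⟩
  obtain ⟨ψ, hψ⟩ := key _ (reducedCurve_nodeCurve D.lt)
  let back : E0 (geomCurve_integralAt W A) →+ E0 D.nodeInt :=
    { toFun := fun P => ⟨D.equiv.symm P.1, by
        rw [mem_E0, ← D.inE0_iff, AddEquiv.apply_symm_apply]
        exact P.2⟩
      map_zero' := Subtype.ext (map_zero D.equiv.symm)
      map_add' := fun P Q => Subtype.ext (map_add D.equiv.symm P.1 Q.1) }
  refine ⟨ψ.comp ((red D.nodeInt).comp back), fun P => ?_⟩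
  rw [AddMonoidHom.comp_apply, map_eq_zero_iff ψ hψ, AddMonoidHom.comp_apply, red_eq_zero_iff,
    ← D.inE1_iff]
  show InE1 A (geomCurve W) (D.equiv (D.equiv.symm P.1)) ↔ _
  rw [AddEquiv.apply_symm_apply]

/-- A point fixed by the whole Galois group is killed by `n` in the component group, where
`v a = v q ^ n`. -/
lemma nsmul_inE0_of_fixed {q : ℕ} (hq : q.Prime) (hA : A.LiesOverPrime q) {n : ℕ}
    (hn : A.valuation D.a = A.valuation (q : Qbar) ^ n) {P : (geomCurve W).Point}
    (hP : ∀ σ : Qbar ≃ₐ[ℚ] Qbar,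
      Point.map (W' := W.map (Int.castRingHom ℚ)) (σ : Qbar →ₐ[ℚ] Qbar) P = P) :
    InE0 A (geomCurve W) (n • P) := by
  obtain ⟨Q, rfl⟩ := D.equiv.surjective P
  rw [← map_nsmul, D.inE0_iff]
  cases Q with
  | zero => simp [← Point.zero_def]
  | some x y h =>
    set X := vcX D.C x with hX
    set Y := vcY D.C x y with hY
    have hfix : ∀ σ : Qbar ≃ₐ[ℚ] Qbar, σ X = X ∧ σ Y = Y := fun σ => by
      have := hP σ
      rw [D.equiv_some, Point.map_some, Point.some.injEq] at this
      exact this
    set R := (geomCurve W).polynomialY.evalEval X Y with hR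
    set T := (geomCurve W).polynomialX.evalEval X Y with hT
    have hRfix : ∀ σ : Qbar ≃ₐ[ℚ] Qbar, σ R = R ∧ σ T = T := fun σ => by
      obtain ⟨h1, h2⟩ := hfix σ
      rw [hR, hT, evalEval_polynomialY, evalEval_polynomialX, geomCurve_eq]
      simp [h1, h2, map_ofNat]
    have eY : 2 * y + x = ((D.C.u : Qbar)⁻¹) ^ 3 * R := by
      have := polynomialY_vc (W := geomCurve W) (C := D.C) x y
      rw [D.eq, evalEval_polynomialY] at this
      rw [hR, ← this]
      simp only [nodeCurve]
      ring
    have eX : y - 3 * x ^ 2 = ((D.C.u : Qbar)⁻¹) ^ 4 * (T + D.C.s * R) := by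
      have := polynomialX_vc (W := geomCurve W) (C := D.C) x y
      rw [D.eq, evalEval_polynomialX] at this
      rw [hR, hT, ← this]
      simp only [nodeCurve]
      ring
    have hRv : A.valuation (2 * y + x) = A.valuation R := by
      rw [eY, map_mul, map_pow, map_inv₀, D.integral.u, inv_one, one_pow, one_mul]
    have hfinish : ∀ {z : Qbar}, (∀ σ : Qbar ≃ₐ[ℚ] Qbar, σ z = z) → A.valuation z ≠ 0 →
        ∃ j : ℤ, A.valuation z = A.valuation (q : Qbar) ^ j := fun hz hz0 =>
      exists_zpow_of_fixed hq hA (fun e => hz0 (by rw [e, map_zero])) hz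
    have h2A : (2 : Qbar) ∈ A := (show ((2 : ℕ) : Qbar) = 2 from rfl) ▸ natCast_mem A 2
    have h3A : (3 : Qbar) ∈ A := (show ((3 : ℕ) : Qbar) = 3 from rfl) ▸ natCast_mem A 3
    have h2 : ∀ z : Qbar, A.valuation (2 * z) ≤ A.valuation z := fun z => by
      rw [map_mul]; exact mul_le_of_le_one_left' (valuation_le_one_of_mem h2A)
    refine node_nsmul_inE0 D.lt D.ne (π := (q : Qbar)) hA hn (fun hx hlt => ?_) (fun hx hmid => ?_)
    · have hv : A.valuation (2 * y + x) = A.valuation x := by
        rcases node_branch h.1 hx hlt with hb | hb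
        · exact A.valuation.map_add_eq_of_lt_right ((h2 y).trans_lt hb)
        · rw [show 2 * y + x = 2 * (y + x) - x by ring]
          exact A.valuation.map_sub_eq_of_lt_right ((h2 _).trans_lt hb)
      have hx0 : A.valuation x ≠ 0 := fun e => by
        rw [e, zero_pow two_ne_zero] at hlt
        exact absurd hlt not_lt_zero
      obtain ⟨j, hj⟩ := hfinish (fun σ => (hRfix σ).1) (by rw [← hRv, hv]; exact hx0)
      exact ⟨j, by rw [← hv, hRv, hj]⟩
    · obtain ⟨hy, hw⟩ := node_middle D.lt D.ne h.1 hx hmid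
      have hy0 : A.valuation y ≠ 0 := fun e => by
        rw [e, zero_pow two_ne_zero] at hy
        exact D.ne ((map_eq_zero _).mp hy.symm)
      have hwy : A.valuation (y + x) = A.valuation y :=
        (pow_left_inj₀ zero_le zero_le two_ne_zero).mp (hw.trans hy.symm)
      have hxy : A.valuation x ≤ A.valuation y :=
        (pow_le_pow_iff_left₀ zero_le zero_le two_ne_zero).mp (hmid.trans hy.ge)
      have hle : A.valuation (2 * y + x) ≤ A.valuation y := A.valuation.map_add_le (h2 y) hxy
      rcases hle.lt_or_eq with hlt | heq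
      · -- then the `X`-derivative has valuation exactly `v y`
        have h3 : A.valuation (y - 3 * x ^ 2) = A.valuation y := by
          refine A.valuation.map_sub_eq_of_lt_left ?_
          have h3x : A.valuation (3 * x ^ 2) ≤ A.valuation x * A.valuation x := by
            rw [map_mul, map_pow, sq]; exact mul_le_of_le_one_left' (valuation_le_one_of_mem h3A)
          refine h3x.trans_lt ?_
          calc A.valuation x * A.valuation x ≤ A.valuation x * A.valuation y := by gcongr
            _ < 1 * A.valuation y := mul_lt_mul_of_pos_right hx (zero_lt_iff.mpr hy0)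
            _ = A.valuation y := one_mul _
        rw [eX, map_mul, map_pow, map_inv₀, D.integral.u, inv_one, one_pow, one_mul,
          A.valuation.map_add_eq_of_lt_left] at h3
        · obtain ⟨j, hj⟩ := hfinish (fun σ => (hRfix σ).2) (by rw [h3]; exact hy0)
          exact ⟨j, by rw [← h3, hj]⟩
        · have hsR : A.valuation (D.C.s * R) < A.valuation y := by
            rw [map_mul]
            exact (mul_le_of_le_one_left' (valuation_le_one_of_mem D.integral.s)).trans_lt
              (hRv ▸ hlt)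
          by_contra hc
          have := A.valuation.map_add_lt ((not_lt.mp hc).trans_lt hsR) hsR
          exact this.ne h3
      · obtain ⟨j, hj⟩ := hfinish (fun σ => (hRfix σ).1) (by rw [← hRv, heq]; exact hy0)
        exact ⟨j, by rw [← heq, hRv, hj]⟩

/-- If an odd prime `p ≠ q` divides `n`, `p`-torsion points are fixed by inertia. -/
lemma map_eq_of_dvd {q : ℕ} (hq : q.Prime) (hA : A.LiesOverPrime q) {n : ℕ}
    (hn : A.valuation D.a = A.valuation (q : Qbar) ^ n) {p : ℕ} (hp : p.Prime) (hp2 : p ≠ 2)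
    (hpq : p ≠ q) (hpn : p ∣ n) {σ : Qbar ≃ₐ[ℚ] Qbar} (hσ : ActsTriviallyMod A σ)
    {P : (geomCurve W).Point} (hpP : p • P = 0) :
    Point.map (W' := W.map (Int.castRingHom ℚ)) (σ : Qbar →ₐ[ℚ] Qbar) P = P := by
  have hWg := geomCurve_integralAt W A
  have hp1 : A.valuation (p : Qbar) = 1 := valuation_natCast_of_not_dvd hq hA
    (fun h => hpq ((Nat.prime_dvd_prime_iff_eq hq hp).mp h).symm)
  set f := Point.map (W' := W.map (Int.castRingHom ℚ)) (σ : Qbar →ₐ[ℚ] Qbar) with hf
  -- a point congruent to `P` modulo the identity component and fixed by `σ` suffices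
  have step : ∀ R : (geomCurve W).Point, f R = R → InE0 A (geomCurve W) (P - R) → f P = P := by
    intro R hR h0
    have h1 : InE1 A (geomCurve W) (f (P - R) - (P - R)) := hσ.map_sub_inE1 hWg h0
    have h2 : f (P - R) - (P - R) = 0 := by
      refine eq_zero_of_inE1_of_nsmul_eq_zero hWg hp1 h1 ?_
      rw [nsmul_sub, ← map_nsmul, nsmul_sub, hpP, zero_sub, map_neg, map_nsmul, hR, sub_self]
    rw [map_sub, hR, sub_eq_zero, sub_left_inj] at h2
    exact h2
  obtain ⟨Q, rfl⟩ := D.equiv.surjective P
  have hpQ : p • Q = 0 := D.equiv.injective (by rw [map_nsmul, hpP, map_zero])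
  have hdiv : ∀ x : Qbar, x ≠ 0 → ∃ N : ℕ, 0 < N ∧ ∃ M : ℤ,
      A.valuation x ^ N = A.valuation (q : Qbar) ^ M := fun x hx => by
    have : @Algebra.IsAlgebraic ℚ Qbar _ _ DivisionRing.toRatAlgebra := AlgebraicClosure.isAlgebraic ℚ
    obtain ⟨d, i, hd, hdi⟩ := FreyAux.exists_zpow_eq A hq hA hx
    exact ⟨d, hd, i, hdi⟩
  rcases node_exists_fixed D.lt D.ne (π := (q : Qbar)) hA hn hp hp2 hpn hdiv Q
    (by rw [hpQ]; exact inE0_zero _) with h0 | ⟨i, y, hns, hy, hcase⟩
  · exact step 0 (map_zero f) (by rw [sub_zero]; exact (D.inE0_iff Q).mpr h0)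
  · set c : Qbar := (q : Qbar) ^ i with hc
    have hσc : σ c = c := by rw [hc, map_pow, map_natCast]
    have hσy : σ y = y := by
      have he := nodeCurve_equation.mp hns.1
      have he' := congrArg σ he
      simp only [map_add, map_mul, map_pow, hσc, (D.fix σ hσ).2.2.2.2] at he'
      have : (σ y - y) * (σ y + y + c) = 0 := by linear_combination he' - he
      rcases mul_eq_zero.mp this with h' | h'
      · exact sub_eq_zero.mp h'
      · exfalso
        have hv := hσ.valuation_eq hq hA y
        rw [show σ y = -(y + c) by linear_combination h', Valuation.map_neg,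
          A.valuation.map_add_eq_of_lt_right hy] at hv
        exact hy.ne hv.symm
    have hR : f (D.equiv (.some c y hns)) = D.equiv (.some c y hns) := by
      rw [hf, D.smul_equiv hσ hns]
      congr 1
      simp only [Point.some.injEq]
      exact ⟨hσc, hσy⟩
    rcases hcase with h | h
    · exact step _ hR (by rw [← map_sub, D.inE0_iff]; exact h)
    · refine step (-D.equiv (.some c y hns)) (by rw [map_neg, hR]) ?_
      rw [sub_neg_eq_add, ← map_add, D.inE0_iff]
      exact h

end MultData

end FLTA.EllReduction
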