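import Fermat.Agent.EllReduction.Hom

/-!
# The kernel of reduction has no torsion of order invertible in the residue field

We use the parameter `z = -x/y` and show that it is additive modulo the square of its size.
-/

set_option autoImplicit false

open scoped Classical

namespace FLTA.EllReduction

open WeierstrassCurve WeierstrassCurve.Affine

variable {L : Type*} [Field L] {A : ValuationSubring L} {W : WeierstrassCurve.Affine L}
  (hW : IntegralAt A W)

/-- The parameter at infinity. -/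
noncomputable def zCoord : W.Point → L
  | .zero => 0
  | .some x y _ => -x / y

@[simp] lemma zCoord_zero : zCoord (0 : W.Point) = 0 := rfl

@[simp] lemma zCoord_some {x y : L} (h : W.Nonsingular x y) : zCoord (.some x y h) = -x / y := rfl

include hW

/-- Basic facts on the coordinates of a point of the kernel of reduction. -/
lemma kernel_coords {x y : L} (h : W.Equation x y) (hx : x ∉ A) :
    y ≠ 0 ∧ A.valuation (-x / y) < 1 ∧ A.valuation (-1 / y) ≤ A.valuation (-x / y) ^ 2 ∧
      A.valuation x * A.valuation (-x / y) ^ 2 = 1 ∧ 0 < A.valuation (-x / y) := by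
  obtain ⟨hsq, hlt, -⟩ := valuation_y_sq_of_x_notMem hW h hx
  have hx1 := one_lt_valuation_of_notMem hx
  have hX0 : A.valuation x ≠ 0 := (zero_lt_one.trans hx1).ne'
  have hy1 := hx1.trans hlt
  have hy : y ≠ 0 := fun e => by simp [e] at hy1
  have hz : A.valuation (-x / y) ^ 2 = (A.valuation x)⁻¹ := by
    rw [map_div₀, Valuation.map_neg, div_pow, hsq]
    field_simp
  refine ⟨hy, ?_, ?_, ?_, ?_⟩
  · rw [map_div₀, Valuation.map_neg]
    exact (div_lt_one₀ (zero_lt_one.trans hy1)).mpr hlt
  · rw [hz, map_div₀, Valuation.map_neg, map_one, one_div]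
    exact inv_anti₀ (zero_lt_one.trans hx1) hlt.le
  · rw [hz, mul_inv_cancel₀ hX0]
  · rw [map_div₀, Valuation.map_neg]
    exact div_pos (zero_lt_one.trans hx1) (zero_lt_one.trans hy1)

variable [DecidableEq L]

/-- Negation changes the sign of the parameter up to second order. -/
lemma zCoord_neg {P : W.Point} (hP : InE1 A W P) :
    A.valuation (zCoord (-P) + zCoord P) ≤ A.valuation (zCoord P) ^ 2 := by
  cases P with
  | zero =>
    rw [← Point.zero_def, neg_zero, zCoord_zero, add_zero, map_zero]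
    exact zero_le
  | some x y h =>
    obtain ⟨hy, hz, hw, -, -⟩ := kernel_coords hW h.1 hP
    rw [Point.neg_some, zCoord_some, zCoord_some]
    have hu : A.valuation (W.a₁ * (-x / y) + W.a₃ * (-1 / y)) ≤ A.valuation (-x / y) := by
      refine A.valuation.map_add_le ?_ ?_
      · rw [map_mul]; exact mul_le_of_le_one_left' (valuation_le_one_of_mem hW.a₁)
      · rw [map_mul]
        exact (mul_le_of_le_one_left' (valuation_le_one_of_mem hW.a₃)).trans
          (hw.trans (by rw [sq]; exact mul_le_of_le_one_left' hz.le))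
    have hone : A.valuation (1 - (W.a₁ * (-x / y) + W.a₃ * (-1 / y))) = 1 := by
      rw [A.valuation.map_sub_eq_of_lt_left (by rw [map_one]; exact hu.trans_lt hz), map_one]
    have hnegy : W.negY x y ≠ 0 := by
      intro e
      have : 1 - (W.a₁ * (-x / y) + W.a₃ * (-1 / y)) = 0 := by
        rw [negY] at e
        field_simp
        linear_combination -e
      rw [this, map_zero] at hone
      exact zero_ne_one hone
    have key : (-x / W.negY x y + -x / y) * (1 - (W.a₁ * (-x / y) + W.a₃ * (-1 / y)))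
        = -(-x / y) * (W.a₁ * (-x / y) + W.a₃ * (-1 / y)) := by
      have e : W.negY x y = -(y * (1 - (W.a₁ * (-x / y) + W.a₃ * (-1 / y)))) := by
        simp only [negY]
        field_simp
        ring
      rw [e] at hnegy ⊢
      generalize W.a₁ * (-x / y) + W.a₃ * (-1 / y) = t at hnegy
      have ht : 1 - t ≠ 0 := fun h0 => hnegy (by rw [h0, mul_zero, neg_zero])
      field_simp
      ring
    have := congrArg A.valuation key
    rw [map_mul, hone, mul_one, map_mul, Valuation.map_neg] at this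
    rw [this, sq]
    exact mul_le_mul_right hu _

omit [DecidableEq L] hW in
lemma w_equation {x y : L} (h : W.Equation x y) (hy : y ≠ 0) :
    -1 / y = (-x / y) ^ 3 + W.a₁ * (-x / y) * (-1 / y) + W.a₂ * (-x / y) ^ 2 * (-1 / y)
      + W.a₃ * (-1 / y) ^ 2 + W.a₄ * (-x / y) * (-1 / y) ^ 2 + W.a₆ * (-1 / y) ^ 3 := by
  rw [equation_iff] at h
  field_simp
  linear_combination -h

/-- The size estimate for the line through two points of the kernel of reduction. -/
lemma line_estimate {x₁ y₁ x₂ y₂ : L} (h₁ : W.Equation x₁ y₁) (h₂ : W.Equation x₂ y₂)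
    (hx₁ : x₁ ∉ A) (hx₂ : x₂ ∉ A) (hne : ¬(x₁ = x₂ ∧ y₁ = W.negY x₂ y₂)) {r : A.ValueGroup}
    (hr₁ : A.valuation (-x₁ / y₁) ≤ r) (hr₂ : A.valuation (-x₂ / y₂) ≤ r) (hr : r < 1) :
    y₁ - W.slope x₁ x₂ y₁ y₂ * x₁ ≠ 0 ∧
      A.valuation (W.slope x₁ x₂ y₁ y₂ / (y₁ - W.slope x₁ x₂ y₁ y₂ * x₁)) ≤ r ^ 2 ∧
      A.valuation (1 / (y₁ - W.slope x₁ x₂ y₁ y₂ * x₁)) ≤ r ^ 2 := by
  obtain ⟨hy₁, hz₁, hw₁, hxz₁, hzpos⟩ := kernel_coords hW h₁ hx₁
  obtain ⟨hy₂, hz₂, hw₂, -, -⟩ := kernel_coords hW h₂ hx₂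
  have hI := slope_mul_X_sub h₁ h₂ hne
  set lam := W.slope x₁ x₂ y₁ y₂ with hlam
  set mu := y₁ - lam * x₁ with hmu
  have hW₁ : A.valuation (-1 / y₁) ≤ r ^ 2 := hw₁.trans (pow_le_pow_left₀ zero_le hr₁ 2)
  have hr2 : r ^ 2 ≤ r := by rw [sq]; exact mul_le_of_le_one_left' hr.le
  suffices hmain : mu ≠ 0 ∧ A.valuation (lam / mu) ≤ r ^ 2 by
    refine ⟨hmain.1, hmain.2, ?_⟩
    have e : 1 / mu = -(-1 / y₁) + -((lam / mu) * (-x₁ / y₁)) := by
      have hmu0 := hmain.1
      field_simp
      rw [hmu]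
      ring
    rw [e]
    refine A.valuation.map_add_le ?_ ?_
    · rw [Valuation.map_neg]; exact hW₁
    · rw [Valuation.map_neg, map_mul]
      exact (mul_le_of_le_one_right' hz₁.le).trans hmain.2
  by_cases hzz : -x₁ / y₁ = -x₂ / y₂
  · -- equal parameters: the two points coincide
    have hU : ∀ {a b : L}, A.valuation a ≤ r → A.valuation b ≤ r → ∀ {c : L}, A.valuation c ≤ r →
        A.valuation (1 - (W.a₁ * a + W.a₂ * a ^ 2 + W.a₃ * (b + c) + W.a₄ * a * (b + c)
          + W.a₆ * (b ^ 2 + b * c + c ^ 2))) = 1 := by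
      intro a b ha hb c hc
      rw [A.valuation.map_sub_eq_of_lt_left, map_one]
      rw [map_one]
      have m : ∀ {u : L}, A.valuation u ≤ r → A.valuation u < 1 := fun h => h.trans_lt hr
      have n : ∀ {u : L}, A.valuation u ≤ r → u ∈ A := fun h => mem_of_valuation_lt_one (m h)
      refine valuation_add_lt_one (valuation_add_lt_one (valuation_add_lt_one
        (valuation_add_lt_one ?_ ?_) ?_) ?_) ?_
      · rw [mul_comm]; exact valuation_mul_lt_one (m ha) hW.a₁
      · rw [mul_comm, sq, mul_assoc]; exact valuation_mul_lt_one (m ha) (mul_mem (n ha) hW.a₂)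
      · rw [mul_comm]; exact valuation_mul_lt_one (valuation_add_lt_one (m hb) (m hc)) hW.a₃
      · rw [mul_comm]
        exact valuation_mul_lt_one (valuation_add_lt_one (m hb) (m hc)) (mul_mem hW.a₄ (n ha))
      · rw [mul_comm]
        refine valuation_mul_lt_one (valuation_add_lt_one (valuation_add_lt_one ?_ ?_) ?_) hW.a₆
        · rw [sq]; exact valuation_mul_lt_one (m hb) (n hb)
        · exact valuation_mul_lt_one (m hb) (n hc)
        · rw [sq]; exact valuation_mul_lt_one (m hc) (n hc)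
    have e₁ := w_equation h₁ hy₁
    have e₂ := w_equation h₂ hy₂
    rw [← hzz] at e₂
    have hdiff : (-1 / y₁ - -1 / y₂) * (1 - (W.a₁ * (-x₁ / y₁) + W.a₂ * (-x₁ / y₁) ^ 2
        + W.a₃ * (-1 / y₁ + -1 / y₂) + W.a₄ * (-x₁ / y₁) * (-1 / y₁ + -1 / y₂)
        + W.a₆ * ((-1 / y₁) ^ 2 + (-1 / y₁) * (-1 / y₂) + (-1 / y₂) ^ 2))) = 0 := by
      linear_combination e₁ - e₂
    have hu := hU hr₁ (hW₁.trans hr2) ((hw₂.trans (pow_le_pow_left₀ zero_le hr₂ 2)).trans hr2)
    have hyy : y₁ = y₂ := by
      rcases mul_eq_zero.mp hdiff with h' | h'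
      · field_simp at h'
        linear_combination h'
      · rw [h', map_zero] at hu
        exact absurd hu zero_ne_one
    subst hyy
    have hxx : x₁ = x₂ := by
      field_simp at hzz
      linear_combination -hzz
    subst hxx
    have hden : y₁ - W.negY x₁ y₁ ≠ 0 := sub_ne_zero.mpr fun e => hne ⟨rfl, e⟩
    have hII := slope_mul_Y_sub h₁ h₂ hne
    rw [← hlam] at hII
    set N := x₁ ^ 2 + x₁ * x₁ + x₁ ^ 2 + W.a₂ * (x₁ + x₁) + W.a₄ - W.a₁ * y₁ with hN
    set M := -x₁ ^ 3 + W.a₄ * x₁ + 2 * W.a₆ - W.a₃ * y₁ with hM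
    have hmuM : mu * (y₁ - W.negY x₁ y₁) = M := by
      rw [equation_iff] at h₁
      simp only [negY] at hII ⊢
      rw [hmu, hM]
      linear_combination -x₁ * hII + 2 * h₁
    obtain ⟨hsq, hlt, hlt2⟩ := valuation_y_sq_of_x_notMem hW h₁ hx₁
    have hx1 := one_lt_valuation_of_notMem hx₁
    have hMv : A.valuation M = A.valuation x₁ ^ 3 := by
      have e : M = -x₁ ^ 3 + (W.a₄ * x₁ + 2 * W.a₆ - W.a₃ * y₁) := by rw [hM]; ring
      rw [e, A.valuation.map_add_eq_of_lt_left, Valuation.map_neg, map_pow]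
      rw [Valuation.map_neg, map_pow]
      refine lt_of_le_of_lt (b := A.valuation y₁) ?_ (hlt2.trans (pow_lt_pow_right₀ hx1 (by norm_num)))
      refine A.valuation.map_sub_le (A.valuation.map_add_le ?_ ?_) ?_
      · rw [map_mul]; exact (mul_le_of_le_one_left' (valuation_le_one_of_mem hW.a₄)).trans hlt.le
      · exact (valuation_le_one_of_mem (mul_mem ((show ((2 : ℕ) : L) = 2 from rfl) ▸ natCast_mem A 2)
          hW.a₆)).trans (hx1.trans hlt).le
      · rw [map_mul]; exact mul_le_of_le_one_left' (valuation_le_one_of_mem hW.a₃)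
    have hNv : A.valuation N ≤ A.valuation x₁ ^ 2 := by
      have h2 : A.valuation (x₁ ^ 2) ≤ A.valuation x₁ ^ 2 := (map_pow _ _ _).le
      refine A.valuation.map_sub_le (A.valuation.map_add_le (A.valuation.map_add_le
        (A.valuation.map_add_le (A.valuation.map_add_le h2 (by rw [← sq]; exact h2)) h2) ?_) ?_) ?_
      · rw [map_mul]
        exact (mul_le_of_le_one_left' (valuation_le_one_of_mem hW.a₂)).trans
          ((A.valuation.map_add_le le_rfl le_rfl).trans (le_self_pow hx1.le (by norm_num)))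
      · exact (valuation_le_one_of_mem hW.a₄).trans (one_le_pow₀ hx1.le)
      · rw [map_mul]; exact (mul_le_of_le_one_left' (valuation_le_one_of_mem hW.a₁)).trans hlt2.le
    have hM0 : M ≠ 0 := by
      intro e
      rw [e, map_zero] at hMv
      exact (pow_pos (zero_lt_one.trans hx1) 3).ne hMv
    have hmu0 : mu ≠ 0 := fun e => hM0 (by rw [← hmuM, e, zero_mul])
    refine ⟨hmu0, ?_⟩
    have e : lam / mu = N / M := by
      rw [div_eq_div_iff hmu0 hM0, ← hmuM, ← hII]
      ring
    rw [e, map_div₀, hMv]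
    calc A.valuation N / A.valuation x₁ ^ 3 ≤ A.valuation x₁ ^ 2 / A.valuation x₁ ^ 3 := by
          gcongr
          exact zero_le
      _ = A.valuation (-x₁ / y₁) ^ 2 := by
          rw [eq_comm, eq_div_iff (pow_ne_zero _ (zero_lt_one.trans hx1).ne'),
            show A.valuation x₁ ^ 3 = A.valuation x₁ * A.valuation x₁ ^ 2 from pow_succ' _ _, ← mul_assoc,
            mul_comm _ (A.valuation x₁), hxz₁, one_mul]
      _ ≤ r ^ 2 := pow_le_pow_left₀ zero_le hr₁ 2
  · -- distinct parameters
    have hxx : x₁ - x₂ ≠ 0 := by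
      intro e
      rw [e, mul_zero, eq_comm, sub_eq_zero] at hI
      exact hzz (by rw [sub_eq_zero.mp e, hI])
    have hprod : mu * (x₁ - x₂) = -(y₁ * y₂ * (-x₁ / y₁ - -x₂ / y₂)) := by
      rw [hmu]
      field_simp
      linear_combination -x₁ * hI
    have hzne : -x₁ / y₁ - -x₂ / y₂ ≠ 0 := sub_ne_zero.mpr hzz
    have hmu0 : mu ≠ 0 := by
      intro e
      rw [e, zero_mul, eq_comm, neg_eq_zero, mul_eq_zero] at hprod
      exact hprod.elim (fun h => mul_ne_zero hy₁ hy₂ h) hzne
    refine ⟨hmu0, ?_⟩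
    set z₁ := -x₁ / y₁ with hz₁def
    set z₂ := -x₂ / y₂ with hz₂def
    set w₁ := -1 / y₁ with hw₁def
    set w₂ := -1 / y₂ with hw₂def
    have hW₂ : A.valuation w₂ ≤ r ^ 2 := hw₂.trans (pow_le_pow_left₀ zero_le hr₂ 2)
    set U := 1 - (W.a₁ * z₁ + W.a₂ * z₁ ^ 2 + W.a₃ * (w₁ + w₂) + W.a₄ * z₁ * (w₁ + w₂)
        + W.a₆ * (w₁ ^ 2 + w₁ * w₂ + w₂ ^ 2)) with hUdef
    set V := z₁ ^ 2 + z₁ * z₂ + z₂ ^ 2 + W.a₁ * w₂ + W.a₂ * (z₁ + z₂) * w₂ + W.a₄ * w₂ ^ 2 with hVdef
    have m : ∀ {u : L}, A.valuation u ≤ r → A.valuation u < 1 := fun h => h.trans_lt hr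
    have n : ∀ {u : L}, A.valuation u ≤ r → u ∈ A := fun h => mem_of_valuation_lt_one (m h)
    have hUv : A.valuation U = 1 := by
      rw [hUdef, A.valuation.map_sub_eq_of_lt_left, map_one]
      rw [map_one]
      have hb := hW₁.trans hr2
      have hc := hW₂.trans hr2
      refine valuation_add_lt_one (valuation_add_lt_one (valuation_add_lt_one
        (valuation_add_lt_one ?_ ?_) ?_) ?_) ?_
      · rw [mul_comm]; exact valuation_mul_lt_one (m hr₁) hW.a₁
      · rw [mul_comm, sq, mul_assoc]; exact valuation_mul_lt_one (m hr₁) (mul_mem (n hr₁) hW.a₂)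
      · rw [mul_comm]; exact valuation_mul_lt_one (valuation_add_lt_one (m hb) (m hc)) hW.a₃
      · rw [mul_comm]
        exact valuation_mul_lt_one (valuation_add_lt_one (m hb) (m hc)) (mul_mem hW.a₄ (n hr₁))
      · rw [mul_comm]
        refine valuation_mul_lt_one (valuation_add_lt_one (valuation_add_lt_one ?_ ?_) ?_) hW.a₆
        · rw [sq]; exact valuation_mul_lt_one (m hb) (n hb)
        · exact valuation_mul_lt_one (m hb) (n hc)
        · rw [sq]; exact valuation_mul_lt_one (m hc) (n hc)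
    have hVv : A.valuation V ≤ r ^ 2 := by
      have p : ∀ {a b : L}, A.valuation a ≤ r → A.valuation b ≤ r →
          A.valuation (a * b) ≤ r ^ 2 := fun ha hb => by
        rw [map_mul, sq]; exact mul_le_mul' ha hb
      have q : ∀ {a b : L}, a ∈ A → A.valuation b ≤ r ^ 2 → A.valuation (a * b) ≤ r ^ 2 :=
        fun ha hb => by
          rw [map_mul]; exact (mul_le_of_le_one_left' (valuation_le_one_of_mem ha)).trans hb
      refine A.valuation.map_add_le (A.valuation.map_add_le (A.valuation.map_add_le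
        (A.valuation.map_add_le (A.valuation.map_add_le ?_ (p hr₁ hr₂)) ?_) (q hW.a₁ hW₂)) ?_) ?_
      · rw [sq]; exact p hr₁ hr₁
      · rw [sq]; exact p hr₂ hr₂
      · exact q (mul_mem hW.a₂ (add_mem (n hr₁) (n hr₂))) hW₂
      · exact q hW.a₄ (by rw [sq]; exact p (hW₂.trans hr2) (hW₂.trans hr2))
    have hdiff : (w₁ - w₂) * U = (z₁ - z₂) * V := by
      have e₁ := w_equation h₁ hy₁
      have e₂ := w_equation h₂ hy₂
      rw [← hz₁def, ← hw₁def] at e₁
      rw [← hz₂def, ← hw₂def] at e₂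
      rw [hUdef, hVdef]
      linear_combination e₁ - e₂
    have hl : lam / mu * (z₁ - z₂) = -(w₁ - w₂) := by
      rw [div_mul_eq_mul_div, div_eq_iff hmu0]
      apply mul_left_cancel₀ hxx
      rw [hw₁def, hw₂def]
      have h' : (y₁ * y₂) * (z₁ - z₂) = x₂ * y₁ - x₁ * y₂ := by
        rw [hz₁def, hz₂def]; field_simp; ring
      calc (x₁ - x₂) * (lam * (z₁ - z₂)) = (y₁ - y₂) * (z₁ - z₂) := by rw [← hI]; ring
        _ = (x₁ - x₂) * (-(-1 / y₁ - -1 / y₂) * mu) := by
          rw [show (x₁ - x₂) * (-(-1 / y₁ - -1 / y₂) * mu)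
            = -(-1 / y₁ - -1 / y₂) * (mu * (x₁ - x₂)) by ring, hprod]
          field_simp
          ring
    have hlU : lam / mu * U = -V := by
      apply mul_left_cancel₀ hzne
      linear_combination U * hl - hdiff
    have := congrArg A.valuation hlU
    rw [map_mul, hUv, mul_one, Valuation.map_neg] at this
    rw [this]
    exact hVv

/-- The parameter is additive to first order on the kernel of reduction. -/
lemma zCoord_add {P Q : W.Point} (hP : InE1 A W P) (hQ : InE1 A W Q) {r : A.ValueGroup}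
    (hrP : A.valuation (zCoord P) ≤ r) (hrQ : A.valuation (zCoord Q) ≤ r) (hr : r < 1) :
    A.valuation (zCoord (P + Q) - zCoord P - zCoord Q) ≤ r ^ 2 := by
  cases P with
  | zero => simp [← Point.zero_def]
  | some x₁ y₁ h₁ =>
    cases Q with
    | zero => simp [← Point.zero_def]
    | some x₂ y₂ h₂ =>
      by_cases hne : x₁ = x₂ ∧ y₁ = W.negY x₂ y₂
      · obtain ⟨rfl, rfl⟩ := hne
        rw [Point.add_of_Y_eq rfl rfl, zCoord_zero, zero_sub, sub_eq_add_neg, ← neg_add,
          Valuation.map_neg]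
        have := zCoord_neg hW hQ
        rw [Point.neg_some] at this
        exact this.trans (pow_le_pow_left₀ zero_le hrQ 2)
      · obtain ⟨hmu0, hl, hnu⟩ := line_estimate hW h₁.1 h₂.1 hP hQ hne hrP hrQ hr
        have e₂ := slope_symm_sum₂ h₁.1 h₂.1 hne
        have e₃ := slope_symm_sum₃ h₁.1 h₂.1 hne
        have hI := slope_mul_X_sub h₁.1 h₂.1 hne
        obtain ⟨hy₁, hz₁, -, -, -⟩ := kernel_coords hW h₁.1 hP
        obtain ⟨hy₂, hz₂, -, -, -⟩ := kernel_coords hW h₂.1 hQ
        have hsum : InE1 A W (.some x₁ y₁ h₁ + .some x₂ y₂ h₂) := inE1_add hW hP hQ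
        set R : W.Point := .some _ _ (nonsingular_negAdd h₁ h₂ hne) with hRdef
        have hsumR : (.some x₁ y₁ h₁ + .some x₂ y₂ h₂ : W.Point) = -R := by
          rw [Point.add_some hne, hRdef, Point.neg_some]
          rfl
        have hR : InE1 A W R := by
          have := inE1_neg.mpr hsum
          rwa [hsumR, neg_neg] at this
        obtain ⟨hy₃, hz₃, -, -, -⟩ := kernel_coords hW (nonsingular_negAdd h₁ h₂ hne).1 hR
        set lam := W.slope x₁ x₂ y₁ y₂ with hlam
        set mu := y₁ - lam * x₁ with hmu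
        set x₃ := W.addX x₁ x₂ lam with hx₃
        set y₃ := W.negAddY x₁ x₂ y₁ lam with hy₃def
        have l₁ : y₁ = lam * x₁ + mu := by rw [hmu]; ring
        have l₂ : y₂ = lam * x₂ + mu := by rw [hmu]; linear_combination hI
        have l₃ : y₃ = lam * x₃ + mu := by rw [hmu, hy₃def, hx₃, negAddY]; ring
        have e₁ : x₁ + x₂ + x₃ = lam ^ 2 + W.a₁ * lam - W.a₂ := by rw [hx₃, addX]; ring
        have hden : y₁ * y₂ * y₃ = mu ^ 3 * (1 - W.a₂ * (lam / mu) + W.a₄ * (lam / mu) ^ 2
            - W.a₆ * (lam / mu) ^ 3) := by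
          rw [l₁, l₂, l₃]
          field_simp
          linear_combination lam ^ 3 * e₃ + lam ^ 2 * mu * e₂ + lam * mu ^ 2 * e₁
        have hnum : x₁ * y₂ * y₃ + x₂ * y₁ * y₃ + x₃ * y₁ * y₂ = mu ^ 3 * (W.a₃ * (lam / mu) ^ 2
            - W.a₁ * (lam / mu) - W.a₂ * (1 / mu) + 2 * W.a₄ * (lam / mu) * (1 / mu)
            - 3 * W.a₆ * (lam / mu) ^ 2 * (1 / mu)) := by
          rw [l₁, l₂, l₃]
          field_simp
          linear_combination 3 * lam ^ 2 * e₃ + 2 * lam * mu * e₂ + mu ^ 2 * e₁
        have hr2 : r ^ 2 ≤ r := by rw [sq]; exact mul_le_of_le_one_left' hr.le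
        have hla : lam / mu ∈ A := mem_of_valuation_lt_one ((hl.trans hr2).trans_lt hr)
        have hna : 1 / mu ∈ A := mem_of_valuation_lt_one ((hnu.trans hr2).trans_lt hr)
        have h2A : (2 : L) ∈ A := (show ((2 : ℕ) : L) = 2 from rfl) ▸ natCast_mem A 2
        have h3A : (3 : L) ∈ A := (show ((3 : ℕ) : L) = 3 from rfl) ▸ natCast_mem A 3
        have q : ∀ {a b : L}, a ∈ A → A.valuation b ≤ r ^ 2 → A.valuation (a * b) ≤ r ^ 2 :=
          fun ha hb => by
            rw [map_mul]; exact (mul_le_of_le_one_left' (valuation_le_one_of_mem ha)).trans hb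
        have hD : A.valuation (1 - W.a₂ * (lam / mu) + W.a₄ * (lam / mu) ^ 2
            - W.a₆ * (lam / mu) ^ 3) = 1 := by
          have hlt : A.valuation (-(W.a₂ * (lam / mu)) + W.a₄ * (lam / mu) ^ 2
              - W.a₆ * (lam / mu) ^ 3) < 1 := by
            have m := (hl.trans hr2).trans_lt hr
            refine valuation_sub_lt_one (valuation_add_lt_one ?_ ?_) ?_
            · rw [Valuation.map_neg, mul_comm]; exact valuation_mul_lt_one m hW.a₂
            · rw [mul_comm, sq, mul_assoc]; exact valuation_mul_lt_one m (mul_mem hla hW.a₄)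
            · rw [mul_comm, pow_succ', mul_assoc]
              exact valuation_mul_lt_one m (mul_mem (pow_mem hla _) hW.a₆)
          rw [show 1 - W.a₂ * (lam / mu) + W.a₄ * (lam / mu) ^ 2
              - W.a₆ * (lam / mu) ^ 3 = 1 + (-(W.a₂ * (lam / mu)) + W.a₄ * (lam / mu) ^ 2
              - W.a₆ * (lam / mu) ^ 3) by ring,
            A.valuation.map_add_eq_of_lt_left (by rw [map_one]; exact hlt), map_one]
        have hN : A.valuation (W.a₃ * (lam / mu) ^ 2 - W.a₁ * (lam / mu) - W.a₂ * (1 / mu)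
            + 2 * W.a₄ * (lam / mu) * (1 / mu) - 3 * W.a₆ * (lam / mu) ^ 2 * (1 / mu)) ≤ r ^ 2 := by
          refine A.valuation.map_sub_le (A.valuation.map_add_le (A.valuation.map_sub_le
            (A.valuation.map_sub_le ?_ (q hW.a₁ hl)) (q hW.a₂ hnu)) ?_) ?_
          · rw [sq (lam / mu), ← mul_assoc]; exact q (mul_mem hW.a₃ hla) hl
          · exact q (mul_mem (mul_mem h2A hW.a₄) hla) hnu
          · exact q (mul_mem (mul_mem h3A hW.a₆) (pow_mem hla _)) hnu
        have hS : A.valuation (-x₁ / y₁ + -x₂ / y₂ + -x₃ / y₃) ≤ r ^ 2 := by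
          have key : (-x₁ / y₁ + -x₂ / y₂ + -x₃ / y₃) * (y₁ * y₂ * y₃)
              = -(x₁ * y₂ * y₃ + x₂ * y₁ * y₃ + x₃ * y₁ * y₂) := by
            field_simp
            ring
          rw [hden, hnum, mul_left_comm, ← mul_neg] at key
          have := congrArg A.valuation (mul_left_cancel₀ (pow_ne_zero 3 hmu0) key)
          rw [map_mul, hD, mul_one, Valuation.map_neg] at this
          rw [this]
          exact hN
        have hR' : A.valuation (zCoord R) ≤ r := by
          rw [hRdef, zCoord_some, show -x₃ / y₃ = (-x₁ / y₁ + -x₂ / y₂ + -x₃ / y₃)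
            - (-x₁ / y₁) - (-x₂ / y₂) by ring]
          exact A.valuation.map_sub_le (A.valuation.map_sub_le (hS.trans hr2) hrP) hrQ
        rw [hsumR]
        have hneg := (zCoord_neg hW hR).trans (pow_le_pow_left₀ zero_le hR' 2)
        rw [hRdef, zCoord_some] at hneg
        rw [zCoord_some, zCoord_some, hRdef]
        rw [show zCoord (-(Point.some x₃ y₃ (nonsingular_negAdd h₁ h₂ hne) : W.Point))
            - -x₁ / y₁ - -x₂ / y₂
            = (zCoord (-(Point.some x₃ y₃ (nonsingular_negAdd h₁ h₂ hne) : W.Point)) + -x₃ / y₃)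
              - (-x₁ / y₁ + -x₂ / y₂ + -x₃ / y₃) by ring]
        exact A.valuation.map_sub_le hneg hS

/-- The kernel of reduction has no torsion of order invertible in the residue field. -/
theorem eq_zero_of_inE1_of_nsmul_eq_zero {n : ℕ} (hn : A.valuation (n : L) = 1) {P : W.Point}
    (hP : InE1 A W P) (hnP : n • P = 0) : P = 0 := by
  by_contra hP0
  cases P with
  | zero => exact hP0 rfl
  | some x y h =>
    obtain ⟨-, hz, -, -, hpos⟩ := kernel_coords hW h.1 hP
    set P : W.Point := .some x y h with hPdef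
    set r := A.valuation (zCoord P) with hrdef
    have hr2 : r ^ 2 < r := by
      rw [sq]
      exact mul_lt_of_lt_one_left hpos hz
    have key : ∀ k : ℕ, InE1 A W (k • P) ∧
        A.valuation (zCoord (k • P) - (k : L) * zCoord P) ≤ r ^ 2 := by
      intro k
      induction k with
      | zero => simp
      | succ k ih =>
        obtain ⟨hk1, hk2⟩ := ih
        have hkr : A.valuation (zCoord (k • P)) ≤ r := by
          rw [show zCoord (k • P) = (zCoord (k • P) - (k : L) * zCoord P) + (k : L) * zCoord P by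
            ring]
          refine A.valuation.map_add_le (hk2.trans hr2.le) ?_
          rw [map_mul]
          exact mul_le_of_le_one_left' (valuation_le_one_of_mem (natCast_mem A k))
        rw [succ_nsmul]
        refine ⟨inE1_add hW hk1 hP, ?_⟩
        rw [show zCoord (k • P + P) - ((k + 1 : ℕ) : L) * zCoord P
            = (zCoord (k • P + P) - zCoord (k • P) - zCoord P)
              + (zCoord (k • P) - (k : L) * zCoord P) by push_cast; ring]
        exact A.valuation.map_add_le (zCoord_add hW hk1 hP hkr le_rfl hz) hk2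
    have hfin := (key n).2
    rw [hnP, zCoord_zero, zero_sub, Valuation.map_neg, map_mul, hn, one_mul] at hfin
    exact absurd hfin (not_le.mpr hr2)

end FLTA.EllReduction
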