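import Fermat.Agent.EllReduction.IntModel
import Fermat.Agent.EllReduction.Kernel
import Fermat.Agent.EllReduction.MultModel
import Fermat.Prelude.Def_EllipticCurve_ZeroComponentAt
import Fermat.Prelude.Def_FLTPrelim_Ramification

/-!
# Reduction of a Weierstrass curve over ℤ at a place of ℚ̄ (interface)
-/

set_option autoImplicit false

open scoped Classical

open WeierstrassCurve

open scoped WeierstrassCurve.Affine

namespace FLTA.EllReduction

local notation "Qbar" => AlgebraicClosure ℚ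

-- use the algebra structure of the prelude definitions
attribute [local instance 10000] AlgebraicClosure.instAlgebra

/-- The group of geometric points of an integral Weierstrass curve. -/
abbrev GeomPoint (W : WeierstrassCurve ℤ) : Type :=
  ((W.map (Int.castRingHom ℚ))⁄(AlgebraicClosure ℚ)).Point

variable (W : WeierstrassCurve ℤ) (A : ValuationSubring Qbar)

/-- The points with nonsingular reduction, as a subgroup. -/
noncomputable def E0Z : AddSubgroup (GeomPoint W) where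
  carrier := {P | W.InZeroComponentAt A P}
  add_mem' := fun {P Q} hP hQ => (inZeroComponentAt_iff W A (P + Q)).mpr
    ((E0 (geomCurve_integralAt W A)).add_mem
      ((inZeroComponentAt_iff W A P).mp hP) ((inZeroComponentAt_iff W A Q).mp hQ))
  zero_mem' := Or.inl rfl
  neg_mem' := fun {P} hP => (inZeroComponentAt_iff W A (-P)).mpr
    ((inE0_neg (geomCurve_integralAt W A)).mpr ((inZeroComponentAt_iff W A P).mp hP))

@[simp] lemma mem_E0Z (P : GeomPoint W) : P ∈ E0Z W A ↔ W.InZeroComponentAt A P := Iff.rfl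

/-- The kernel of reduction, as a subgroup. -/
noncomputable def E1Z : AddSubgroup (GeomPoint W) where
  carrier := {P | InE1 A _ P}
  add_mem' := fun {P Q} hP hQ => (E1 (geomCurve_integralAt W A)).add_mem hP hQ
  zero_mem' := trivial
  neg_mem' := fun {P} hP => (E1 (geomCurve_integralAt W A)).neg_mem hP

@[simp] lemma mem_E1Z (P : GeomPoint W) : P ∈ E1Z W A ↔ InE1 A _ P := Iff.rfl

theorem E1Z_le_E0Z : E1Z W A ≤ E0Z W A := fun P hP =>
  (inZeroComponentAt_iff W A P).mpr (InE1.inE0 hP)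

variable {W} in
lemma nsmul_smul_sub_eq_zero {n : ℕ} (σ : Qbar ≃ₐ[ℚ] Qbar) {P : GeomPoint W}
    (hnP : n • P = 0) : n • (σ • P - P) = 0 := by
  have h : n • (σ • P) = σ • (n • P) :=
    ((Affine.Point.map (W' := W.map (Int.castRingHom ℚ)) σ.toAlgHom).map_nsmul n P).symm
  rw [nsmul_sub, h, hnP]
  exact sub_eq_zero.mpr rfl

variable {W A} {q : ℕ} (hq : q.Prime) (hA : A.LiesOverPrime q)

include hq hA

/-- No torsion of order prime to the residue characteristic in the kernel of reduction. -/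
theorem eq_zero_of_mem_E1Z {n : ℕ} (hn : ¬ q ∣ n) {P : GeomPoint W} (hP : P ∈ E1Z W A)
    (hnP : n • P = 0) : P = 0 := 
  eq_zero_of_inE1_of_nsmul_eq_zero (geomCurve_integralAt W A)
    (valuation_natCast_of_not_dvd hq hA hn) hP hnP

/-- At a prime of good reduction every point has nonsingular reduction. -/
theorem mem_E0Z_of_good (hgood : ¬ (q : ℤ) ∣ W.Δ) (P : GeomPoint W) : P ∈ E0Z W A := by
  refine (inZeroComponentAt_iff W A P).mpr
    (inE0_of_valuation_Δ_eq_one (geomCurve_integralAt W A) ?_ P)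
  rw [geomCurve_Δ]
  exact valuation_intCast_of_not_dvd hq hA hgood

/-- Inertia acts trivially on reductions. -/
theorem smul_sub_mem_E1Z {σ : Qbar ≃ₐ[ℚ] Qbar} (hσ : σ ∈ A.inertiaSubgroupIn ℚ) {P : GeomPoint W}
    (hP : P ∈ E0Z W A) : σ • P - P ∈ E1Z W A := 
  (actsTriviallyMod_of_mem_inertiaSubgroupIn hσ).map_sub_inE1 (geomCurve_integralAt W A)
    ((inZeroComponentAt_iff W A P).mp hP)

/-- At a semistable prime inertia fixes the component of every point. -/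
theorem smul_sub_mem_E0Z (hss : ¬ (q : ℤ) ∣ W.Δ ∨ ¬ (q : ℤ) ∣ W.c₄) (hΔ : W.Δ ≠ 0)
    {σ : Qbar ≃ₐ[ℚ] Qbar} (hσ : σ ∈ A.inertiaSubgroupIn ℚ)
    (P : GeomPoint W) : σ • P - P ∈ E0Z W A := by
  by_cases hΔq : (q : ℤ) ∣ W.Δ
  · obtain ⟨D⟩ := exists_multData hq hA hΔ hΔq (hss.resolve_left (not_not_intro hΔq))
    have hσ' := actsTriviallyMod_of_mem_inertiaSubgroupIn hσ
    exact (inZeroComponentAt_iff W A (σ • P - P)).mpr
      (D.map_sub_inE0 hσ' (hσ'.valuation_eq hq hA) P)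
  · exact mem_E0Z_of_good hq hA hΔq _

/-- Good reduction: torsion prime to the residue characteristic is unramified. -/
theorem smul_eq_of_good (hgood : ¬ (q : ℤ) ∣ W.Δ) {n : ℕ} (hn : ¬ q ∣ n)
    {σ : Qbar ≃ₐ[ℚ] Qbar} (hσ : σ ∈ A.inertiaSubgroupIn ℚ)
    {P : GeomPoint W} (hnP : n • P = 0) : σ • P = P := by
  refine sub_eq_zero.mp (eq_zero_of_mem_E1Z hq hA hn
    (smul_sub_mem_E1Z hq hA hσ (mem_E0Z_of_good hq hA hgood P)) ?_)
  exact nsmul_smul_sub_eq_zero σ hnP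

/-- Inertia fixes torsion points of order prime to `q` with nonsingular reduction. -/
theorem smul_eq_of_mem_E0Z {n : ℕ} (hn : ¬ q ∣ n)
    {σ : Qbar ≃ₐ[ℚ] Qbar} (hσ : σ ∈ A.inertiaSubgroupIn ℚ)
    {P : GeomPoint W} (hP : P ∈ E0Z W A) (hnP : n • P = 0) : σ • P = P := by
  refine sub_eq_zero.mp (eq_zero_of_mem_E1Z hq hA hn (smul_sub_mem_E1Z hq hA hσ hP) ?_)
  exact nsmul_smul_sub_eq_zero σ hnP

/-- Multiplicative reduction: the smooth reduction has no `q`-torsion. -/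
theorem mem_E1Z_of_mult (hΔ : W.Δ ≠ 0) (hΔq : (q : ℤ) ∣ W.Δ) (hc₄ : ¬ (q : ℤ) ∣ W.c₄)
    {P : GeomPoint W} (hP : P ∈ E0Z W A) (hqP : q • P ∈ E1Z W A) : P ∈ E1Z W A := by
  obtain ⟨D⟩ := exists_multData hq hA hΔ hΔq hc₄
  obtain ⟨φ, hφ⟩ := D.exists_torus_hom
  have : Fact q.Prime := ⟨hq⟩
  have : CharP (IsLocalRing.ResidueField A) q :=
    (CharP.charP_iff_prime_eq_zero hq).mpr (by
      rw [← map_natCast (IsLocalRing.residue A), IsLocalRing.residue_eq_zero_iff,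
        A.valuation_lt_one_iff]
      rw [show ((q : A) : Qbar) = (q : Qbar) from map_natCast A.subtype q]
      exact hA)
  set P' : E0 (geomCurve_integralAt W A) := ⟨P, (inZeroComponentAt_iff W A P).mp hP⟩
  exact (hφ P').mp (nodeZero_eq_zero_of_char_nsmul (by rw [← map_nsmul]; exact (hφ _).mpr hqP))

/-- Multiplicative reduction: the torus is rank one; `E0[n]` has at most `n` elements modulo `E1`. -/
theorem exists_zsmul_sub_mem_E1Z (hΔ : W.Δ ≠ 0) (hΔq : (q : ℤ) ∣ W.Δ) (hc₄ : ¬ (q : ℤ) ∣ W.c₄)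
    {p : ℕ} (hp : p.Prime) {P Q : GeomPoint W} (hP : P ∈ E0Z W A) (hQ : Q ∈ E0Z W A)
    (hpP : p • P = 0) (hpQ : p • Q = 0) (hP1 : P ∉ E1Z W A) :
    ∃ k : ℕ, Q - k • P ∈ E1Z W A := by
  obtain ⟨D⟩ := exists_multData hq hA hΔ hΔq hc₄
  obtain ⟨φ, hφ⟩ := D.exists_torus_hom
  set P' : E0 (geomCurve_integralAt W A) := ⟨P, (inZeroComponentAt_iff W A P).mp hP⟩ with hP'
  set Q' : E0 (geomCurve_integralAt W A) := ⟨Q, (inZeroComponentAt_iff W A Q).mp hQ⟩ with hQ'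
  have hP'0 : p • P' = 0 := Subtype.ext hpP
  have hQ'0 : p • Q' = 0 := Subtype.ext hpQ
  obtain ⟨m, hm⟩ := nodeZero_exists_nsmul hp
    (P := φ P') (Q := φ Q') (by rw [← map_nsmul, hP'0, map_zero])
    (by rw [← map_nsmul, hQ'0, map_zero]) fun h => hP1 ((hφ P').mp h)
  exact ⟨m, (hφ (Q' - m • P')).mp (by rw [map_sub, map_nsmul, ← hm, sub_self])⟩

/-- Unipotence of inertia at a multiplicative prime. -/
theorem smul_smul_sub_eq (hss : ¬ (q : ℤ) ∣ W.Δ ∨ ¬ (q : ℤ) ∣ W.c₄) (hΔ : W.Δ ≠ 0)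
    {n : ℕ} (hn : ¬ q ∣ n) {σ τ : Qbar ≃ₐ[ℚ] Qbar} (hσ : σ ∈ A.inertiaSubgroupIn ℚ)
    (hτ : τ ∈ A.inertiaSubgroupIn ℚ) {P : GeomPoint W} (hnP : n • P = 0) :
    τ • (σ • P - P) = σ • P - P := by
  refine smul_eq_of_mem_E0Z hq hA hn hτ (smul_sub_mem_E0Z hq hA hss hΔ hσ P) ?_
  exact nsmul_smul_sub_eq_zero σ hnP

/-- The component group of rational points is killed by `v_q(Δ)`. -/
theorem nsmul_mem_E0Z_of_fixed (hΔ : W.Δ ≠ 0) (hc₄ : ¬ (q : ℤ) ∣ W.c₄) {P : GeomPoint W}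
    (hP : ∀ σ : Qbar ≃ₐ[ℚ] Qbar, σ • P = P) :
    (W.Δ.natAbs.factorization q) • P ∈ E0Z W A := by
  by_cases hΔq : (q : ℤ) ∣ W.Δ
  · obtain ⟨D⟩ := exists_multData hq hA hΔ hΔq hc₄
    exact (inZeroComponentAt_iff W A _).mpr
      (D.nsmul_inE0_of_fixed hq hA (by rw [D.val, valuation_Δ_eq W hq hA hΔ]) hP)
  · exact mem_E0Z_of_good hq hA hΔq _

/-- A rational point of prime order off the identity component has order dividing `v_q(Δ)`. -/
theorem prime_dvd_factorization_of_not_mem (hΔ : W.Δ ≠ 0) (hc₄ : ¬ (q : ℤ) ∣ W.c₄)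
    {p : ℕ} (hp : p.Prime) {P : GeomPoint W} (hpP : p • P = 0)
    (hP : ∀ σ : Qbar ≃ₐ[ℚ] Qbar, σ • P = P) (hP0 : P ∉ E0Z W A) :
    p ∣ W.Δ.natAbs.factorization q := by
  by_contra hnd
  apply hP0
  obtain ⟨a, b, hab⟩ : IsCoprime (p : ℤ) (W.Δ.natAbs.factorization q : ℤ) :=
    Int.isCoprime_iff_nat_coprime.mpr (by simpa using hp.coprime_iff_not_dvd.mpr hnd)
  have h : P = a • ((p : ℤ) • P) + b • ((W.Δ.natAbs.factorization q : ℤ) • P) := by
    rw [← mul_zsmul, ← mul_zsmul, ← add_zsmul, mul_comm a, mul_comm b]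
    simp [mul_comm, hab]
  rw [h, natCast_zsmul, hpP, zsmul_zero, zero_add, natCast_zsmul]
  exact (E0Z W A).zsmul_mem (nsmul_mem_E0Z_of_fixed hq hA hΔ hc₄ hP) b

/-- Multiplicative reduction with `p ∣ v_q(Δ)`: the `p`-torsion is unramified. -/
theorem smul_eq_of_dvd_factorization (hΔ : W.Δ ≠ 0) (hΔq : (q : ℤ) ∣ W.Δ)
    (hc₄ : ¬ (q : ℤ) ∣ W.c₄) {p : ℕ} (hp : p.Prime) (hp2 : p ≠ 2) (hpq : p ≠ q)
    (hdvd : p ∣ W.Δ.natAbs.factorization q)
    {σ : Qbar ≃ₐ[ℚ] Qbar} (hσ : σ ∈ A.inertiaSubgroupIn ℚ)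
    {P : GeomPoint W} (hpP : p • P = 0) : σ • P = P := by
  obtain ⟨D⟩ := exists_multData hq hA hΔ hΔq hc₄
  exact D.map_eq_of_dvd hq hA (by rw [D.val, valuation_Δ_eq W hq hA hΔ]) hp hp2 hpq hdvd
    (actsTriviallyMod_of_mem_inertiaSubgroupIn hσ) hpP

end FLTA.EllReduction
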