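import Mathlib.AlgebraicGeometry.EllipticCurve.Affine.Point
import Mathlib.RingTheory.Valuation.ValuationSubring
import Mathlib.RingTheory.Valuation.RamificationGroup
import Mathlib.RingTheory.LocalRing.ResidueField.Basic

/-!
# Reduction of Weierstrass curves at a valuation subring: definitions

`InE0` : points with nonsingular reduction, `InE1` : points reducing to the point at infinity.
-/

set_option autoImplicit false

namespace FLTA.EllReduction

open WeierstrassCurve

variable {L : Type*} [Field L] (A : ValuationSubring L)

/-- All five coefficients of the curve lie in `A`. -/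
structure IntegralAt (W : WeierstrassCurve L) : Prop where
  a₁ : W.a₁ ∈ A
  a₂ : W.a₂ ∈ A
  a₃ : W.a₃ ∈ A
  a₄ : W.a₄ ∈ A
  a₆ : W.a₆ ∈ A

variable {A}

/-- The curve over `A` underlying an integral curve. -/
def integralCurve {W : WeierstrassCurve L} (hW : IntegralAt A W) : WeierstrassCurve A :=
  ⟨⟨W.a₁, hW.a₁⟩, ⟨W.a₂, hW.a₂⟩, ⟨W.a₃, hW.a₃⟩, ⟨W.a₄, hW.a₄⟩, ⟨W.a₆, hW.a₆⟩⟩

/-- The reduced curve over the residue field. -/
noncomputable def reducedCurve {W : WeierstrassCurve L} (hW : IntegralAt A W) :
    WeierstrassCurve (IsLocalRing.ResidueField A) :=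
  (integralCurve hW).map (IsLocalRing.residue A)

lemma integralCurve_map_subtype {W : WeierstrassCurve L} (hW : IntegralAt A W) :
    (integralCurve hW).map A.subtype = W := rfl

variable (A)

/-- Points reducing to infinity: the kernel of reduction. -/
def InE1 (W : WeierstrassCurve.Affine L) : W.Point → Prop
  | .zero => True
  | .some x _ _ => x ∉ A

/-- Points with nonsingular reduction. -/
def InE0 (W : WeierstrassCurve.Affine L) : W.Point → Prop
  | .zero => True
  | .some x y _ => x ∉ A ∨ A.valuation (W.polynomialX.evalEval x y) = 1 ∨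
      A.valuation (W.polynomialY.evalEval x y) = 1

variable {A}

@[simp] lemma inE1_zero (W : WeierstrassCurve.Affine L) : InE1 A W 0 := trivial

@[simp] lemma inE0_zero (W : WeierstrassCurve.Affine L) : InE0 A W 0 := trivial

lemma InE1.inE0 {W : WeierstrassCurve.Affine L} {P : W.Point} (h : InE1 A W P) : InE0 A W P := by
  cases P with
  | zero => trivial
  | some x y h' => exact Or.inl h

variable (A)

/-- An automorphism that preserves `A` and acts trivially on its residue field. -/
def ActsTriviallyMod {F : Type*} [CommSemiring F] [Algebra F L] (σ : L ≃ₐ[F] L) : Prop :=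
  ∀ a ∈ A, σ a ∈ A ∧ A.valuation (σ a - a) < 1

end FLTA.EllReduction
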