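import Fermat.Agent.EllReduction.Formulas

/-!
# Addition of integral points and their reductions
-/

set_option autoImplicit false

namespace FLTA.EllReduction

open WeierstrassCurve WeierstrassCurve.Affine

variable {L : Type*} [Field L] {A : ValuationSubring L} {W : WeierstrassCurve.Affine L}
  (hW : IntegralAt A W)

section Reduced

variable {x y : L} (hx : x ∈ A) (hy : y ∈ A)

/-- The residue class of an integral element. -/
noncomputable abbrev res {a : L} (ha : a ∈ A) : IsLocalRing.ResidueField A :=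
  IsLocalRing.residue A ⟨a, ha⟩

lemma res_eq_res_iff {a b : L} (ha : a ∈ A) (hb : b ∈ A) :
    res ha = res hb ↔ A.valuation (a - b) < 1 :=
  residue_eq_residue_iff

lemma res_eq_zero_iff {a : L} (ha : a ∈ A) : res ha = 0 ↔ A.valuation a < 1 := by
  rw [IsLocalRing.residue_eq_zero_iff, A.valuation_lt_one_iff]

include hW

lemma polynomialX_mem {x y : L} (hx : x ∈ A) (hy : y ∈ A) :
    W.polynomialX.evalEval x y ∈ A := by
  have h2A : (2 : L) ∈ A := (show ((2 : ℕ) : L) = 2 from rfl) ▸ natCast_mem A 2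
  have h3A : (3 : L) ∈ A := (show ((3 : ℕ) : L) = 3 from rfl) ▸ natCast_mem A 3
  rw [evalEval_polynomialX]
  exact sub_mem (mul_mem hW.a₁ hy)
    (add_mem (add_mem (mul_mem h3A (pow_mem hx _)) (mul_mem (mul_mem h2A hW.a₂) hx)) hW.a₄)

lemma polynomialY_mem {x y : L} (hx : x ∈ A) (hy : y ∈ A) :
    W.polynomialY.evalEval x y ∈ A := by
  have h2A : (2 : L) ∈ A := (show ((2 : ℕ) : L) = 2 from rfl) ▸ natCast_mem A 2
  rw [evalEval_polynomialY]
  exact add_mem (add_mem (mul_mem h2A hy) (mul_mem hW.a₁ hx)) hW.a₃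

lemma reduced_equation (h : W.Equation x y) :
    (reducedCurve hW).toAffine.Equation (res hx) (res hy) := by
  refine Equation.map (W := (integralCurve hW).toAffine) (IsLocalRing.residue A) ?_
  rw [equation_iff] at h ⊢
  exact Subtype.ext h

lemma polynomialX_reduced :
    (reducedCurve hW).toAffine.polynomialX.evalEval (res hx) (res hy)
      = res (polynomialX_mem hW hx hy) := by
  simp only [evalEval_polynomialX, reducedCurve, map_a₁, map_a₂, map_a₄, res]
  simp only [← map_ofNat (IsLocalRing.residue A), ← map_pow, ← map_mul, ← map_add, ← map_sub]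
  congr 1

lemma polynomialY_reduced :
    (reducedCurve hW).toAffine.polynomialY.evalEval (res hx) (res hy)
      = res (polynomialY_mem hW hx hy) := by
  simp only [evalEval_polynomialY, reducedCurve, map_a₁, map_a₃, res]
  simp only [← map_ofNat (IsLocalRing.residue A), ← map_pow, ← map_mul, ← map_add, ← map_sub]
  congr 1

lemma negY_reduced :
    res (negY_mem hW hx hy) = (reducedCurve hW).toAffine.negY (res hx) (res hy) := by
  simp only [negY, reducedCurve, map_a₁, map_a₃, res]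
  simp only [← map_pow, ← map_mul, ← map_neg, ← map_sub]
  congr 1

lemma inE0_some_iff (h : W.Nonsingular x y) (hx : x ∈ A) (hy : y ∈ A) :
    InE0 A W (.some x y h) ↔ (reducedCurve hW).toAffine.Nonsingular (res hx) (res hy) := by
  rw [Affine.Nonsingular, and_iff_right (reduced_equation hW hx hy h.1), polynomialX_reduced hW,
    polynomialY_reduced hW]
  simp only [InE0, hx, not_true_eq_false, false_or, ne_eq, res_eq_zero_iff, not_lt]
  simp only [le_antisymm_iff, valuation_le_one_of_mem (polynomialX_mem hW hx hy),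
    valuation_le_one_of_mem (polynomialY_mem hW hx hy), true_and]

end Reduced

variable [DecidableEq L]

include hW

variable {x₁ x₂ y₁ y₂ : L} (hx₁ : x₁ ∈ A) (hy₁ : y₁ ∈ A) (hx₂ : x₂ ∈ A) (hy₂ : y₂ ∈ A)

lemma slope_mem_of_not_inverse (h₁ : W.Equation x₁ y₁) (h₂ : W.Equation x₂ y₂)
    (hxy : ¬(res hx₁ = res hx₂ ∧ res hy₁ = (reducedCurve hW).toAffine.negY (res hx₂) (res hy₂))) :
    W.slope x₁ x₂ y₁ y₂ ∈ A := by
  have hne : ¬(x₁ = x₂ ∧ y₁ = W.negY x₂ y₂) := by
    rintro ⟨rfl, rfl⟩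
    exact hxy ⟨rfl, by rw [← negY_reduced hW]⟩
  by_cases hx : res hx₁ = res hx₂
  · rw [← negY_reduced hW] at hxy
    have hden : A.valuation (y₁ - W.negY x₂ y₂) = 1 := by
      refine le_antisymm (valuation_le_one_of_mem (sub_mem hy₁ (negY_mem hW hx₂ hy₂))) ?_
      exact not_lt.mp fun h => hxy ⟨hx, (res_eq_res_iff hy₁ (negY_mem hW hx₂ hy₂)).mpr h⟩
    have hnum : x₁ ^ 2 + x₁ * x₂ + x₂ ^ 2 + W.a₂ * (x₁ + x₂) + W.a₄ - W.a₁ * y₁ ∈ A :=
      sub_mem (add_mem (add_mem (add_mem (add_mem (pow_mem hx₁ _) (mul_mem hx₁ hx₂))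
        (pow_mem hx₂ _)) (mul_mem hW.a₂ (add_mem hx₁ hx₂))) hW.a₄) (mul_mem hW.a₁ hy₁)
    refine A.mem_of_valuation_le_one _ ?_
    calc A.valuation (W.slope x₁ x₂ y₁ y₂)
        = A.valuation (W.slope x₁ x₂ y₁ y₂ * (y₁ - W.negY x₂ y₂)) := by rw [map_mul, hden, mul_one]
      _ ≤ 1 := by rw [slope_mul_Y_sub h₁ h₂ hne]; exact valuation_le_one_of_mem hnum
  · have hden : A.valuation (x₁ - x₂) = 1 :=
      le_antisymm (valuation_le_one_of_mem (sub_mem hx₁ hx₂))
        (not_lt.mp fun h => hx ((res_eq_res_iff hx₁ hx₂).mpr h))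
    refine A.mem_of_valuation_le_one _ ?_
    calc A.valuation (W.slope x₁ x₂ y₁ y₂)
        = A.valuation (W.slope x₁ x₂ y₁ y₂ * (x₁ - x₂)) := by rw [map_mul, hden, mul_one]
      _ ≤ 1 := by rw [slope_mul_X_sub h₁ h₂ hne]; exact valuation_le_one_of_mem (sub_mem hy₁ hy₂)

/-- If the residual points are not inverse to each other, addition commutes with reduction. -/
lemma add_reduced [DecidableEq (IsLocalRing.ResidueField A)] (h₁ : W.Equation x₁ y₁)
    (h₂ : W.Equation x₂ y₂)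
    (hxy : ¬(res hx₁ = res hx₂ ∧ res hy₁ = (reducedCurve hW).toAffine.negY (res hx₂) (res hy₂))) :
    ∃ (ha : W.addX x₁ x₂ (W.slope x₁ x₂ y₁ y₂) ∈ A)
      (hb : W.addY x₁ x₂ y₁ (W.slope x₁ x₂ y₁ y₂) ∈ A),
      res ha = (reducedCurve hW).toAffine.addX (res hx₁) (res hx₂)
          ((reducedCurve hW).toAffine.slope (res hx₁) (res hx₂) (res hy₁) (res hy₂)) ∧
      res hb = (reducedCurve hW).toAffine.addY (res hx₁) (res hx₂) (res hy₁)
          ((reducedCurve hW).toAffine.slope (res hx₁) (res hx₂) (res hy₁) (res hy₂)) := by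
  have hne : ¬(x₁ = x₂ ∧ y₁ = W.negY x₂ y₂) := by
    rintro ⟨rfl, rfl⟩
    exact hxy ⟨rfl, by rw [← negY_reduced hW]⟩
  have hl := slope_mem_of_not_inverse hW hx₁ hy₁ hx₂ hy₂ h₁ h₂ hxy
  have hslope : (reducedCurve hW).toAffine.slope (res hx₁) (res hx₂) (res hy₁) (res hy₂)
      = res hl := by
    have e₁ : (reducedCurve hW).toAffine.Equation (res hx₁) (res hy₁) := reduced_equation hW _ _ h₁
    have e₂ : (reducedCurve hW).toAffine.Equation (res hx₂) (res hy₂) := reduced_equation hW _ _ h₂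
    have i₁ := slope_mul_X_sub h₁ h₂ hne
    have i₂ := slope_mul_Y_sub h₁ h₂ hne
    have j₁ := slope_mul_X_sub e₁ e₂ hxy
    have j₂ := slope_mul_Y_sub e₁ e₂ hxy
    have k₁ : res hl * (res hx₁ - res hx₂) = res hy₁ - res hy₂ := by
      simp only [res, ← map_sub, ← map_mul]
      exact congrArg _ (Subtype.ext i₁)
    have k₂ : res hl * (res hy₁ - (reducedCurve hW).toAffine.negY (res hx₂) (res hy₂))
        = res hx₁ ^ 2 + res hx₁ * res hx₂ + res hx₂ ^ 2
          + (reducedCurve hW).a₂ * (res hx₁ + res hx₂) + (reducedCurve hW).a₄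
          - (reducedCurve hW).a₁ * res hy₁ := by
      simp only [negY, reducedCurve, map_a₁, map_a₂, map_a₃, map_a₄, res, ← map_neg, ← map_sub,
        ← map_mul, ← map_add, ← map_pow]
      exact congrArg _ (Subtype.ext i₂)
    by_cases hx : res hx₁ = res hx₂
    · exact mul_right_cancel₀ (sub_ne_zero.mpr fun h => hxy ⟨hx, h⟩) (j₂.trans k₂.symm)
    · exact mul_right_cancel₀ (sub_ne_zero.mpr hx) (j₁.trans k₁.symm)
  have hX : W.addX x₁ x₂ (W.slope x₁ x₂ y₁ y₂) ∈ A := by
    simp only [addX]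
    exact sub_mem (sub_mem (sub_mem (add_mem (pow_mem hl _) (mul_mem hW.a₁ hl)) hW.a₂) hx₁) hx₂
  have hY : W.addY x₁ x₂ y₁ (W.slope x₁ x₂ y₁ y₂) ∈ A :=
    negY_mem hW hX (add_mem (mul_mem hl (sub_mem hX hx₁)) hy₁)
  refine ⟨hX, hY, ?_, ?_⟩
  · rw [hslope]
    simp only [addX, reducedCurve, map_a₁, map_a₂, res]
    simp only [← map_pow, ← map_mul, ← map_add, ← map_sub]
    exact congrArg _ (Subtype.ext rfl)
  · rw [hslope]
    simp only [addY, negAddY, addX, negY, reducedCurve, map_a₁, map_a₂, map_a₃, res]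
    simp only [← map_pow, ← map_mul, ← map_neg, ← map_add, ← map_sub]
    exact congrArg _ (Subtype.ext rfl)

/-- If the residual points are inverse to each other and nonsingular, the sum reduces to infinity. -/
lemma addX_notMem_of_inverse {h₁ : W.Nonsingular x₁ y₁} (h₂ : W.Equation x₂ y₂)
    (hP : InE0 A W (.some x₁ y₁ h₁)) (hne : ¬(x₁ = x₂ ∧ y₁ = W.negY x₂ y₂))
    (hx : res hx₁ = res hx₂)
    (hy : res hy₁ = (reducedCurve hW).toAffine.negY (res hx₂) (res hy₂)) :
    W.addX x₁ x₂ (W.slope x₁ x₂ y₁ y₂) ∉ A := by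
  have hl : W.slope x₁ x₂ y₁ y₂ ∉ A := by
    intro hl
    have e₁ := slope_mul_X_sub h₁.1 h₂ hne
    have e₂ := slope_mul_Y_sub h₁.1 h₂ hne
    have ey : res hy₁ = res hy₂ := by
      rw [← sub_eq_zero, ← map_sub]
      have : (⟨y₁, hy₁⟩ - ⟨y₂, hy₂⟩ : A) = ⟨_, hl⟩ * (⟨x₁, hx₁⟩ - ⟨x₂, hx₂⟩) := Subtype.ext e₁.symm
      rw [this, map_mul, map_sub, sub_eq_zero.mpr hx, mul_zero]
    rw [← hx, ← ey] at hy
    have hns := (inE0_some_iff hW h₁ hx₁ hy₁).mp hP
    rw [nonsingular_iff'] at hns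
    refine hns.2.elim (fun h => h ?_) fun h => h ?_
    · have k₂ : res hl * (res hy₁ - (reducedCurve hW).toAffine.negY (res hx₂) (res hy₂))
          = res hx₁ ^ 2 + res hx₁ * res hx₂ + res hx₂ ^ 2
            + (reducedCurve hW).a₂ * (res hx₁ + res hx₂) + (reducedCurve hW).a₄
            - (reducedCurve hW).a₁ * res hy₁ := by
        simp only [negY, reducedCurve, map_a₁, map_a₂, map_a₃, map_a₄, res, ← map_neg, ← map_sub,
          ← map_mul, ← map_add, ← map_pow]
        exact congrArg _ (Subtype.ext e₂)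
      rw [← hx, ← ey, ← hy, sub_self, mul_zero] at k₂
      linear_combination k₂
    · simp only [negY] at hy
      linear_combination hy
  intro hX
  have h1 := one_lt_valuation_of_notMem hl
  have hsum : W.slope x₁ x₂ y₁ y₂ * (W.slope x₁ x₂ y₁ y₂ + W.a₁) ∈ A := by
    have : W.slope x₁ x₂ y₁ y₂ * (W.slope x₁ x₂ y₁ y₂ + W.a₁)
        = W.addX x₁ x₂ (W.slope x₁ x₂ y₁ y₂) + W.a₂ + x₁ + x₂ := by
      simp only [addX]; ring
    rw [this]
    exact add_mem (add_mem (add_mem hX hW.a₂) hx₁) hx₂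
  have := valuation_le_one_of_mem hsum
  rw [map_mul, A.valuation.map_add_eq_of_lt_left
    ((valuation_le_one_of_mem hW.a₁).trans_lt h1)] at this
  exact absurd this (not_le.mpr (one_lt_mul'' h1 h1))

end FLTA.EllReduction
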