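import Fermat.Agent.EllReduction.Defs

/-!
# Slope identities and valuation estimates for points of an integral Weierstrass curve
-/

set_option autoImplicit false

namespace FLTA.EllReduction

open WeierstrassCurve WeierstrassCurve.Affine

variable {L : Type*} [Field L]

section Slope

variable [DecidableEq L] {W : WeierstrassCurve.Affine L} {x₁ x₂ y₁ y₂ : L}

lemma slope_mul_X_sub (h₁ : W.Equation x₁ y₁) (h₂ : W.Equation x₂ y₂)
    (hxy : ¬(x₁ = x₂ ∧ y₁ = W.negY x₂ y₂)) :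
    W.slope x₁ x₂ y₁ y₂ * (x₁ - x₂) = y₁ - y₂ := by
  by_cases hx : x₁ = x₂
  · have hy := Y_eq_of_Y_ne h₁ h₂ hx fun h => hxy ⟨hx, h⟩
    simp [hx, hy]
  · rw [slope_of_X_ne hx, div_mul_cancel₀]
    exact sub_ne_zero.mpr hx

lemma slope_mul_Y_sub (h₁ : W.Equation x₁ y₁) (h₂ : W.Equation x₂ y₂)
    (hxy : ¬(x₁ = x₂ ∧ y₁ = W.negY x₂ y₂)) :
    W.slope x₁ x₂ y₁ y₂ * (y₁ - W.negY x₂ y₂)
      = x₁ ^ 2 + x₁ * x₂ + x₂ ^ 2 + W.a₂ * (x₁ + x₂) + W.a₄ - W.a₁ * y₁ := by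
  by_cases hx : x₁ = x₂
  · have hy' : y₁ ≠ W.negY x₂ y₂ := fun h => hxy ⟨hx, h⟩
    have hy := Y_eq_of_Y_ne h₁ h₂ hx hy'
    subst hx hy
    rw [slope_of_Y_ne rfl hy', div_mul_cancel₀ _ (sub_ne_zero.mpr hy')]
    ring
  · have hI := slope_mul_X_sub h₁ h₂ hxy
    rw [equation_iff] at h₁ h₂
    apply mul_left_cancel₀ (sub_ne_zero.mpr hx)
    simp only [negY]
    linear_combination (y₁ + y₂ + W.a₁ * x₂ + W.a₃) * hI + h₁ - h₂

lemma slope_symm_sum₂ (h₁ : W.Equation x₁ y₁) (h₂ : W.Equation x₂ y₂)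
    (hxy : ¬(x₁ = x₂ ∧ y₁ = W.negY x₂ y₂)) :
    x₁ * x₂ + (x₁ + x₂) * W.addX x₁ x₂ (W.slope x₁ x₂ y₁ y₂)
      = W.a₄ - (W.a₁ + 2 * W.slope x₁ x₂ y₁ y₂) * (y₁ - W.slope x₁ x₂ y₁ y₂ * x₁)
        - W.a₃ * W.slope x₁ x₂ y₁ y₂ := by
  have hI := slope_mul_X_sub h₁ h₂ hxy
  have hII := slope_mul_Y_sub h₁ h₂ hxy
  simp only [negY] at hII
  simp only [addX]
  linear_combination hII - W.slope x₁ x₂ y₁ y₂ * hI

lemma slope_symm_sum₃ (h₁ : W.Equation x₁ y₁) (h₂ : W.Equation x₂ y₂)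
    (hxy : ¬(x₁ = x₂ ∧ y₁ = W.negY x₂ y₂)) :
    x₁ * x₂ * W.addX x₁ x₂ (W.slope x₁ x₂ y₁ y₂)
      = (y₁ - W.slope x₁ x₂ y₁ y₂ * x₁) ^ 2
        + W.a₃ * (y₁ - W.slope x₁ x₂ y₁ y₂ * x₁) - W.a₆ := by
  have hI := slope_mul_X_sub h₁ h₂ hxy
  have hII := slope_mul_Y_sub h₁ h₂ hxy
  rw [equation_iff] at h₁
  simp only [negY] at hII
  simp only [addX]
  linear_combination x₁ * hII - x₁ * W.slope x₁ x₂ y₁ y₂ * hI - h₁

end Slope

variable {A : ValuationSubring L}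

lemma valuation_le_one_of_mem {a : L} (h : a ∈ A) : A.valuation a ≤ 1 :=
  (A.valuation_le_one_iff a).mpr h

lemma one_lt_valuation_of_notMem {a : L} (h : a ∉ A) : 1 < A.valuation a :=
  not_le.mp fun h' => h ((A.valuation_le_one_iff a).mp h')

lemma mem_of_valuation_lt_one {a : L} (h : A.valuation a < 1) : a ∈ A :=
  A.mem_of_valuation_le_one a h.le

lemma valuation_add_lt_one {a b : L} (ha : A.valuation a < 1) (hb : A.valuation b < 1) :
    A.valuation (a + b) < 1 :=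
  A.valuation.map_add_lt ha hb

lemma valuation_sub_lt_one {a b : L} (ha : A.valuation a < 1) (hb : A.valuation b < 1) :
    A.valuation (a - b) < 1 :=
  A.valuation.map_sub_lt ha hb

lemma valuation_mul_lt_one {a b : L} (ha : A.valuation a < 1) (hb : b ∈ A) :
    A.valuation (a * b) < 1 := by
  rw [map_mul]
  calc A.valuation a * A.valuation b ≤ A.valuation a * 1 := by
        gcongr; exact valuation_le_one_of_mem hb
    _ = A.valuation a := mul_one _
    _ < 1 := ha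

lemma residue_eq_residue_iff {a b : A} :
    IsLocalRing.residue A a = IsLocalRing.residue A b ↔ A.valuation ((a : L) - b) < 1 := by
  rw [← sub_eq_zero, ← map_sub, IsLocalRing.residue_eq_zero_iff, A.valuation_lt_one_iff]
  rfl

section Integral

variable {W : WeierstrassCurve.Affine L} (hW : IntegralAt A W)

include hW

lemma negY_mem {x y : L} (hx : x ∈ A) (hy : y ∈ A) : W.negY x y ∈ A :=
  sub_mem (sub_mem (neg_mem hy) (mul_mem hW.a₁ hx)) hW.a₃

lemma y_mem_of_x_mem {x y : L} (h : W.Equation x y) (hx : x ∈ A) : y ∈ A := by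
  by_contra hy
  have hy1 := one_lt_valuation_of_notMem hy
  rw [equation_iff] at h
  have hc : x ^ 3 + W.a₂ * x ^ 2 + W.a₄ * x + W.a₆ ∈ A :=
    add_mem (add_mem (add_mem (pow_mem hx _) (mul_mem hW.a₂ (pow_mem hx _))) (mul_mem hW.a₄ hx))
      hW.a₆
  have hb : W.a₁ * x + W.a₃ ∈ A := add_mem (mul_mem hW.a₁ hx) hW.a₃
  have hyy : A.valuation (y + (W.a₁ * x + W.a₃)) = A.valuation y :=
    A.valuation.map_add_eq_of_lt_left ((valuation_le_one_of_mem hb).trans_lt hy1)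
  have hmul : A.valuation (y * (y + (W.a₁ * x + W.a₃))) ≤ 1 := by
    refine valuation_le_one_of_mem ?_
    convert hc using 1
    linear_combination h
  rw [map_mul, hyy] at hmul
  exact absurd hmul (not_le.mpr (one_lt_mul'' hy1 hy1))

lemma y_notMem_of_x_notMem {x y : L} (h : W.Equation x y) (hx : x ∉ A) : y ∉ A := by
  intro hy
  apply hx
  have hx1 := one_lt_valuation_of_notMem hx
  rw [equation_iff] at h
  by_contra
  have e : x ^ 3 = y ^ 2 + W.a₃ * y - W.a₆ + x * (W.a₁ * y - W.a₄) - W.a₂ * x ^ 2 := by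
    linear_combination -h
  have hle : A.valuation (x ^ 3) ≤ A.valuation x ^ 2 := by
    rw [e]
    refine A.valuation.map_sub_le (A.valuation.map_add_le ?_ ?_) ?_
    · exact (valuation_le_one_of_mem (sub_mem (add_mem (pow_mem hy 2) (mul_mem hW.a₃ hy)) hW.a₆)).trans
        (one_le_pow₀ hx1.le)
    · rw [map_mul]
      calc A.valuation x * A.valuation (W.a₁ * y - W.a₄) ≤ A.valuation x * 1 := by
            gcongr
            exact valuation_le_one_of_mem (sub_mem (mul_mem hW.a₁ hy) hW.a₄)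
        _ ≤ A.valuation x * A.valuation x := by gcongr
        _ = A.valuation x ^ 2 := (sq _).symm
    · rw [map_mul, map_pow]
      calc A.valuation W.a₂ * A.valuation x ^ 2 ≤ 1 * A.valuation x ^ 2 := by
            gcongr
            exact valuation_le_one_of_mem hW.a₂
        _ = A.valuation x ^ 2 := one_mul _
  rw [map_pow] at hle
  exact absurd hle (not_le.mpr (pow_lt_pow_right₀ hx1 (by norm_num)))

lemma valuation_y_sq_of_x_notMem {x y : L} (h : W.Equation x y) (hx : x ∉ A) :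
    A.valuation y ^ 2 = A.valuation x ^ 3 ∧ A.valuation x < A.valuation y
      ∧ A.valuation y < A.valuation x ^ 2 := by
  have hx1 := one_lt_valuation_of_notMem hx
  have hy1 := one_lt_valuation_of_notMem (y_notMem_of_x_notMem hW h hx)
  set X := A.valuation x with hX
  set Y := A.valuation y with hY
  have hx0 : 0 < X := zero_lt_one.trans hx1
  have hrhs : A.valuation (x ^ 3 + W.a₂ * x ^ 2 + W.a₄ * x + W.a₆) = X ^ 3 := by
    rw [add_assoc, add_assoc, A.valuation.map_add_eq_of_lt_left, map_pow]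
    rw [map_pow]
    refine lt_of_le_of_lt (b := X ^ 2) ?_ (pow_lt_pow_right₀ hx1 (by norm_num))
    refine A.valuation.map_add_le ?_ (A.valuation.map_add_le ?_ ?_)
    · rw [map_mul, map_pow]
      exact mul_le_of_le_one_left' (valuation_le_one_of_mem hW.a₂)
    · rw [map_mul]
      exact (mul_le_of_le_one_left' (valuation_le_one_of_mem hW.a₄)).trans
        (le_self_pow hx1.le (by norm_num))
    · exact (valuation_le_one_of_mem hW.a₆).trans (one_le_pow₀ hx1.le)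
  have hb : A.valuation (W.a₁ * x + W.a₃) ≤ X := by
    refine A.valuation.map_add_le ?_ ((valuation_le_one_of_mem hW.a₃).trans hx1.le)
    rw [map_mul]
    exact mul_le_of_le_one_left' (valuation_le_one_of_mem hW.a₁)
  rw [equation_iff] at h
  have hlhs : A.valuation (y * (y + (W.a₁ * x + W.a₃))) = X ^ 3 := by
    rw [← hrhs, show y * (y + (W.a₁ * x + W.a₃)) = x ^ 3 + W.a₂ * x ^ 2 + W.a₄ * x + W.a₆ from by
      linear_combination h]
  rw [map_mul] at hlhs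
  have hlt : X < Y := by
    by_contra hle
    have hle' := not_lt.mp hle
    have : A.valuation (y + (W.a₁ * x + W.a₃)) ≤ X := A.valuation.map_add_le hle' hb
    have h3 : X ^ 3 ≤ X ^ 2 := by
      rw [← hlhs, sq]
      exact mul_le_mul' hle' this
    exact absurd h3 (not_le.mpr (pow_lt_pow_right₀ hx1 (by norm_num)))
  rw [A.valuation.map_add_eq_of_lt_left (hb.trans_lt hlt), ← sq] at hlhs
  refine ⟨hlhs, hlt, ?_⟩
  by_contra hle
  have h4 : X ^ 4 ≤ X ^ 3 := by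
    rw [← hlhs, show X ^ 4 = (X ^ 2) ^ 2 by rw [← pow_mul]]
    exact pow_le_pow_left₀ zero_le (not_lt.mp hle) 2
  exact absurd h4 (not_le.mpr (pow_lt_pow_right₀ hx1 (by norm_num)))

variable [DecidableEq L]

/-- Adding a point of the kernel of reduction to an integral point does not change the reduced
abscissa. -/
lemma addX_congr_of_notMem_of_mem {x₁ x₂ y₁ y₂ : L} (h₁ : W.Equation x₁ y₁)
    (h₂ : W.Equation x₂ y₂) (hx₁ : x₁ ∉ A) (hx₂ : x₂ ∈ A) :
    W.addX x₁ x₂ (W.slope x₁ x₂ y₁ y₂) ∈ A ∧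
      A.valuation (W.addX x₁ x₂ (W.slope x₁ x₂ y₁ y₂) - x₂) < 1 := by
  have hy₂ := y_mem_of_x_mem hW h₂ hx₂
  obtain ⟨-, hXY, hY2⟩ := valuation_y_sq_of_x_notMem hW h₁ hx₁
  have hx1 := one_lt_valuation_of_notMem hx₁
  have hne : x₁ ≠ x₂ := fun e => hx₁ (e ▸ hx₂)
  have hd : A.valuation (x₁ - x₂) = A.valuation x₁ := by
    rw [sub_eq_add_neg, A.valuation.map_add_eq_of_lt_left]
    rw [Valuation.map_neg]
    exact (valuation_le_one_of_mem hx₂).trans_lt hx1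
  have key : (W.addX x₁ x₂ (W.slope x₁ x₂ y₁ y₂) - x₂) * (x₁ - x₂) ^ 2
      = y₁ * (-W.a₃ - 2 * y₂ - W.a₁ * x₂)
        + x₁ * (W.a₄ - W.a₁ * y₂ + 3 * x₂ ^ 2 + 2 * W.a₂ * x₂)
        + (W.a₆ + y₂ ^ 2 + W.a₁ * x₂ * y₂ - W.a₂ * x₂ ^ 2 - 2 * x₂ ^ 3) := by
    have hI := slope_mul_X_sub h₁ h₂ fun h => hne h.1
    rw [equation_iff] at h₁
    simp only [addX]
    linear_combination (W.slope x₁ x₂ y₁ y₂ * (x₁ - x₂) + (y₁ - y₂) + W.a₁ * (x₁ - x₂)) * hI + h₁
  have h2A : (2 : L) ∈ A := (show ((2 : ℕ) : L) = 2 from rfl) ▸ natCast_mem A 2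
  have h3A : (3 : L) ∈ A := (show ((3 : ℕ) : L) = 3 from rfl) ▸ natCast_mem A 3
  have c1 : -W.a₃ - 2 * y₂ - W.a₁ * x₂ ∈ A :=
    sub_mem (sub_mem (neg_mem hW.a₃) (mul_mem h2A hy₂)) (mul_mem hW.a₁ hx₂)
  have c2 : W.a₄ - W.a₁ * y₂ + 3 * x₂ ^ 2 + 2 * W.a₂ * x₂ ∈ A :=
    add_mem (add_mem (sub_mem hW.a₄ (mul_mem hW.a₁ hy₂)) (mul_mem h3A (pow_mem hx₂ _)))
      (mul_mem (mul_mem h2A hW.a₂) hx₂)
  have c3 : W.a₆ + y₂ ^ 2 + W.a₁ * x₂ * y₂ - W.a₂ * x₂ ^ 2 - 2 * x₂ ^ 3 ∈ A :=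
    sub_mem (sub_mem (add_mem (add_mem hW.a₆ (pow_mem hy₂ _)) (mul_mem (mul_mem hW.a₁ hx₂) hy₂))
      (mul_mem hW.a₂ (pow_mem hx₂ _))) (mul_mem h2A (pow_mem hx₂ _))
  have hlt : A.valuation ((W.addX x₁ x₂ (W.slope x₁ x₂ y₁ y₂) - x₂) * (x₁ - x₂) ^ 2)
      < A.valuation x₁ ^ 2 := by
    rw [key]
    refine lt_of_le_of_lt (b := A.valuation y₁) ?_ hY2
    refine A.valuation.map_add_le (A.valuation.map_add_le ?_ ?_) ?_
    · rw [map_mul]; exact mul_le_of_le_one_right' (valuation_le_one_of_mem c1)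
    · rw [map_mul]
      exact (mul_le_of_le_one_right' (valuation_le_one_of_mem c2)).trans hXY.le
    · exact (valuation_le_one_of_mem c3).trans (hx1.trans hXY).le
  rw [map_mul, map_pow, hd] at hlt
  have hlt' : A.valuation (W.addX x₁ x₂ (W.slope x₁ x₂ y₁ y₂) - x₂) < 1 := by
    by_contra hle
    exact absurd hlt (not_lt.mpr (le_mul_of_one_le_left' (not_lt.mp hle)))
  exact ⟨by simpa using add_mem (mem_of_valuation_lt_one hlt') hx₂, hlt'⟩

end Integral

end FLTA.EllReduction
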