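import Fermat.Agent.EllReduction.FreyVal
import Mathlib.RingTheory.LocalRing.ResidueField.Basic

/-!
# Inertia fixes the `p`-torsion of `Y² = X(X - e)(X - f)` when `p ∣ v(e)`, `v(f) = v(e - f) = 0`

Elementary argument: only the secant and duplication formulas are used.
-/

set_option autoImplicit false

namespace FLTA.EllReduction.FreyAux

/-- Coordinates on a group behaving like those of `Y² = X(X - e)(X - f)`. -/
structure FreyCoord (G : Type*) [AddCommGroup G] (L : Type*) [Field L] (e f : L) where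
  X : G → L
  Y : G → L
  on_curve : ∀ P, P ≠ 0 → Y P ^ 2 = X P * (X P - e) * (X P - f)
  X_neg : ∀ P, X (-P) = X P
  Y_neg : ∀ P, Y (-P) = -Y P
  eq_or_neg : ∀ P Q, P ≠ 0 → Q ≠ 0 → X P = X Q → P = Q ∨ P = -Q
  two_torsion : ∀ P, P ≠ 0 → Y P = 0 → P + P = 0
  secant : ∀ P Q, P ≠ 0 → Q ≠ 0 → X P ≠ X Q → P + Q ≠ 0 ∧
    X (P + Q) = ((Y P - Y Q) / (X P - X Q)) ^ 2 + e + f - X P - X Q
  double : ∀ P, P ≠ 0 → Y P ≠ 0 → P + P ≠ 0 ∧
    X (P + P) * (4 * Y P ^ 2) = (X P ^ 2 - e * f) ^ 2

variable {G : Type*} [AddCommGroup G] {L : Type*} [Field L] {e f : L}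

theorem FreyCoord.prod_formula (C : FreyCoord G L e f) {P Q : G} (hP : P ≠ 0) (hQ : Q ≠ 0)
    (hX : C.X P ≠ C.X Q) :
    C.X (P + Q) * C.X (P - Q) * (C.X P - C.X Q) ^ 2 = (C.X P * C.X Q - e * f) ^ 2 := by
  have hQ' : -Q ≠ 0 := neg_ne_zero.mpr hQ
  obtain ⟨-, h1⟩ := C.secant P Q hP hQ hX
  obtain ⟨-, h2⟩ := C.secant P (-Q) hP hQ' (by rwa [C.X_neg])
  rw [C.X_neg, C.Y_neg, ← sub_eq_add_neg] at h2
  have hd : C.X P - C.X Q ≠ 0 := sub_ne_zero.mpr hX
  have eP := C.on_curve P hP
  have eQ := C.on_curve Q hQ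
  set x := C.X P
  set u := C.X Q
  set y := C.Y P
  set v := C.Y Q
  have a1 : C.X (P + Q) * (x - u) ^ 2 = (y - v) ^ 2 + (e + f - x - u) * (x - u) ^ 2 := by
    rw [h1]; field_simp; ring
  have a2 : C.X (P - Q) * (x - u) ^ 2 = (y + v) ^ 2 + (e + f - x - u) * (x - u) ^ 2 := by
    rw [h2]; field_simp; ring
  apply mul_right_cancel₀ (pow_ne_zero 2 hd)
  calc C.X (P + Q) * C.X (P - Q) * (x - u) ^ 2 * (x - u) ^ 2
      = (C.X (P + Q) * (x - u) ^ 2) * (C.X (P - Q) * (x - u) ^ 2) := by ring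
    _ = (y ^ 2 + v ^ 2 + (e + f - x - u) * (x - u) ^ 2) ^ 2 - 4 * y ^ 2 * v ^ 2 := by
        rw [a1, a2]; ring
    _ = _ := by rw [eP, eQ]; ring

/-- Running hypotheses of the core argument. -/
structure Setup (C : FreyCoord G L e f) (A : ValuationSubring L) (q p m : ℕ) (w : L → ℚ) :
    Prop where
  hw : IsRatVal A q w
  hq : q.Prime
  hq2 : q ≠ 2
  hp : p.Prime
  hp5 : 5 ≤ p
  hqp : q ≠ p
  he : e ≠ 0
  we : w e = (p : ℚ) * m
  hf : f ≠ 0
  wf : w f = 0
  hef : e - f ≠ 0
  wef : w (e - f) = 0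

namespace Setup

variable {C : FreyCoord G L e f} {A : ValuationSubring L} {q p m : ℕ} {w : L → ℚ}
  (S : Setup C A q p m w)

include S

theorem n_nonneg : 0 ≤ w e := by rw [S.we]; positivity

theorem mul_ef : e * f ≠ 0 ∧ w (e * f) = w e := by
  refine ⟨mul_ne_zero S.he S.hf, ?_⟩
  rw [S.hw.map_mul S.he S.hf, S.wf, add_zero]

theorem two_unit : (2 : L) ≠ 0 ∧ w 2 = 0 := by
  have := S.hw.map_intCast_of_not_dvd S.hq (n := 2) (fun h => S.hq2 ?_)
  · simpa using this
  · exact_mod_cast (Nat.prime_dvd_prime_iff_eq S.hq Nat.prime_two).mp (by exact_mod_cast h)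

theorem four_unit : (4 : L) ≠ 0 ∧ w 4 = 0 := by
  obtain ⟨h, h'⟩ := S.two_unit
  have e4 : (4 : L) = 2 * 2 := by norm_num
  exact ⟨by rw [e4]; exact mul_ne_zero h h, by rw [e4, S.hw.map_mul h h, h', add_zero]⟩

section Torsion

variable {T : G}

theorem zsmul_ne (hpT : p • T = 0) (hT : T ≠ 0) {k : ℤ} (hk : ¬ (p : ℤ) ∣ k) : k • T ≠ 0 := by
  intro h
  obtain ⟨a, b, hab⟩ := (Nat.prime_iff_prime_int.mp S.hp).coprime_iff_not_dvd.mpr hk
  apply hT
  rw [← one_zsmul T, ← hab, add_zsmul, mul_zsmul, mul_zsmul, natCast_zsmul, hpT, h, zsmul_zero,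
    zsmul_zero, add_zero]

theorem nsmul_ne (hpT : p • T = 0) (hT : T ≠ 0) {k : ℕ} (h1 : 1 ≤ k) (h2 : k < p) :
    k • T ≠ 0 := by
  rw [← natCast_zsmul]
  refine S.zsmul_ne hpT hT fun h => ?_
  have := Nat.le_of_dvd (by omega) (Int.natCast_dvd_natCast.mp h)
  omega

theorem torsion_smul (hpT : p • T = 0) (k : ℕ) : p • (k • T) = 0 := by
  rw [← mul_nsmul', mul_comm, mul_nsmul', hpT, nsmul_zero]

theorem add_self_ne (hpT : p • T = 0) (hT : T ≠ 0) : T + T ≠ 0 := by
  rw [← two_nsmul]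
  exact S.nsmul_ne hpT hT (by norm_num) (by linarith [S.hp5])

theorem Y_ne (hpT : p • T = 0) (hT : T ≠ 0) : C.Y T ≠ 0 := fun h =>
  S.add_self_ne hpT hT (C.two_torsion T hT h)

theorem X_ne (hpT : p • T = 0) (hT : T ≠ 0) :
    C.X T ≠ 0 ∧ C.X T - e ≠ 0 ∧ C.X T - f ≠ 0 := by
  have h := pow_ne_zero 2 (S.Y_ne hpT hT)
  rw [C.on_curve T hT] at h
  exact ⟨left_ne_zero_of_mul (left_ne_zero_of_mul h), right_ne_zero_of_mul (left_ne_zero_of_mul h),
    right_ne_zero_of_mul h⟩

theorem wY (hpT : p • T = 0) (hT : T ≠ 0) :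
    2 * w (C.Y T) = w (C.X T) + w (C.X T - e) + w (C.X T - f) := by
  obtain ⟨hx, hxe, hxf⟩ := S.X_ne hpT hT
  have := congrArg w (C.on_curve T hT)
  rw [S.hw.map_pow (S.Y_ne hpT hT), S.hw.map_mul (mul_ne_zero hx hxe) hxf,
    S.hw.map_mul hx hxe] at this
  exact_mod_cast this

theorem double_val (hpT : p • T = 0) (hT : T ≠ 0) :
    C.X T ^ 2 - e * f ≠ 0 ∧
      w (C.X (T + T)) = 2 * w (C.X T ^ 2 - e * f) - 2 * w (C.Y T) := by
  obtain ⟨hne, hd⟩ := C.double T hT (S.Y_ne hpT hT)
  have h2 : p • (T + T) = 0 := by rw [nsmul_add, hpT, add_zero]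
  obtain ⟨hx2, -, -⟩ := S.X_ne h2 hne
  obtain ⟨h4, h4'⟩ := S.four_unit
  have hY2 : (4 : L) * C.Y T ^ 2 ≠ 0 := mul_ne_zero h4 (pow_ne_zero _ (S.Y_ne hpT hT))
  have hne' : C.X T ^ 2 - e * f ≠ 0 := by
    intro h
    rw [h, zero_pow two_ne_zero] at hd
    exact mul_ne_zero hx2 hY2 hd
  refine ⟨hne', ?_⟩
  have hv := congrArg w hd
  rw [S.hw.map_mul hx2 hY2, S.hw.map_mul h4 (pow_ne_zero _ (S.Y_ne hpT hT)),
    S.hw.map_pow (S.Y_ne hpT hT), S.hw.map_pow hne', h4'] at hv
  push_cast at hv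
  linarith

theorem X_eq_dvd (hpT : p • T = 0) (hT : T ≠ 0) {j k : ℕ} (hj : 1 ≤ j) (hj' : j < p)
    (hk : 1 ≤ k) (hk' : k < p) (h : C.X (j • T) = C.X (k • T)) : j = k ∨ j + k = p := by
  rcases C.eq_or_neg _ _ (S.nsmul_ne hpT hT hj hj') (S.nsmul_ne hpT hT hk hk') h with h | h
  · left
    rcases lt_trichotomy j k with hlt | he | hgt
    · exact absurd (show (k - j) • T = 0 by rw [sub_nsmul T hlt.le, h, add_neg_cancel])
        (S.nsmul_ne hpT hT (by omega) (by omega))
    · exact he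
    · exact absurd (show (j - k) • T = 0 by rw [sub_nsmul T hgt.le, h, add_neg_cancel])
        (S.nsmul_ne hpT hT (by omega) (by omega))
  · right
    have h0 : (j + k) • T = 0 := by rw [add_nsmul, h, neg_add_cancel]
    rcases lt_trichotomy (j + k) p with hlt | he | hgt
    · exact absurd h0 (S.nsmul_ne hpT hT (by omega) hlt)
    · exact he
    · exfalso
      apply S.nsmul_ne hpT hT (k := j + k - p) (by omega) (by omega)
      rw [sub_nsmul T hgt.le, h0, hpT, neg_zero, add_zero]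

theorem step_val (hpT : p • T = 0) (hT : T ≠ 0) {k : ℕ} (hk2 : 2 ≤ k) (hkp : k + 2 ≤ p) :
    C.X (k • T) - C.X T ≠ 0 ∧
    C.X (k • T) * C.X T - e * f ≠ 0 ∧
    w (C.X ((k + 1) • T)) + w (C.X ((k - 1) • T)) + 2 * w (C.X (k • T) - C.X T) =
      2 * w (C.X (k • T) * C.X T - e * f) ∧
    C.X ((k + 1) • T) * C.X ((k - 1) • T) * (C.X (k • T) - C.X T) ^ 2 =
      (C.X (k • T) * C.X T - e * f) ^ 2 := by
  have hne : C.X (k • T) ≠ C.X T := by
    intro h
    rw [← one_nsmul T, ← mul_nsmul', mul_one] at h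
    have := S.X_eq_dvd hpT hT (by omega : 1 ≤ k) (by omega) le_rfl (by linarith [S.hp5]) h
    omega
  have hd : C.X (k • T) - C.X T ≠ 0 := sub_ne_zero.mpr hne
  have hform := C.prod_formula (S.nsmul_ne hpT hT (by omega : 1 ≤ k) (by omega)) hT hne
  have e1 : k • T + T = (k + 1) • T := (succ_nsmul T k).symm
  have e2 : k • T - T = (k - 1) • T := by rw [sub_nsmul T (by omega : 1 ≤ k), one_nsmul, sub_eq_add_neg]
  rw [e1, e2] at hform
  have hA := (S.X_ne (S.torsion_smul hpT (k + 1))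
    (S.nsmul_ne hpT hT (by omega : 1 ≤ k + 1) (by omega))).1
  have hB := (S.X_ne (S.torsion_smul hpT (k - 1))
    (S.nsmul_ne hpT hT (by omega : 1 ≤ k - 1) (by omega))).1
  have hn : C.X (k • T) * C.X T - e * f ≠ 0 := by
    intro h
    rw [h, zero_pow two_ne_zero] at hform
    exact mul_ne_zero (mul_ne_zero hA hB) (pow_ne_zero _ hd) hform
  refine ⟨hd, hn, ?_, hform⟩
  have hv := congrArg w hform
  rw [S.hw.map_mul (mul_ne_zero hA hB) (pow_ne_zero _ hd), S.hw.map_mul hA hB,
    S.hw.map_pow hd, S.hw.map_pow hn] at hv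
  push_cast at hv
  linarith

/-- No nonzero `p`-torsion in the kernel of reduction: one extreme step. -/
theorem exists_smaller (hpT : p • T = 0) (hT : T ≠ 0) (hneg : w (C.X T) < 0) :
    ∃ k, 1 ≤ k ∧ k < p ∧ w (C.X (k • T)) < w (C.X T) := by
  classical
  by_contra hcon
  push Not at hcon
  set a := w (C.X T) with ha
  obtain ⟨hx, -, -⟩ := S.X_ne hpT hT
  let r := IsLocalRing.residue A
  let c : ℕ → L := fun k => C.X T / C.X (k • T)
  have hXk : ∀ k, 1 ≤ k → k < p → C.X (k • T) ≠ 0 := fun k h1 h2 =>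
    (S.X_ne (S.torsion_smul hpT k) (S.nsmul_ne hpT hT h1 h2)).1
  have rq : (q : IsLocalRing.ResidueField A) = 0 := by
    rw [← map_natCast r q]
    apply Ideal.Quotient.eq_zero_iff_mem.mpr
    rw [← A.coe_mem_nonunits_iff]
    have := S.hw.mem_nonunits_iff.mpr (.inr (by rw [S.hw.map_q]; exact one_pos) : (q : L) = 0 ∨ _)
    exact_mod_cast this
  have rnat : ∀ k : ℕ, (k : IsLocalRing.ResidueField A) = 0 → q ∣ k := by
    intro k hk
    by_contra hd
    obtain ⟨u, v, huv⟩ := Int.isCoprime_iff_gcd_eq_one.mpr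
      (show Int.gcd (k : ℤ) (q : ℤ) = 1 by
        rw [Int.gcd_natCast_natCast]; exact ((S.hq.coprime_iff_not_dvd).mpr hd).symm)
    have := congrArg (Int.cast : ℤ → IsLocalRing.ResidueField A) huv
    push_cast at this
    rw [hk, rq, mul_zero, mul_zero, add_zero] at this
    exact zero_ne_one this
  let I (k : ℕ) : Prop := ∃ u : A, (u : L) = c k ∧ r u = (k : IsLocalRing.ResidueField A) ^ 2
  have hI1 : I 1 := ⟨1, by simp [c, div_self hx], by simp [r]⟩
  have rzero : ∀ u : A, ((u : L) = 0 ∨ 0 < w (u : L)) → r u = 0 := fun u hu =>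
    Ideal.Quotient.eq_zero_iff_mem.mpr (A.coe_mem_nonunits_iff.mp (S.hw.mem_nonunits_iff.mpr hu))
  have we := S.n_nonneg
  have hI2 : I 2 := by
    obtain ⟨hne2, hd⟩ := C.double T hT (S.Y_ne hpT hT)
    have hx2 := hXk 2 (by norm_num) (by linarith [S.hp5])
    rw [← two_nsmul] at hd
    obtain ⟨hne', -⟩ := S.double_val hpT hT
    have hwe : w (e / C.X T) = w e - a := S.hw.map_div S.he hx
    have hwf : w (f / C.X T) = - a := by rw [S.hw.map_div S.hf hx, S.wf, zero_sub]
    have hwef : w (e * f / C.X T ^ 2) = w e - 2 * a := by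
      rw [S.hw.map_div S.mul_ef.1 (pow_ne_zero _ hx), S.mul_ef.2, S.hw.map_pow hx]
      push_cast
      rw [ha]
    let se : A := ⟨e / C.X T, S.hw.mem_of_nonneg (.inr (by rw [hwe]; linarith))⟩
    let sf : A := ⟨f / C.X T, S.hw.mem_of_nonneg (.inr (by rw [hwf]; linarith))⟩
    let sef : A := ⟨e * f / C.X T ^ 2, S.hw.mem_of_nonneg (.inr (by rw [hwef]; linarith))⟩
    have he0 : r se = 0 := rzero se (.inr (by show 0 < w (e / C.X T); rw [hwe]; linarith))
    have hf0 : r sf = 0 := rzero sf (.inr (by show 0 < w (f / C.X T); rw [hwf]; linarith))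
    have hef0 : r sef = 0 :=
      rzero sef (.inr (by show 0 < w (e * f / C.X T ^ 2); rw [hwef]; linarith))
    have hu : IsUnit ((1 - sef) ^ 2) := by
      by_contra hu
      have : r ((1 - sef) ^ 2) = 0 :=
        Ideal.Quotient.eq_zero_iff_mem.mpr ((IsLocalRing.mem_maximalIdeal _).mpr hu)
      rw [map_pow, map_sub, map_one, hef0, sub_zero, one_pow] at this
      exact one_ne_zero this
    obtain ⟨U, hU⟩ := hu
    refine ⟨4 * (1 - se) * (1 - sf) * ↑U⁻¹, ?_, ?_⟩
    · have hUU : ((U : A) : L) * ((↑U⁻¹ : A) : L) = 1 := by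
        rw [← MulMemClass.coe_mul, Units.mul_inv]; rfl
      have hU' : ((U : A) : L) = (1 - e * f / C.X T ^ 2) ^ 2 := by rw [hU]; rfl
      have hinv : ((↑U⁻¹ : A) : L) = 1 / (1 - e * f / C.X T ^ 2) ^ 2 := by
        rw [← hU', eq_div_iff (left_ne_zero_of_mul_eq_one hUU), mul_comm]
        exact hUU
      have h4 : ((4 : A) : L) = 4 := rfl
      push_cast
      rw [hinv, h4]
      simp only [c, se, sf]
      have hY := C.on_curve T hT
      rw [hY] at hd
      have hden : C.X T ^ 2 - e * f ≠ 0 := hne'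
      field_simp
      linear_combination hd
    · have hUr : r (↑U⁻¹ : A) = 1 := by
        have := congrArg r U.mul_inv
        rw [map_mul, hU, map_pow, map_sub, map_one, hef0, sub_zero, one_pow, one_mul] at this
        exact this
      rw [map_mul, map_mul, map_mul, map_sub, map_sub, map_one, hUr, he0, hf0, map_ofNat]
      norm_num
  have step : ∀ k, 2 ≤ k → k + 2 ≤ p → k + 1 ≤ q → I (k - 1) → I k →
      ∃ u₁ : A, (u₁ : L) = c (k - 1) ∧ r u₁ = ((k - 1 : ℕ) : IsLocalRing.ResidueField A) ^ 2 ∧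
      ∃ u : A, ∃ U : A, (U : L) = c (k + 1) * c (k - 1) ∧
        r U = (1 - (k : IsLocalRing.ResidueField A) ^ 2) ^ 2 ∧ r u = r U := by
    intro k hk2 hkp hkq ⟨u₁, hu₁, hu₁'⟩ ⟨uk, huk, huk'⟩
    refine ⟨u₁, hu₁, hu₁', ?_⟩
    obtain ⟨-, hn, -, hform⟩ := S.step_val hpT hT hk2 hkp
    have hK := hXk k (by omega) (by omega)
    have hak := hcon k (by omega) (by omega)
    have hkneg : w (C.X (k • T)) ≤ a := by
      have : (0 : ℚ) ≤ w (c k) := by
        have hmem : c k ∈ A := by rw [← huk]; exact uk.2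
        exact (S.hw.mem_iff (div_ne_zero hx hK)).mp hmem
      simp only [c] at this
      rw [S.hw.map_div hx hK] at this
      linarith
    have hws : w (e * f / (C.X (k • T) * C.X T)) = w e - (w (C.X (k • T)) + a) := by
      rw [S.hw.map_div S.mul_ef.1 (mul_ne_zero hK hx), S.mul_ef.2, S.hw.map_mul hK hx]
    let sef : A := ⟨e * f / (C.X (k • T) * C.X T), S.hw.mem_of_nonneg
      (.inr (by rw [hws]; linarith))⟩
    have hef0 : r sef = 0 :=
      rzero sef (.inr (by show 0 < w (e * f / _); rw [hws]; linarith))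
    have hu : IsUnit ((1 - sef) ^ 2) := by
      by_contra hu
      have : r ((1 - sef) ^ 2) = 0 :=
        Ideal.Quotient.eq_zero_iff_mem.mpr ((IsLocalRing.mem_maximalIdeal _).mpr hu)
      rw [map_pow, map_sub, map_one, hef0, sub_zero, one_pow] at this
      exact one_ne_zero this
    obtain ⟨V, hV⟩ := hu
    have hVr : r (↑V⁻¹ : A) = 1 := by
      have := congrArg r V.mul_inv
      rw [map_mul, hV, map_pow, map_sub, map_one, hef0, sub_zero, one_pow, one_mul] at this
      exact this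
    refine ⟨(1 - uk) ^ 2 * ↑V⁻¹, (1 - uk) ^ 2 * ↑V⁻¹, ?_, ?_, rfl⟩
    · have hVV : ((V : A) : L) * ((↑V⁻¹ : A) : L) = 1 := by
        rw [← MulMemClass.coe_mul, Units.mul_inv]; rfl
      have hV' : ((V : A) : L) = (1 - e * f / (C.X (k • T) * C.X T)) ^ 2 := by rw [hV]; rfl
      have hinv : ((↑V⁻¹ : A) : L) = 1 / (1 - e * f / (C.X (k • T) * C.X T)) ^ 2 := by
        rw [← hV', eq_div_iff (left_ne_zero_of_mul_eq_one hVV), mul_comm]
        exact hVV
      push_cast
      rw [hinv, huk]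
      simp only [c]
      have hA := hXk (k + 1) (by omega) (by omega)
      have hB := hXk (k - 1) (by omega) (by omega)
      rw [one_sub_div hK, one_sub_div (mul_ne_zero hK hx), div_pow, div_pow, one_div_div,
        div_mul_div_comm, div_mul_div_comm, div_eq_div_iff
          (mul_ne_zero (pow_ne_zero _ hK) (pow_ne_zero _ hn)) (mul_ne_zero hA hB)]
      linear_combination (C.X (k • T) ^ 2 * C.X T ^ 2) * hform
    · rw [map_mul, map_pow, map_sub, map_one, hVr, huk', mul_one]
  have hI : ∀ k, 2 ≤ k → k < p → k < q → I (k - 1) ∧ I k := by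
    intro k hk2
    induction k, hk2 using Nat.le_induction with
    | base => exact fun _ _ => ⟨hI1, hI2⟩
    | succ k hk2 ih =>
      intro hkp hkq
      obtain ⟨i1, i2⟩ := ih (by omega) (by omega)
      refine ⟨i2, ?_⟩
      obtain ⟨u₁, hu₁, hu₁', u, U, hU, hU', -⟩ := step k hk2 (by omega) (by omega) i1 i2
      have hk1 : ((k - 1 : ℕ) : IsLocalRing.ResidueField A) ≠ 0 := fun h =>
        absurd (Nat.le_of_dvd (by omega) (rnat _ h)) (by omega)
      have hun : IsUnit u₁ := by
        by_contra hu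
        exact pow_ne_zero 2 hk1 (hu₁' ▸ Ideal.Quotient.eq_zero_iff_mem.mpr
          ((IsLocalRing.mem_maximalIdeal _).mpr hu))
      obtain ⟨V, rfl⟩ := hun
      have hVV : ((V : A) : L) * ((↑V⁻¹ : A) : L) = 1 := by
        rw [← MulMemClass.coe_mul, Units.mul_inv]; rfl
      refine ⟨U * ↑V⁻¹, ?_, ?_⟩
      · push_cast
        rw [hU, ← hu₁, mul_assoc, hVV, mul_one]
      · have hVr : r (V : A) * r (↑V⁻¹ : A) = 1 := by rw [← map_mul, Units.mul_inv, map_one]
        rw [map_mul, hU']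
        apply mul_right_cancel₀ (pow_ne_zero 2 hk1)
        calc (1 - (k : IsLocalRing.ResidueField A) ^ 2) ^ 2 * r (↑V⁻¹ : A) *
              ((k - 1 : ℕ) : IsLocalRing.ResidueField A) ^ 2
            = (1 - (k : IsLocalRing.ResidueField A) ^ 2) ^ 2 * (r (V : A) * r (↑V⁻¹ : A)) := by
              rw [hu₁']; ring
          _ = ((k + 1 : ℕ) : IsLocalRing.ResidueField A) ^ 2 *
              ((k - 1 : ℕ) : IsLocalRing.ResidueField A) ^ 2 := by
              rw [hVr, mul_one, Nat.cast_sub (by omega : 1 ≤ k)]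
              push_cast
              ring
  rcases lt_or_gt_of_ne S.hqp with hlt | hgt
  · have hq3 : 3 ≤ q := by have := S.hq.two_le; have := S.hq2; omega
    obtain ⟨i1, i2⟩ := hI (q - 1) (by omega) (by omega) (by omega)
    obtain ⟨u₁, hu₁, hu₁', u, U, hU, hU', -⟩ := step (q - 1) (by omega) (by omega) (by omega) i1 i2
    have hU0 : r U = 0 := by
      rw [hU', Nat.cast_sub (by omega : 1 ≤ q), rq]
      norm_num
    have hpos := S.hw.mem_nonunits_iff.mp
      (A.coe_mem_nonunits_iff.mpr (Ideal.Quotient.eq_zero_iff_mem.mp hU0))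
    rw [hU] at hpos
    have hq1 : q - 1 + 1 = q := by omega
    rw [hq1] at hpos
    have hA := hXk q (by omega) hlt
    have hB := hXk (q - 1 - 1) (by omega) (by omega)
    have hne : c q * c (q - 1 - 1) ≠ 0 :=
      mul_ne_zero (div_ne_zero hx hA) (div_ne_zero hx hB)
    have hpos' := hpos.resolve_left hne
    rw [S.hw.map_mul (div_ne_zero hx hA) (div_ne_zero hx hB)] at hpos'
    rw [S.hw.map_div hx hA, S.hw.map_div hx hB] at hpos'
    have h1 := hcon q (by omega) hlt
    have h2 := hcon (q - 1 - 1) (by omega) (by omega)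
    linarith
  · have hp := S.hp5
    obtain ⟨-, u, hu, hu'⟩ := hI (p - 1) (by omega) (by omega) (by omega)
    have hXe : C.X ((p - 1) • T) = C.X T := by
      rw [sub_nsmul T (by omega : 1 ≤ p), hpT, zero_add, one_nsmul, C.X_neg]
    have hu1 : u = 1 := Subtype.ext (by simp [hu, c, hXe, div_self hx])
    rw [hu1, map_one] at hu'
    have hcast : ((p * (p - 2) : ℕ) : IsLocalRing.ResidueField A) = 0 := by
      have e1 : p * (p - 2) + 1 = (p - 1) ^ 2 := by
        obtain ⟨t, rfl⟩ : ∃ t, p = t + 2 := ⟨p - 2, by omega⟩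
        simp only [Nat.add_sub_cancel, show t + 2 - 1 = t + 1 by omega]
        ring
      have := congrArg (Nat.cast : ℕ → IsLocalRing.ResidueField A) e1
      push_cast at this
      rw [← hu'] at this
      simpa using this
    rcases S.hq.dvd_mul.mp (rnat _ hcast) with h | h
    · exact S.hqp ((Nat.prime_dvd_prime_iff_eq S.hq S.hp).mp h)
    · have := Nat.le_of_dvd (by omega) h
      omega

/-- Nonzero `p`-torsion has integral `X`. -/
theorem X_nonneg (hpT : p • T = 0) (hT : T ≠ 0) : 0 ≤ w (C.X T) := by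
  have hne : (Finset.Ico 1 p).Nonempty := ⟨1, Finset.mem_Ico.mpr ⟨le_rfl, by linarith [S.hp5]⟩⟩
  obtain ⟨k₀, hk₀, hmin⟩ :=
    (Finset.Ico 1 p).exists_min_image (fun k => w (C.X (k • T))) hne
  rw [Finset.mem_Ico] at hk₀
  by_contra hneg
  rw [not_le] at hneg
  have h1 := hmin 1 (Finset.mem_Ico.mpr ⟨le_rfl, by linarith [S.hp5]⟩)
  rw [one_nsmul] at h1
  obtain ⟨k, hk1, hk2, hlt⟩ := S.exists_smaller (S.torsion_smul hpT k₀)
    (S.nsmul_ne hpT hT hk₀.1 hk₀.2) (lt_of_le_of_lt h1 hneg)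
  rw [← mul_nsmul] at hlt
  obtain ⟨j, hj⟩ : ∃ j, k₀ * k = p * ((k₀ * k) / p) + j ∧ j = (k₀ * k) % p :=
    ⟨(k₀ * k) % p, (Nat.div_add_mod _ _).symm, rfl⟩
  have hkT : (k₀ * k) • T = j • T := by
    rw [hj.1, add_nsmul, mul_comm, mul_nsmul', hpT, nsmul_zero, zero_add]
  have hjp : j < p := hj.2 ▸ Nat.mod_lt _ S.hp.pos
  have hj1 : 1 ≤ j := by
    rw [hj.2, Nat.one_le_iff_ne_zero]
    intro h
    rcases S.hp.dvd_mul.mp (Nat.dvd_of_mod_eq_zero h) with h | h
    · have := Nat.le_of_dvd (by omega) h; omega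
    · have := Nat.le_of_dvd (by omega) h; omega
  rw [hkT] at hlt
  have := hmin j (Finset.mem_Ico.mpr ⟨hj1, hjp⟩)
  linarith

theorem X_nonneg' (hpT : p • T = 0) (hT : T ≠ 0) {k : ℕ} (h1 : 1 ≤ k) (h2 : k < p) :
    0 ≤ w (C.X (k • T)) :=
  S.X_nonneg (S.torsion_smul hpT k) (S.nsmul_ne hpT hT h1 h2)

theorem Y_unit_of_X_unit (hpT : p • T = 0) (hT : T ≠ 0) (h0 : w (C.X T) = 0) :
    w (C.Y T) = 0 := by
  obtain ⟨hx, hxe, hxf⟩ := S.X_ne hpT hT
  have hY := S.wY hpT hT
  rw [h0, zero_add] at hY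
  have ge_e : 0 ≤ w (C.X T - e) := S.hw.le_sub hxe (.inr h0.ge) (.inr S.n_nonneg)
  have ge_f : 0 ≤ w (C.X T - f) := S.hw.le_sub hxf (.inr h0.ge) (.inr S.wf.ge)
  by_contra hY0
  have hpos : 0 < w (C.Y T) := lt_of_le_of_ne (by linarith) (Ne.symm hY0)
  obtain ⟨-, h2⟩ := S.double_val hpT hT
  have h2' : 0 ≤ w (C.X (T + T)) := by
    rw [← two_nsmul]
    exact S.X_nonneg' hpT hT (by norm_num) (by linarith [S.hp5])
  have unit_ef : 0 < w (C.X T - e) ∨ 0 < w (C.X T - f) := by
    by_contra hc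
    rw [not_or, not_lt, not_lt] at hc
    linarith
  have key : w (C.X T ^ 2 - e * f) = 0 := by
    rcases unit_ef with hE | hF
    · have wn : w e = 0 := by
        by_contra hne
        have hn : 0 < w e := lt_of_le_of_ne S.n_nonneg (Ne.symm hne)
        have := (S.hw.sub_eq_left hx (y := e) (.inr (by linarith))).2
        linarith
      have hid : C.X T ^ 2 - e * f = e * (e - f) + (C.X T - e) * (C.X T + e) := by ring
      rw [hid]
      have h1 : w (e * (e - f)) = 0 := by rw [S.hw.map_mul S.he S.hef, S.wef, wn, add_zero]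
      rw [(S.hw.add_eq_left (mul_ne_zero S.he S.hef) ?_).2, h1]
      rcases eq_or_ne (C.X T + e) 0 with hz | hz
      · exact .inl (by rw [hz, mul_zero])
      · refine .inr ?_
        rw [h1, S.hw.map_mul hxe hz]
        have := S.hw.le_add hz (.inr h0.ge) (.inr S.n_nonneg)
        linarith
    · have hfe : f - e ≠ 0 := fun h => S.hef (by linear_combination -h)
      have hid : C.X T ^ 2 - e * f = f * (f - e) + (C.X T - f) * (C.X T + f) := by ring
      rw [hid]
      have h1 : w (f * (f - e)) = 0 := by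
        rw [S.hw.map_mul S.hf hfe, ← neg_sub, S.hw.map_neg, S.wef, S.wf, add_zero]
      rw [(S.hw.add_eq_left (mul_ne_zero S.hf hfe) ?_).2, h1]
      rcases eq_or_ne (C.X T + f) 0 with hz | hz
      · exact .inl (by rw [hz, mul_zero])
      · refine .inr ?_
        rw [h1, S.hw.map_mul hxf hz]
        have := S.hw.le_add hz (.inr h0.ge) (.inr S.wf.ge)
        linarith
  linarith

theorem closure_zero (hpT : p • T = 0) (hT : T ≠ 0) (hn : 0 < w e) (h0 : w (C.X T) = 0)
    {k : ℕ} (h1 : 1 ≤ k) (hk : k < p) : w (C.X (k • T)) = 0 := by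
  obtain ⟨hx, -, -⟩ := S.X_ne hpT hT
  induction k, h1 using Nat.le_induction with
  | base => rwa [one_nsmul]
  | succ k h1 ih =>
    have hk' := ih (by omega)
    rcases eq_or_lt_of_le h1 with rfl | h2
    · rw [show (1 : ℕ) + 1 = 2 from rfl, two_nsmul, (S.double_val hpT hT).2,
        S.Y_unit_of_X_unit hpT hT h0]
      have hx2 : w (C.X T ^ 2) = 0 := by rw [S.hw.map_pow hx, h0]; norm_num
      rw [(S.hw.sub_eq_left (pow_ne_zero _ hx) (.inr (by rw [hx2, S.mul_ef.2]; exact hn))).2, hx2]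
      ring
    · obtain ⟨hd, -, hval, -⟩ := S.step_val hpT hT (k := k) h2 (by omega)
      have hK := (S.X_ne (S.torsion_smul hpT k) (S.nsmul_ne hpT hT h1 (by omega))).1
      have hwp : w (C.X (k • T) * C.X T) = 0 := by rw [S.hw.map_mul hK hx, hk', h0, add_zero]
      rw [(S.hw.sub_eq_left (mul_ne_zero hK hx)
        (.inr (by rw [hwp, S.mul_ef.2]; exact hn))).2, hwp] at hval
      have := S.hw.le_sub hd (.inr hk'.ge) (.inr h0.ge)
      have := S.X_nonneg' hpT hT (k := k - 1) (by omega) (by omega)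
      have := S.X_nonneg' hpT hT (k := k + 1) (by omega) (by omega)
      linarith

theorem half_smul (hpT : p • T = 0) : ((p + 1) / 2) • (T + T) = T := by
  obtain ⟨t, ht⟩ := S.hp.odd_of_ne_two (by linarith [S.hp5])
  rw [← two_nsmul, ← mul_nsmul, show 2 * ((p + 1) / 2) = p + 1 by omega, succ_nsmul, hpT,
    zero_add]

theorem dichotomy (hpT : p • T = 0) (hT : T ≠ 0) : w (C.X T) = 0 ∨ w (C.X T) < w e := by
  by_contra hc
  rw [not_or, not_lt] at hc
  obtain ⟨h0, hge⟩ := hc
  have hpos : 0 < w (C.X T) := lt_of_le_of_ne (S.X_nonneg hpT hT) (Ne.symm h0)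
  obtain ⟨hx, hxe, hxf⟩ := S.X_ne hpT hT
  have hn := S.n_nonneg
  have hY := S.wY hpT hT
  rw [(S.hw.sub_eq_right (x := C.X T) S.hf (.inr (by rw [S.wf]; exact hpos))).2, S.wf] at hY
  have he : w e ≤ w (C.X T - e) := S.hw.le_sub hxe (.inr hge) (.inr le_rfl)
  obtain ⟨-, h2⟩ := S.double_val hpT hT
  have hsq : w (C.X T ^ 2) = 2 * w (C.X T) := by rw [S.hw.map_pow hx]; norm_num
  rw [(S.hw.sub_eq_right (x := C.X T ^ 2) S.mul_ef.1
    (.inr (by rw [S.mul_ef.2, hsq]; linarith))).2, S.mul_ef.2] at h2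
  have h2nn : 0 ≤ w (C.X (2 • T)) := S.X_nonneg' hpT hT (by norm_num) (by linarith [S.hp5])
  rw [two_nsmul] at h2nn
  have h20 : w (C.X (T + T)) = 0 := le_antisymm (by linarith) h2nn
  rcases eq_or_lt_of_le hn with hn0 | hn0
  · linarith
  · have := S.closure_zero (T := T + T) (by rw [nsmul_add, hpT, add_zero])
      (S.add_self_ne hpT hT) hn0 h20
      (k := (p + 1) / 2) (by have := S.hp5; omega) (by have := S.hp5; omega)
    rw [S.half_smul hpT] at this
    exact h0 this

theorem multiples (hpT : p • T = 0) (hT : T ≠ 0) (h0 : w (C.X T) ≠ 0) {k : ℕ} (h1 : 1 ≤ k)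
    (hk : k < p) : 0 < w (C.X (k • T)) ∧ w (C.X (k • T)) < w e := by
  have hn : 0 < w e := by
    rcases S.dichotomy hpT hT with h | h
    · exact absurd h h0
    · linarith [S.X_nonneg hpT hT]
  have hne : w (C.X (k • T)) ≠ 0 := by
    intro hz
    obtain ⟨j, hj1, hj⟩ : ∃ j : ℕ, j < p ∧ (j * k) % p = 1 := by
      have hco : Nat.Coprime k p := (S.hp.coprime_iff_not_dvd.mpr fun h => by
        have := Nat.le_of_dvd (by omega) h; omega).symm
      obtain ⟨j, hj1, hj⟩ := Nat.exists_mul_mod_eq_one_of_coprime hco S.hp.one_lt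
      exact ⟨j, hj1, by rw [mul_comm]; exact hj⟩
    have hjk : j • (k • T) = T := by
      rw [← mul_nsmul', ← Nat.div_add_mod (j * k) p, hj, add_nsmul, one_nsmul, mul_comm,
        mul_nsmul', hpT, nsmul_zero, zero_add]
    have hjpos : 1 ≤ j := by
      rcases Nat.eq_zero_or_pos j with rfl | h
      · simp at hj
      · exact h
    have := S.closure_zero (S.torsion_smul hpT k) (S.nsmul_ne hpT hT h1 hk) hn hz hjpos hj1
    rw [hjk] at this
    exact h0 this
  refine ⟨lt_of_le_of_ne (S.X_nonneg' hpT hT h1 hk) (Ne.symm hne), ?_⟩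
  exact (S.dichotomy (S.torsion_smul hpT k) (S.nsmul_ne hpT hT h1 hk)).resolve_left hne

/-- The valuation of `X` of a `p`-torsion point is an integer. -/
theorem X_int (hpT : p • T = 0) (hT : T ≠ 0) : ∃ i : ℤ, w (C.X T) = i := by
  by_cases h0 : w (C.X T) = 0
  · exact ⟨0, by simpa using h0⟩
  set n := w e with hn
  set α := w (C.X T) with hα
  obtain ⟨hx, -, -⟩ := S.X_ne hpT hT
  have hp5 := S.hp5
  have key : ∀ k, 2 ≤ k → k + 1 ≤ p → ∃ j : ℤ,
      (w (C.X (k • T)) = k * α + 2 * j * n ∧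
        w (C.X ((k - 1) • T)) = |w (C.X (k • T)) - α|) ∨
      (w (C.X (k • T)) = -(k * α + 2 * j * n) ∧
        w (C.X ((k - 1) • T)) = min (w (C.X (k • T)) + α) (2 * n - w (C.X (k • T)) - α)) := by
    intro k hk2
    induction k, hk2 using Nat.le_induction with
    | base =>
      intro _
      obtain ⟨hn', h2⟩ := S.double_val hpT hT
      obtain ⟨hlo, hhi⟩ := S.multiples hpT hT h0 (k := 1) le_rfl (by omega)
      rw [one_nsmul, ← hα] at hlo hhi
      have hY := S.wY hpT hT
      rw [(S.hw.sub_eq_left (y := e) hx (.inr hhi)).2,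
        (S.hw.sub_eq_right (x := C.X T) S.hf (.inr (by rw [S.wf]; exact hlo))).2, S.wf] at hY
      obtain ⟨hlo2, hhi2⟩ := S.multiples hpT hT h0 (k := 2) (by norm_num) (by omega)
      have hsq : w (C.X T ^ 2) = 2 * α := by rw [S.hw.map_pow hx, hα]; norm_num
      have h21 : (2 : ℕ) - 1 = 1 := rfl
      rw [h21, one_nsmul]
      rw [two_nsmul] at hlo2 hhi2 ⊢
      rcases lt_trichotomy (2 * α) n with hlt | he | hgt
      · rw [(S.hw.sub_eq_left (pow_ne_zero _ hx) (.inr (by rw [hsq, S.mul_ef.2]; exact hlt))).2,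
          hsq] at h2
        refine ⟨0, .inl ⟨by push_cast; linarith, ?_⟩⟩
        rw [abs_of_nonneg] <;> linarith
      · exfalso
        have := S.hw.le_sub (r := n) hn' (.inr (by rw [hsq, he])) (.inr S.mul_ef.2.ge)
        linarith
      · rw [(S.hw.sub_eq_right (x := C.X T ^ 2) S.mul_ef.1
          (.inr (by rw [hsq, S.mul_ef.2]; exact hgt))).2, S.mul_ef.2] at h2
        refine ⟨-1, .inr ⟨by push_cast; linarith, ?_⟩⟩
        rw [min_eq_right] <;> linarith
    | succ k hk2 ih =>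
      intro hkp
      obtain ⟨j, hj⟩ := ih (by omega)
      obtain ⟨hd, hnum, hval, -⟩ := S.step_val hpT hT hk2 (by omega)
      obtain ⟨hlo, hhi⟩ := S.multiples hpT hT h0 (k := 1) le_rfl (by omega)
      rw [one_nsmul, ← hα] at hlo hhi
      obtain ⟨ha, ha'⟩ := S.multiples hpT hT h0 (k := k) (by omega) (by omega)
      obtain ⟨hb, hb'⟩ := S.multiples hpT hT h0 (k := k - 1) (by omega) (by omega)
      obtain ⟨hc, hc'⟩ := S.multiples hpT hT h0 (k := k + 1) (by omega) (by omega)
      rw [Nat.add_sub_cancel]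
      have hK := (S.X_ne (S.torsion_smul hpT k) (S.nsmul_ne hpT hT (by omega) (by omega))).1
      have hprod : w (C.X (k • T) * C.X T) = w (C.X (k • T)) + α := S.hw.map_mul hK hx
      set a := w (C.X (k • T)) with hA
      -- valuation of the difference
      have hdiff : a ≠ α → w (C.X (k • T) - C.X T) = min a α := by
        intro hne
        rcases lt_or_gt_of_ne hne with h | h
        · rw [(S.hw.sub_eq_left hK (.inr h)).2, min_eq_left h.le]
        · rw [(S.hw.sub_eq_right hx (.inr h)).2, min_eq_right h.le]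
      have hdiff' : a = α → α ≤ w (C.X (k • T) - C.X T) := fun he =>
        S.hw.le_sub hd (.inr (by rw [← hA, he])) (.inr le_rfl)
      have hnum' : a + α ≠ n → w (C.X (k • T) * C.X T - e * f) = min (a + α) n := by
        intro hne
        rcases lt_or_gt_of_ne hne with h | h
        · rw [(S.hw.sub_eq_left (mul_ne_zero hK hx)
            (.inr (by rw [hprod, S.mul_ef.2]; exact h))).2, hprod, min_eq_left h.le]
        · rw [(S.hw.sub_eq_right (x := C.X (k • T) * C.X T) S.mul_ef.1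
            (.inr (by rw [hprod, S.mul_ef.2]; exact h))).2, S.mul_ef.2, min_eq_right h.le]
      have hnum'' : a + α = n → n ≤ w (C.X (k • T) * C.X T - e * f) := fun he =>
        S.hw.le_sub hnum (.inr (by rw [hprod, he])) (.inr S.mul_ef.2.ge)
      rcases hj with ⟨hja, hjb⟩ | ⟨hja, hjb⟩
      · have hne1 : a ≠ α := by
          intro he
          rw [he, sub_self, abs_zero] at hjb
          linarith
        have hne2 : a + α ≠ n := by
          intro he
          have := hdiff hne1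
          have := hnum'' he
          rcases lt_or_gt_of_ne hne1 with h | h
          · rw [abs_of_nonpos (by linarith)] at hjb
            rw [min_eq_left h.le] at *
            linarith
          · rw [abs_of_nonneg (by linarith)] at hjb
            rw [min_eq_right h.le] at *
            linarith
        rw [hdiff hne1, hnum' hne2, hjb] at hval
        rcases lt_or_gt_of_ne hne1 with h | h
        · rw [min_eq_left h.le, abs_of_nonpos (by linarith)] at hval
          rcases lt_or_gt_of_ne hne2 with g | g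
          · rw [min_eq_left g.le] at hval
            refine ⟨j, .inl ⟨by push_cast; linarith, ?_⟩⟩
            rw [abs_of_nonneg] <;> linarith
          · rw [min_eq_right g.le] at hval
            refine ⟨j - 1, .inr ⟨by push_cast; linarith, ?_⟩⟩
            rw [min_eq_right] <;> linarith
        · rw [min_eq_right h.le, abs_of_nonneg (by linarith)] at hval
          rcases lt_or_gt_of_ne hne2 with g | g
          · rw [min_eq_left g.le] at hval
            refine ⟨j, .inl ⟨by push_cast; linarith, ?_⟩⟩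
            rw [abs_of_nonneg] <;> linarith
          · rw [min_eq_right g.le] at hval
            refine ⟨j - 1, .inr ⟨by push_cast; linarith, ?_⟩⟩
            rw [min_eq_right] <;> linarith
      · have hne2 : a + α ≠ n := by
          intro he
          rw [min_eq_left (by linarith)] at hjb
          linarith
        have hne1 : a ≠ α := by
          intro he
          have := hdiff' he
          rw [hnum' hne2, hjb] at hval
          rcases lt_or_gt_of_ne hne2 with g | g
          · rw [min_eq_left g.le, min_eq_left (by linarith)] at hval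
            linarith
          · rw [min_eq_right g.le, min_eq_right (by linarith)] at hval
            linarith
        rw [hdiff hne1, hnum' hne2, hjb] at hval
        rcases lt_or_gt_of_ne hne2 with g | g
        · rw [min_eq_left g.le, min_eq_left (by linarith)] at hval
          rcases lt_or_gt_of_ne hne1 with h | h
          · rw [min_eq_left h.le] at hval
            refine ⟨j, .inl ⟨by push_cast; linarith, ?_⟩⟩
            rw [abs_of_nonpos] <;> linarith
          · rw [min_eq_right h.le] at hval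
            refine ⟨j, .inr ⟨by push_cast; linarith, ?_⟩⟩
            rw [min_eq_left] <;> linarith
        · rw [min_eq_right g.le, min_eq_right (by linarith)] at hval
          rcases lt_or_gt_of_ne hne1 with h | h
          · rw [min_eq_left h.le] at hval
            refine ⟨j, .inl ⟨by push_cast; linarith, ?_⟩⟩
            rw [abs_of_nonpos] <;> linarith
          · rw [min_eq_right h.le] at hval
            refine ⟨j, .inr ⟨by push_cast; linarith, ?_⟩⟩
            rw [min_eq_left] <;> linarith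
  obtain ⟨j, hj⟩ := key (p - 1) (by omega) (by omega)
  have hXe : C.X ((p - 1) • T) = C.X T := by
    rw [sub_nsmul T (by omega : 1 ≤ p), hpT, zero_add, one_nsmul, C.X_neg]
  obtain ⟨hb, -⟩ := S.multiples hpT hT h0 (k := p - 1 - 1) (by omega) (by omega)
  rw [hXe, ← hα] at hj
  rcases hj with ⟨-, hjb⟩ | ⟨hja, -⟩
  · rw [sub_self, abs_zero] at hjb
    linarith
  · refine ⟨-2 * j * m, ?_⟩
    rw [Nat.cast_sub (by omega : 1 ≤ p), hn, S.we] at hja
    have hp0 : (p : ℚ) ≠ 0 := Nat.cast_ne_zero.mpr S.hp.ne_zero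
    apply mul_left_cancel₀ hp0
    push_cast at hja ⊢
    linarith

/-- Main result: an automorphism acting trivially on the residue field fixes `p`-torsion. -/
theorem fixed (hpT : p • T = 0) (hT : T ≠ 0) (s : L →+* L)
    (hs : ∀ x ∈ A, s x - x ∈ A.nonunits) (T' : G) (hpT' : p • T' = 0) (hT' : T' ≠ 0)
    (hX : C.X T' = s (C.X T)) (hY : C.Y T' = s (C.Y T)) : T' = T := by
  obtain ⟨i, hi⟩ := S.X_int hpT hT
  have hnn := S.X_nonneg hpT hT
  obtain ⟨hx, hxe, hxf⟩ := S.X_ne hpT hT
  have hwY : w (C.Y T) = i := by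
    rcases S.dichotomy hpT hT with h0 | hlt
    · rw [S.Y_unit_of_X_unit hpT hT h0, ← hi, h0]
    · by_cases h0 : w (C.X T) = 0
      · rw [S.Y_unit_of_X_unit hpT hT h0, ← hi, h0]
      · have hpos : 0 < w (C.X T) := lt_of_le_of_ne hnn (Ne.symm h0)
        have h := S.wY hpT hT
        rw [(S.hw.sub_eq_left (y := e) hx (.inr hlt)).2,
          (S.hw.sub_eq_right (x := C.X T) S.hf (.inr (by rw [S.wf]; exact hpos))).2, S.wf] at h
        linarith
  set π : L := (q : L) ^ i with hπ
  have hπ0 : π ≠ 0 := zpow_ne_zero _ S.hw.q_ne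
  have hwπ : w π = i := by rw [hπ, S.hw.map_zpow S.hw.q_ne, S.hw.map_q, mul_one]
  have hsπ : s π = π := by rw [hπ, map_zpow₀, map_natCast]
  have congr_unit : ∀ z : L, z ≠ 0 → w z = i → s z - z = 0 ∨ (i : ℚ) < w (s z - z) := by
    intro z hz hwz
    have hu : z / π ∈ A :=
      (S.hw.mem_iff (div_ne_zero hz hπ0)).mpr (by rw [S.hw.map_div hz hπ0, hwz, hwπ, sub_self])
    rcases eq_or_ne (s z - z) 0 with h | h
    · exact .inl h
    · right
      have := S.hw.mem_nonunits_iff.mp (hs _ hu)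
      rw [map_div₀, hsπ, ← sub_div] at this
      have := this.resolve_left (div_ne_zero h hπ0)
      rw [S.hw.map_div h hπ0, hwπ] at this
      linarith
  have hy := S.Y_ne hpT hT
  have hYsum : C.Y T' + C.Y T ≠ 0 ∧ w (C.Y T' + C.Y T) = i := by
    have h2 : C.Y T' + C.Y T = 2 * C.Y T + (s (C.Y T) - C.Y T) := by rw [hY]; ring
    obtain ⟨t2, t2'⟩ := S.two_unit
    have hw2 : w (2 * C.Y T) = i := by rw [S.hw.map_mul t2 hy, t2', hwY, zero_add]
    obtain ⟨h3, h4⟩ := S.hw.add_eq_left (x := 2 * C.Y T) (y := s (C.Y T) - C.Y T)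
      (mul_ne_zero t2 hy) (by rw [hw2]; exact congr_unit _ hy hwY)
    rw [h2]
    exact ⟨h3, h4.trans hw2⟩
  by_cases hXe : C.X T' = C.X T
  · rcases C.eq_or_neg T' T hT' hT hXe with h | h
    · exact h
    · exfalso
      apply hYsum.1
      rw [h, C.Y_neg, neg_add_cancel]
  · exfalso
    have hnT : -T ≠ 0 := neg_ne_zero.mpr hT
    obtain ⟨hne, hXU⟩ := C.secant T' (-T) hT' hnT (by rwa [C.X_neg])
    rw [C.X_neg, C.Y_neg, sub_neg_eq_add] at hXU
    have hd : C.X T' - C.X T ≠ 0 := sub_ne_zero.mpr hXe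
    have hwd : (i : ℚ) < w (C.X T' - C.X T) := by
      have := (congr_unit _ hx hi).resolve_left (by rwa [← hX])
      rwa [← hX] at this
    set lam := (C.Y T' + C.Y T) / (C.X T' - C.X T) with hlam
    have hlam0 : lam ≠ 0 := div_ne_zero hYsum.1 hd
    have hwlam : w lam < 0 := by rw [hlam, S.hw.map_div hYsum.1 hd, hYsum.2]; linarith
    have hl2 : w (lam ^ 2) < 0 := by rw [S.hw.map_pow hlam0]; push_cast; linarith
    have htail : e + f - C.X T' - C.X T = 0 ∨ 0 ≤ w (e + f - C.X T' - C.X T) := by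
      have hA : e + f - C.X T' - C.X T ∈ A := by
        refine sub_mem (sub_mem (add_mem ?_ ?_) ?_) ?_
        · exact S.hw.mem_of_nonneg (.inr S.n_nonneg)
        · exact S.hw.mem_of_nonneg (.inr S.wf.ge)
        · exact S.hw.mem_of_nonneg (.inr (S.X_nonneg hpT' hT'))
        · exact S.hw.mem_of_nonneg (.inr hnn)
      exact or_iff_not_imp_left.mpr fun h => (S.hw.mem_iff h).mp hA
    have hU := S.X_nonneg (T := T' + -T) (by rw [nsmul_add, hpT', zero_add, neg_nsmul, hpT, neg_zero]) hne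
    rw [hXU, show lam ^ 2 + e + f - C.X T' - C.X T = lam ^ 2 + (e + f - C.X T' - C.X T) by ring,
      (S.hw.add_eq_left (pow_ne_zero _ hlam0)
        (htail.imp_right fun h => lt_of_lt_of_le hl2 h)).2] at hU
    linarith

end Torsion

end Setup

end FLTA.EllReduction.FreyAux
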