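import Fermat.Agent.EllReduction.FreyCore
import Fermat.Prelude.Def_FLTPrelim_Ramification
import Mathlib.AlgebraicGeometry.EllipticCurve.Affine.Point

/-!
# Coordinates `X = 4x - t`, `Y = 8y + 4x` on curves `y² + xy = x³ + a₂x² + a₄x`
-/

set_option autoImplicit false

open scoped WeierstrassCurve.Affine
open WeierstrassCurve

namespace FLTA.EllReduction.FreyAux

variable {L : Type*} [Field L] [DecidableEq L]

/-- `X`-coordinate `4x - t`. -/
noncomputable def coordX (W : Affine L) (t : L) : W.Point → L
  | .zero => 0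
  | .some x _ _ => 4 * x - t

/-- `Y`-coordinate `8y + 4x`. -/
noncomputable def coordY (W : Affine L) : W.Point → L
  | .zero => 0
  | .some x y _ => 8 * y + 4 * x

/-- The `FreyCoord` structure of `y² + xy = x³ + a₂x² + a₄x` when the roots of
`x̃³ + (4a₂+1)x̃² + 16a₄x̃` are `t, t+e, t+f`. -/
noncomputable def coordOf [CharZero L] (W : Affine L) {e f t : L} (h₁ : W.a₁ = 1) (h₃ : W.a₃ = 0)
    (h₆ : W.a₆ = 0) (h₂ : 4 * W.a₂ + 1 = -(3 * t + e + f))
    (h₄ : 16 * W.a₄ = t * (t + e) + t * (t + f) + (t + e) * (t + f))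
    (h₀ : t * (t + e) * (t + f) = 0) : FreyCoord W.Point L e f where
  X := coordX W t
  Y := coordY W
  on_curve := by
    rintro (_ | ⟨x, y, h⟩) hP
    · exact absurd rfl hP
    · simp only [coordX, coordY]
      have he := (Affine.equation_iff (W := W) x y).mp h.1
      rw [h₁, h₃, h₆] at he
      linear_combination 64 * he + 16 * x ^ 2 * h₂ + 4 * x * h₄ + h₀
  X_neg := by
    rintro (_ | ⟨x, y, h⟩)
    · rfl
    · rw [Affine.Point.neg_some]; rfl
  Y_neg := by
    rintro (_ | ⟨x, y, h⟩)
    · show (0 : L) = -0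
      rw [neg_zero]
    · rw [Affine.Point.neg_some]
      simp only [coordY, Affine.negY, h₁, h₃]
      ring
  eq_or_neg := by
    rintro (_ | ⟨x, y, h⟩) (_ | ⟨x', y', h'⟩) hP hQ he
    · exact absurd rfl hP
    · exact absurd rfl hP
    · exact absurd rfl hQ
    · simp only [coordX] at he
      refine Affine.Point.X_eq_iff.mp ?_
      linear_combination he / 4
  two_torsion := by
    rintro (_ | ⟨x, y, h⟩) hP he
    · exact absurd rfl hP
    · simp only [coordY] at he
      refine Affine.Point.add_self_of_Y_eq ?_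
      simp only [Affine.negY, h₁, h₃]
      linear_combination he / 4
  secant := by
    rintro (_ | ⟨x, y, h⟩) (_ | ⟨x', y', h'⟩) hP hQ he
    · exact absurd rfl hP
    · exact absurd rfl hP
    · exact absurd rfl hQ
    · have hx : x ≠ x' := fun e' => he (by simp only [coordX, e'])
      rw [Affine.Point.add_of_X_ne hx]
      refine ⟨Affine.Point.some_ne_zero _, ?_⟩
      simp only [coordX, coordY, Affine.addX, Affine.slope_of_X_ne hx, h₁]
      have hd : x - x' ≠ 0 := sub_ne_zero.mpr hx
      have hd' : 4 * x - t - (4 * x' - t) ≠ 0 := by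
        simpa only [coordX] using sub_ne_zero.mpr he
      have key : (8 * y + 4 * x - (8 * y' + 4 * x')) / (4 * x - t - (4 * x' - t))
          = 2 * ((y - y') / (x - x')) + 1 := by
        rw [div_eq_iff hd']
        field_simp
        ring
      rw [key]
      linear_combination -h₂
  double := by
    rintro (_ | ⟨x, y, h⟩) hP he
    · exact absurd rfl hP
    · simp only [coordY] at he
      have hy : y ≠ W.negY x y := by
        intro e'
        apply he
        simp only [Affine.negY, h₁, h₃] at e'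
        linear_combination 4 * e'
      rw [Affine.Point.add_self_of_Y_ne hy]
      refine ⟨Affine.Point.some_ne_zero _, ?_⟩
      simp only [coordX, coordY, Affine.addX, Affine.slope_of_Y_ne rfl hy, Affine.negY, h₁, h₃]
      have hcur : (8 * y + 4 * x) ^ 2 = (4 * x - t) * (4 * x - t - e) * (4 * x - t - f) := by
        have he := (Affine.equation_iff (W := W) x y).mp h.1
        rw [h₁, h₃, h₆] at he
        linear_combination 64 * he + 16 * x ^ 2 * h₂ + 4 * x * h₄ + h₀
      set X₀ := 4 * x - t with hX₀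
      have hd : y - (-y - 1 * x - 0) ≠ 0 := fun e' => he (by linear_combination 4 * e')
      set ℓ := (3 * x ^ 2 + 2 * W.a₂ * x + W.a₄ - 1 * y) / (y - (-y - 1 * x - 0)) with hℓ
      have key : (2 * ℓ + 1) * (2 * (8 * y + 4 * x)) =
          3 * X₀ ^ 2 - 2 * (e + f) * X₀ + e * f := by
        have hd' : ℓ * (2 * y + x) = 3 * x ^ 2 + 2 * W.a₂ * x + W.a₄ - y := by
          rw [hℓ, show 2 * y + x = y - (-y - 1 * x - 0) by ring, div_mul_cancel₀ _ hd]
          ring
        rw [hX₀]
        linear_combination 16 * hd' + 8 * x * h₂ + h₄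
      calc (4 * (ℓ ^ 2 + 1 * ℓ - W.a₂ - x - x) - t) * (4 * (8 * y + 4 * x) ^ 2)
          = ((2 * ℓ + 1) * (2 * (8 * y + 4 * x))) ^ 2 +
            (e + f - 2 * X₀) * 4 * (8 * y + 4 * x) ^ 2 := by
            rw [hX₀]; linear_combination -4 * (8 * y + 4 * x) ^ 2 * h₂
        _ = (X₀ ^ 2 - e * f) ^ 2 := by rw [key, hcur]; ring

end FLTA.EllReduction.FreyAux
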