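import Fermat.Agent.EllReduction.FreyModel

/-!
# The mod `p` representation of the Frey curve is unramified at odd `q ≠ p`
-/

set_option autoImplicit false

open scoped WeierstrassCurve.Affine
open scoped Pointwise
open WeierstrassCurve

namespace FLTA.EllReduction.FreyAux

/-- Elements of the inertia subgroup move elements of `A` by elements of the maximal ideal. -/
theorem inertia_sub_mem {K L : Type*} [Field K] [Field L] [Algebra K L] (A : ValuationSubring L)
    {σ : L ≃ₐ[K] L} (hσ : σ ∈ A.inertiaSubgroupIn K) {x : L} (hx : x ∈ A) :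
    σ x - x ∈ A.nonunits := by
  obtain ⟨g, hg, rfl⟩ := Subgroup.mem_map.mp hσ
  have h1 : MulSemiringAction.toRingAut (A.decompositionSubgroup K)
      (IsLocalRing.ResidueField A) g = 1 := hg
  have h2 : g • IsLocalRing.residue A ⟨x, hx⟩ = IsLocalRing.residue A ⟨x, hx⟩ :=
    RingEquiv.congr_fun h1 (IsLocalRing.residue A ⟨x, hx⟩)
  rw [← IsLocalRing.ResidueField.residue_smul] at h2
  have h3 := A.coe_mem_nonunits_iff.mpr (Ideal.Quotient.eq.mp h2)
  exact h3

/-- Choice of the pair of roots that collide modulo `q`. -/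
theorem exists_roots (P : FreyPackage) {q : ℕ} (hq : q.Prime) : ∃ t e f : ℤ,
    P.b ^ P.p - P.a ^ P.p = -(3 * t + e + f) ∧
    -(P.a ^ P.p * P.b ^ P.p) = t * (t + e) + t * (t + f) + (t + e) * (t + f) ∧
    t * (t + e) * (t + f) = 0 ∧
    e ≠ 0 ∧ ¬ (q : ℤ) ∣ f ∧ ¬ (q : ℤ) ∣ e - f ∧ P.p ∣ padicValInt q e := by
  have : Fact q.Prime := ⟨hq⟩
  have hqi := Nat.prime_iff_prime_int.mp hq
  have nd : ∀ {x y : ℤ}, gcd x y = 1 → (q : ℤ) ∣ x → ¬ (q : ℤ) ∣ y := by
    intro x y h hx hy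
    have h' := dvd_gcd hx hy
    rw [h] at h'
    exact hqi.not_isUnit (isUnit_of_dvd_one h')
  have hval : ∀ x : ℤ, x ≠ 0 → P.p ∣ padicValInt q (x ^ P.p) ∧ P.p ∣ padicValInt q (-x ^ P.p) := by
    intro x hx
    have : padicValInt q (x ^ P.p) = P.p * padicValInt q x := by
      simp only [padicValInt, Int.natAbs_pow]
      exact padicValNat.pow _ _
    exact ⟨this ▸ dvd_mul_right _ _,
      by rw [padicValInt, Int.natAbs_neg, ← padicValInt, this]; exact dvd_mul_right _ _⟩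
  have hp0 := P.hp0
  have pw : ∀ {x : ℤ}, (q : ℤ) ∣ x ^ P.p → (q : ℤ) ∣ x := fun h => hqi.dvd_of_dvd_pow h
  have hFLT := P.hFLT
  by_cases hc : (q : ℤ) ∣ P.c
  · refine ⟨P.a ^ P.p, -P.c ^ P.p, -P.a ^ P.p, by linear_combination hFLT,
      by linear_combination -(P.a ^ P.p) * hFLT, by ring, neg_ne_zero.mpr (pow_ne_zero _ P.hc0),
      ?_, ?_, (hval _ P.hc0).2⟩
    · rw [dvd_neg]
      exact fun h => nd P.hgcdac (pw h) hc
    · rw [show -P.c ^ P.p - -P.a ^ P.p = -P.b ^ P.p by linear_combination hFLT, dvd_neg]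
      exact fun h => nd P.hgcdbc (pw h) hc
  by_cases hb : (q : ℤ) ∣ P.b
  · refine ⟨0, -P.b ^ P.p, P.a ^ P.p, by ring, by ring, by ring,
      neg_ne_zero.mpr (pow_ne_zero _ P.hb0), ?_, ?_, (hval _ P.hb0).2⟩
    · exact fun h => nd P.hgcdab (pw h) hb
    · rw [show -P.b ^ P.p - P.a ^ P.p = -P.c ^ P.p by linear_combination -hFLT, dvd_neg]
      exact fun h => hc (pw h)
  · refine ⟨0, P.a ^ P.p, -P.b ^ P.p, by ring, by ring, by ring, pow_ne_zero _ P.ha0, ?_, ?_,
      (hval _ P.ha0).1⟩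
    · rw [dvd_neg]
      exact fun h => hb (pw h)
    · rw [show P.a ^ P.p - -P.b ^ P.p = P.c ^ P.p by linear_combination hFLT]
      exact fun h => hc (pw h)

/-- For odd `q ≠ p`, the `p`-torsion of the Frey curve is unramified at `q`. -/
theorem frey_galoisRepUnramifiedAt (P : FreyPackage) {q : ℕ} (hq : q.Prime) (hq2 : q ≠ 2)
    (hqp : q ≠ P.p) : P.GaloisRepUnramifiedAt q := by
  intro A hA σ hσ T
  obtain ⟨T, hT⟩ := T
  apply Subtype.ext
  show σ • T = T
  rw [Submodule.mem_torsionBy_iff, natCast_zsmul] at hT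
  rcases eq_or_ne T 0 with rfl | hT0
  · exact smul_zero σ
  haveI : Algebra.IsAlgebraic ℚ (AlgebraicClosure ℚ) := by
    convert! AlgebraicClosure.isAlgebraic ℚ
  obtain ⟨w, hw⟩ := exists_isRatVal A hq hA
  obtain ⟨t, e, f, h2, h4, h0, he, hf, hef, hdvd⟩ := exists_roots P hq
  obtain ⟨m, hm⟩ := hdvd
  have ha2 : 4 * (P.freyCurve⁄(AlgebraicClosure ℚ)).a₂ + 1 = -(3 * (t : (AlgebraicClosure ℚ)) + e + f) := by
    show 4 * algebraMap ℚ (AlgebraicClosure ℚ) (((P.b : ℚ) ^ P.p - 1 - (P.a : ℚ) ^ P.p) / 4) + 1 = _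
    rw [map_div₀, map_ofNat, mul_div_cancel₀ _ (by norm_num)]
    simp only [map_sub, map_pow, map_intCast, map_one]
    have := congrArg (Int.cast : ℤ → (AlgebraicClosure ℚ)) h2
    push_cast at this
    linear_combination this
  have ha4 : 16 * (P.freyCurve⁄(AlgebraicClosure ℚ)).a₄ =
      (t : (AlgebraicClosure ℚ)) * (t + e) + t * (t + f) + (t + e) * (t + f) := by
    show 16 * algebraMap ℚ (AlgebraicClosure ℚ) (-((P.a : ℚ) ^ P.p) * (P.b : ℚ) ^ P.p / 16) = _
    rw [map_div₀, map_ofNat, mul_div_cancel₀ _ (by norm_num)]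
    simp only [map_mul, map_neg, map_pow, map_intCast]
    have := congrArg (Int.cast : ℤ → (AlgebraicClosure ℚ)) h4
    push_cast at this
    linear_combination this
  have h0' : (t : (AlgebraicClosure ℚ)) * (t + e) * (t + f) = 0 := by exact_mod_cast congrArg (Int.cast : ℤ → (AlgebraicClosure ℚ)) h0
  let C := coordOf (P.freyCurve⁄(AlgebraicClosure ℚ)).toAffine (e := (e : (AlgebraicClosure ℚ))) (f := (f : (AlgebraicClosure ℚ))) (t := (t : (AlgebraicClosure ℚ)))
    (map_one _) (map_zero _) (map_zero _) ha2 ha4 h0'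
  obtain ⟨hfL, wf⟩ := hw.map_intCast_of_not_dvd hq hf
  obtain ⟨hefL, wef⟩ := hw.map_intCast_of_not_dvd hq hef
  have S : Setup C A q P.p m w :=
    { hw := hw, hq := hq, hq2 := hq2, hp := P.pp, hp5 := P.hp5, hqp := hqp
      he := Int.cast_ne_zero.mpr he
      we := by rw [hw.map_intCast hq he, hm]; push_cast; ring
      hf := hfL, wf := wf
      hef := by simpa using hefL
      wef := by simpa using wef }
  have hsT : σ • T ≠ 0 := fun h => hT0 (by
    have := congrArg (σ⁻¹ • ·) h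
    simpa using this)
  have hpsT : P.p • (σ • T) = 0 := by
    rw [← natCast_zsmul, ← WeierstrassCurve.Affine.Point.algEquiv_smul_zsmul, natCast_zsmul, hT,
      smul_zero]
  refine S.fixed hT hT0 (σ : (AlgebraicClosure ℚ) →+* (AlgebraicClosure ℚ)) (fun x hx => inertia_sub_mem A hσ hx) _ hpsT hsT ?_ ?_
  · rcases T with _ | ⟨x, y, h⟩
    · exact absurd rfl hT0
    · show 4 * σ x - (t : (AlgebraicClosure ℚ)) = σ (4 * x - (t : (AlgebraicClosure ℚ)))
      rw [map_sub, map_mul, map_intCast, map_ofNat]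
  · rcases T with _ | ⟨x, y, h⟩
    · exact absurd rfl hT0
    · show 8 * σ y + 4 * σ x = σ (8 * y + 4 * x)
      rw [map_add, map_mul, map_mul, map_ofNat, map_ofNat]

end FLTA.EllReduction.FreyAux
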