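import Mathlib.RingTheory.Valuation.ValuationSubring
import Mathlib.RingTheory.Algebraic.Integral
import Mathlib.FieldTheory.IsAlgClosed.AlgebraicClosure
import Mathlib.RingTheory.Int.Basic
import Mathlib.Tactic

/-!
# A rational valued valuation attached to a place of an algebraic extension of `ℚ`
-/

set_option autoImplicit false

namespace FLTA.EllReduction.FreyAux

variable {L : Type*} [Field L]

/-- `w` is the normalised additive valuation of the valuation ring `A` lying over `q`,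
only meaningful at nonzero arguments. -/
structure IsRatVal (A : ValuationSubring L) (q : ℕ) (w : L → ℚ) : Prop where
  map_mul : ∀ {x y : L}, x ≠ 0 → y ≠ 0 → w (x * y) = w x + w y
  mem_iff : ∀ {x : L}, x ≠ 0 → (x ∈ A ↔ 0 ≤ w x)
  map_q : w (q : L) = 1
  q_ne : (q : L) ≠ 0

variable (A : ValuationSubring L)

theorem intCast_mem_place (n : ℤ) : (n : L) ∈ A := intCast_mem A n

theorem not_mem_nonunits_of_coprime {q : ℕ} (hA : (q : L) ∈ A.nonunits) {m : ℤ}
    (hm : IsCoprime (q : ℤ) m) : A.valuation (m : L) = 1 := by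
  rcases (A.valuation_le_one_iff _).mpr (intCast_mem A m) |>.lt_or_eq with h | h
  · exfalso
    obtain ⟨a, b, hab⟩ := hm
    have hm' : (m : L) ∈ A.nonunits := h
    have h1 : A.valuation ((a : L) * q + (b : L) * m) < 1 := by
      apply Valuation.map_add_lt _
      · rw [map_mul]
        exact mul_lt_one_of_nonneg_of_lt_one_right ((A.valuation_le_one_iff _).mpr (intCast_mem A a))
          zero_le hA
      · rw [map_mul]
        exact mul_lt_one_of_nonneg_of_lt_one_right ((A.valuation_le_one_iff _).mpr (intCast_mem A b))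
          zero_le hm'
    have : ((a : L) * q + (b : L) * m) = 1 := by exact_mod_cast congrArg (Int.cast : ℤ → L) hab
    rw [this, map_one] at h1
    exact lt_irrefl _ h1
  · exact h

theorem valuation_intCast {q : ℕ} (hq : q.Prime) (hA : (q : L) ∈ A.nonunits) {n : ℤ}
    (hn : n ≠ 0) : A.valuation (n : L) = A.valuation (q : L) ^ padicValInt q n := by
  have : Fact q.Prime := ⟨hq⟩
  obtain ⟨m, hm⟩ : (q : ℤ) ^ padicValInt q n ∣ n := padicValInt_dvd n
  have hqm : ¬ (q : ℤ) ∣ m := by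
    intro h
    have h' : (q : ℤ) ^ (padicValInt q n + 1) ∣ n := by
      rw [pow_succ]
      conv_rhs => rw [hm]
      exact mul_dvd_mul_left _ h
    rw [padicValInt_dvd_iff] at h'
    rcases h' with h' | h'
    · exact hn h'
    · omega
  have hcop : IsCoprime (q : ℤ) m :=
    (Nat.prime_iff_prime_int.mp hq).coprime_iff_not_dvd.mpr hqm
  conv_lhs => rw [hm]
  push_cast
  rw [map_mul, map_pow, not_mem_nonunits_of_coprime A hA hcop, mul_one]

theorem exists_zpow_eq [CharZero L] [Algebra.IsAlgebraic ℚ L] {q : ℕ} (hq : q.Prime)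
    (hA : (q : L) ∈ A.nonunits) {x : L} (hx : x ≠ 0) :
    ∃ (d : ℕ) (i : ℤ), 0 < d ∧ A.valuation x ^ d = A.valuation (q : L) ^ i := by
  classical
  have halg : IsAlgebraic ℤ x :=
    (IsFractionRing.isAlgebraic_iff ℤ ℚ L).mpr (Algebra.IsAlgebraic.isAlgebraic x)
  obtain ⟨P, hP0, hPx⟩ := halg
  set v := A.valuation with hv
  set g : ℕ → L := fun i => (P.coeff i : L) * x ^ i with hg
  have hsum : ∑ i ∈ P.support, g i = 0 := by
    rw [Polynomial.aeval_eq_sum_range] at hPx
    rw [← hPx]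
    rw [Finset.sum_subset (s₂ := Finset.range (P.natDegree + 1))]
    · exact Finset.sum_congr rfl fun i _ => by simp [hg]
    · exact fun i hi => Finset.mem_range.mpr
        (Nat.lt_succ_of_le (Polynomial.le_natDegree_of_mem_supp i hi))
    · intro i _ hi
      rw [Polynomial.notMem_support_iff] at hi
      simp [hg, hi]
  have hne : P.support.Nonempty := Polynomial.support_nonempty.mpr hP0
  obtain ⟨i, hi, hmax⟩ := P.support.exists_max_image (fun i => v (g i)) hne
  have hgne : ∀ j ∈ P.support, g j ≠ 0 := fun j hj =>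
    mul_ne_zero (by exact_mod_cast Polynomial.mem_support_iff.mp hj) (pow_ne_zero _ hx)
  obtain ⟨j, hj, hji, hjv⟩ : ∃ j ∈ P.support, j ≠ i ∧ v (g j) = v (g i) := by
    by_contra hcon
    push Not at hcon
    have hlt : ∀ j ∈ P.support \ {i}, v (g j) < v (g i) := by
      intro j hj
      simp only [Finset.mem_sdiff, Finset.mem_singleton] at hj
      exact lt_of_le_of_ne (hmax j hj.1) (hcon j hj.1 hj.2)
    have := v.map_sum_eq_of_lt hi hlt
    rw [hsum, map_zero] at this
    exact (v.ne_zero_iff.mpr (hgne i hi)) this.symm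
  have hqL : (q : L) ≠ 0 := Nat.cast_ne_zero.mpr hq.ne_zero
  have hγ : v (q : L) ≠ 0 := v.ne_zero_iff.mpr hqL
  have hvx : v x ≠ 0 := v.ne_zero_iff.mpr hx
  have key : ∀ k ∈ P.support,
      v (g k) = v (q : L) ^ (padicValInt q (P.coeff k) : ℤ) * v x ^ (k : ℤ) := by
    intro k hk
    simp only [hg, map_mul, map_pow, zpow_natCast]
    rw [valuation_intCast A hq hA (Polynomial.mem_support_iff.mp hk)]
  rw [key j hj, key i hi] at hjv
  have main : ∀ {a b : ℕ} {r s : ℤ}, a < b →
      v (q : L) ^ r * v x ^ (a : ℤ) = v (q : L) ^ s * v x ^ (b : ℤ) →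
      ∃ (d : ℕ) (i : ℤ), 0 < d ∧ v x ^ d = v (q : L) ^ i := by
    intro a b r s hab he
    refine ⟨b - a, r - s, by omega, ?_⟩
    rw [← zpow_natCast, Nat.cast_sub hab.le, zpow_sub₀ hvx, zpow_sub₀ hγ,
      div_eq_div_iff (zpow_ne_zero _ hvx) (zpow_ne_zero _ hγ), mul_comm (v x ^ (b : ℤ))]
    exact he.symm
  rcases lt_or_gt_of_ne hji with h | h
  · exact main h hjv
  · exact main h hjv.symm

theorem exists_isRatVal [CharZero L] [Algebra.IsAlgebraic ℚ L] {q : ℕ} (hq : q.Prime)
    (hA : (q : L) ∈ A.nonunits) : ∃ w : L → ℚ, IsRatVal A q w := by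
  classical
  set γ := A.valuation (q : L) with hγdef
  have hqL : (q : L) ≠ 0 := Nat.cast_ne_zero.mpr hq.ne_zero
  have hγ0 : 0 < γ := zero_lt_iff.mpr (A.valuation.ne_zero_iff.mpr hqL)
  have hγ1 : γ < 1 := hA
  choose d i hd hdi using fun (x : L) (hx : x ≠ 0) => exists_zpow_eq A hq hA hx
  let w : L → ℚ := fun x => if hx : x = 0 then 0 else (i x hx : ℚ) / d x hx
  have inj : ∀ {a b : ℤ}, γ ^ a = γ ^ b → a = b := fun h =>
    (zpow_right_strictAnti₀ hγ0 hγ1).injective h
  have spec : ∀ {x : L} (d' : ℕ) (i' : ℤ), x ≠ 0 → 0 < d' → A.valuation x ^ d' = γ ^ i' →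
      w x = (i' : ℚ) / d' := by
    intro x d' i' hx hd' h
    have e1 : γ ^ (i x hx * d') = γ ^ (i' * (d x hx : ℕ)) := by
      rw [zpow_mul, zpow_mul, ← hdi x hx, ← h, zpow_natCast, zpow_natCast, ← pow_mul, ← pow_mul,
        mul_comm]
    have e2 : (i x hx : ℚ) * d' = (i' : ℚ) * d x hx := by exact_mod_cast inj e1
    have : (0 : ℚ) < d x hx := by exact_mod_cast hd x hx
    have : (0 : ℚ) < d' := by exact_mod_cast hd'
    simp only [w, dif_neg hx]
    rw [div_eq_div_iff (by positivity) (by positivity)]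
    linarith
  refine ⟨w, fun {x y} hx hy => ?_, fun {x} hx => ?_, ?_, hqL⟩
  · rw [spec (d x hx * d y hy) (i x hx * d y hy + i y hy * d x hx) (mul_ne_zero hx hy)
      (Nat.mul_pos (hd x hx) (hd y hy))]
    · have : (0 : ℚ) < d x hx := by exact_mod_cast hd x hx
      have : (0 : ℚ) < d y hy := by exact_mod_cast hd y hy
      simp only [w, dif_neg hx, dif_neg hy]
      push_cast
      field_simp
    · rw [map_mul, mul_pow, zpow_add₀ hγ0.ne', zpow_mul, zpow_mul, ← hdi x hx, ← hdi y hy,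
        zpow_natCast, zpow_natCast, pow_mul, mul_comm (d x hx) (d y hy), pow_mul]
  · have hdx : (0 : ℚ) < d x hx := by exact_mod_cast hd x hx
    simp only [w, dif_neg hx]
    rw [← A.valuation_le_one_iff, ← pow_le_one_iff_of_nonneg zero_le (hd x hx).ne', hdi x hx,
      ← zpow_zero γ, (zpow_right_strictAnti₀ hγ0 hγ1).le_iff_ge, le_div_iff₀ hdx, zero_mul]
    exact_mod_cast Iff.rfl
  · rw [spec 1 1 hqL one_pos (by simp [hγdef])]
    simp

namespace IsRatVal

variable {A} {q : ℕ} {w : L → ℚ} (h : IsRatVal A q w)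
include h

theorem map_one : w 1 = 0 := by
  have := h.map_mul (one_ne_zero (α := L)) one_ne_zero
  rw [one_mul] at this
  linarith

theorem map_inv {x : L} (hx : x ≠ 0) : w x⁻¹ = -w x := by
  have := h.map_mul hx (inv_ne_zero hx)
  rw [mul_inv_cancel₀ hx, h.map_one] at this
  linarith

theorem map_div {x y : L} (hx : x ≠ 0) (hy : y ≠ 0) : w (x / y) = w x - w y := by
  rw [div_eq_mul_inv, h.map_mul hx (inv_ne_zero hy), h.map_inv hy]
  ring

theorem map_pow {x : L} (hx : x ≠ 0) (n : ℕ) : w (x ^ n) = n * w x := by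
  induction n with
  | zero => simp [h.map_one]
  | succ n ih => rw [pow_succ, h.map_mul (pow_ne_zero _ hx) hx, ih]; push_cast; ring

theorem map_zpow {x : L} (hx : x ≠ 0) (n : ℤ) : w (x ^ n) = n * w x := by
  cases n with
  | ofNat n => simpa using h.map_pow hx n
  | negSucc n =>
    rw [zpow_negSucc, h.map_inv (pow_ne_zero _ hx), h.map_pow hx]
    push_cast
    ring

theorem mem_of_nonneg {x : L} (hx : x = 0 ∨ 0 ≤ w x) : x ∈ A := by
  rcases eq_or_ne x 0 with rfl | h0
  · exact zero_mem A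
  · exact (h.mem_iff h0).mpr (hx.resolve_left h0)

theorem map_neg (x : L) : w (-x) = w x := by
  rcases eq_or_ne x 0 with rfl | hx
  · rw [neg_zero]
  have h2 : w (-1) = 0 := by
    have := h.map_mul (neg_ne_zero.mpr (one_ne_zero (α := L))) (neg_ne_zero.mpr one_ne_zero)
    rw [neg_mul_neg, one_mul, h.map_one] at this
    linarith
  rw [← neg_one_mul, h.map_mul (neg_ne_zero.mpr one_ne_zero) hx, h2, zero_add]

/-- Ultrametric inequality. -/
theorem le_add {x y : L} (hxy : x + y ≠ 0) {r : ℚ} (hx : x = 0 ∨ r ≤ w x)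
    (hy : y = 0 ∨ r ≤ w y) : r ≤ w (x + y) := by
  rcases eq_or_ne x 0 with rfl | hx0
  · rw [zero_add] at hxy ⊢
    exact hy.resolve_left hxy
  rcases eq_or_ne y 0 with rfl | hy0
  · rw [add_zero]
    exact hx.resolve_left hx0
  wlog hle : w y ≤ w x generalizing x y
  · rw [add_comm]
    exact this (by rwa [add_comm]) hy hx hy0 hx0 (le_of_not_ge hle)
  have hm : x / y + 1 ∈ A := by
    refine add_mem ((h.mem_iff (div_ne_zero hx0 hy0)).mpr ?_) (one_mem A)
    rw [h.map_div hx0 hy0]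
    linarith
  rw [div_add_one hy0] at hm
  have := (h.mem_iff (div_ne_zero hxy hy0)).mp hm
  rw [h.map_div hxy hy0] at this
  have := hy.resolve_left hy0
  linarith

theorem le_sub {x y : L} (hxy : x - y ≠ 0) {r : ℚ} (hx : x = 0 ∨ r ≤ w x)
    (hy : y = 0 ∨ r ≤ w y) : r ≤ w (x - y) := by
  rw [sub_eq_add_neg] at hxy ⊢
  exact h.le_add hxy hx (by simpa [h.map_neg] using hy)

theorem add_eq_left {x y : L} (hx : x ≠ 0) (hy : y = 0 ∨ w x < w y) :
    x + y ≠ 0 ∧ w (x + y) = w x := by
  rcases eq_or_ne y 0 with rfl | hy0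
  · simpa using hx
  have hlt := hy.resolve_left hy0
  have hne : x + y ≠ 0 := by
    intro e
    rw [eq_neg_of_add_eq_zero_left e, h.map_neg] at hlt
    exact lt_irrefl _ hlt
  refine ⟨hne, le_antisymm ?_ (h.le_add hne (.inr le_rfl) (.inr hlt.le))⟩
  by_contra hcon
  rw [not_le] at hcon
  have := h.le_sub (x := x + y) (y := y) (by simpa using hx) (r := min (w (x + y)) (w y))
    (.inr (min_le_left _ _)) (.inr (min_le_right _ _))
  rw [add_sub_cancel_right] at this
  exact absurd this (not_le.mpr (lt_min hcon hlt))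

theorem sub_eq_left {x y : L} (hx : x ≠ 0) (hy : y = 0 ∨ w x < w y) :
    x - y ≠ 0 ∧ w (x - y) = w x := by
  rw [sub_eq_add_neg]
  exact h.add_eq_left hx (by simpa [h.map_neg] using hy)

theorem sub_eq_right {x y : L} (hy : y ≠ 0) (hx : x = 0 ∨ w y < w x) :
    x - y ≠ 0 ∧ w (x - y) = w y := by
  obtain ⟨h1, h2⟩ := h.sub_eq_left hy hx
  refine ⟨fun e => h1 (by rw [← neg_sub, e, neg_zero]), ?_⟩
  rw [← neg_sub, h.map_neg, h2]

theorem mem_nonunits_iff {x : L} : x ∈ A.nonunits ↔ x = 0 ∨ 0 < w x := by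
  rw [A.mem_nonunits_iff_or]
  rcases eq_or_ne x 0 with hx | hx
  · simp [hx]
  simp only [hx, false_or]
  rw [h.mem_iff (inv_ne_zero hx), h.map_inv hx, neg_nonneg, not_le]

theorem intCast_nonneg (n : ℤ) : (n : L) = 0 ∨ 0 ≤ w (n : L) :=
  or_iff_not_imp_left.mpr fun hn => (h.mem_iff hn).mp (intCast_mem A n)

theorem map_intCast_of_not_dvd (hq : q.Prime) {n : ℤ} (hn : ¬ (q : ℤ) ∣ n) :
    (n : L) ≠ 0 ∧ w (n : L) = 0 := by
  have hA : (q : L) ∈ A.nonunits := h.mem_nonunits_iff.mpr (.inr (by rw [h.map_q]; exact one_pos))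
  have h1 := not_mem_nonunits_of_coprime A hA
    ((Nat.prime_iff_prime_int.mp hq).coprime_iff_not_dvd.mpr hn)
  have hne : (n : L) ≠ 0 := by
    intro e
    rw [e, _root_.map_zero] at h1
    exact zero_ne_one h1
  refine ⟨hne, le_antisymm ?_ ((h.intCast_nonneg n).resolve_left hne)⟩
  by_contra hcon
  rw [not_le] at hcon
  have : A.valuation (n : L) < 1 := h.mem_nonunits_iff.mpr (.inr hcon)
  exact this.ne h1

theorem map_intCast [CharZero L] (hq : q.Prime) {n : ℤ} (hn : n ≠ 0) :
    w (n : L) = padicValInt q n := by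
  have : Fact q.Prime := ⟨hq⟩
  obtain ⟨m, hm⟩ : (q : ℤ) ^ padicValInt q n ∣ n := padicValInt_dvd n
  have hqm : ¬ (q : ℤ) ∣ m := by
    intro hd
    have h' : (q : ℤ) ^ (padicValInt q n + 1) ∣ n := by
      rw [pow_succ]
      conv_rhs => rw [hm]
      exact mul_dvd_mul_left _ hd
    rw [padicValInt_dvd_iff] at h'
    rcases h' with h' | h'
    · exact hn h'
    · omega
  obtain ⟨hm0, hwm⟩ := h.map_intCast_of_not_dvd hq hqm
  have hcast : (n : L) = (q : L) ^ padicValInt q n * (m : L) := by exact_mod_cast congrArg (Int.cast : ℤ → L) hm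
  rw [hcast, h.map_mul (pow_ne_zero _ h.q_ne) hm0, h.map_pow h.q_ne, h.map_q, hwm]
  ring

end IsRatVal

end FLTA.EllReduction.FreyAux
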