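import Fermat.Agent.EllReduction.Hom
import Fermat.Prelude.Def_FLTPrelim_Ramification

/-!
# Automorphisms acting trivially on the residue field fix reductions
-/

set_option autoImplicit false

open scoped Classical

namespace FLTA.EllReduction

open WeierstrassCurve WeierstrassCurve.Affine

open scoped WeierstrassCurve.Affine

section Mod

variable {L : Type*} [Field L] {A : ValuationSubring L} {F : Type*} [CommSemiring F] [Algebra F L]
  {σ : L ≃ₐ[F] L}

lemma ActsTriviallyMod.notMem (hσ : ActsTriviallyMod A σ) {x : L} (hx : x ∉ A) : σ x ∉ A := by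
  intro h
  have hinv : A.valuation x⁻¹ < 1 := by
    rw [map_inv₀]; exact inv_lt_one_of_one_lt₀ (one_lt_valuation_of_notMem hx)
  have hmem := mem_of_valuation_lt_one hinv
  have hlt : A.valuation (σ x⁻¹) < 1 := by
    have := valuation_add_lt_one (hσ _ hmem).2 hinv
    rwa [sub_add_cancel] at this
  rw [map_inv₀, map_inv₀] at hlt
  have hne : σ x ≠ 0 := by
    intro h0
    exact hx ((map_eq_zero_iff _ σ.injective).mp h0 ▸ zero_mem A)
  have hpos : (0 : A.ValueGroup) < A.valuation (σ x) := A.valuation.pos_iff.mpr hne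
  have := (inv_le_inv₀ zero_lt_one hpos).mpr (valuation_le_one_of_mem h)
  rw [inv_one] at this
  exact absurd hlt (not_lt.mpr this)

lemma ActsTriviallyMod.mem_iff (hσ : ActsTriviallyMod A σ) {x : L} : σ x ∈ A ↔ x ∈ A :=
  ⟨fun h => by_contra fun hx => hσ.notMem hx h, fun h => (hσ x h).1⟩

lemma ActsTriviallyMod.valuation_le_iff (hσ : ActsTriviallyMod A σ) {x y : L} :
    A.valuation (σ x) ≤ A.valuation (σ y) ↔ A.valuation x ≤ A.valuation y := by
  rcases eq_or_ne y 0 with rfl | hy
  · simp [map_eq_zero_iff _ σ.injective]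
  · have hy' : σ y ≠ 0 := fun h => hy ((map_eq_zero_iff _ σ.injective).mp h)
    have h1 : ∀ a b : L, b ≠ 0 → (A.valuation a ≤ A.valuation b ↔ a / b ∈ A) := fun a b hb => by
      rw [← A.valuation_le_one_iff, map_div₀, div_le_one₀ (A.valuation.pos_iff.mpr hb)]
    rw [h1 _ _ hy', h1 _ _ hy, ← map_div₀, hσ.mem_iff]

lemma ActsTriviallyMod.res_eq (hσ : ActsTriviallyMod A σ) {x : L} (hx : x ∈ A) :
    res (hσ x hx).1 = res hx :=
  (res_eq_res_iff _ _).mpr (hσ x hx).2

/-- An element of the inertia subgroup acts trivially on the residue field. -/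
lemma actsTriviallyMod_of_mem_inertiaSubgroupIn {K : Type*} [Field K] [Algebra K L]
    {σ : L ≃ₐ[K] L} (hσ : σ ∈ A.inertiaSubgroupIn K) : ActsTriviallyMod A σ := by
  obtain ⟨g, hg, rfl⟩ := Subgroup.mem_map.mp hσ
  intro a ha
  have hmem : ((g • (⟨a, ha⟩ : A) : A) : L) ∈ A := SetLike.coe_mem _
  refine ⟨hmem, ?_⟩
  have h1 : MulSemiringAction.toRingAut (A.decompositionSubgroup K)
      (IsLocalRing.ResidueField A) g = 1 := hg
  have h2 : IsLocalRing.residue A (g • (⟨a, ha⟩ : A)) = IsLocalRing.residue A ⟨a, ha⟩ := by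
    rw [IsLocalRing.ResidueField.residue_smul]
    exact congrArg (fun e : RingAut (IsLocalRing.ResidueField A) =>
      e (IsLocalRing.residue A ⟨a, ha⟩)) h1
  exact residue_eq_residue_iff.mp h2

end Mod

variable {L : Type*} [Field L] [DecidableEq L] {A : ValuationSubring L}
  {R : Type*} {S : Type*} [CommRing R] [CommRing S] {W' : WeierstrassCurve.Affine R}
  [Algebra R S] [Algebra R L] [Algebra S L] [IsScalarTower R S L]
  (hW : IntegralAt A (W'⁄L)) {σ : L ≃ₐ[S] L}

include hW

lemma ActsTriviallyMod.redPoint_map (hσ : ActsTriviallyMod A σ) {P : (W'⁄L).Point}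
    (hP : InE0 A _ P) :
    InE0 A _ (Point.map (σ : L →ₐ[S] L) P) ∧
      redPoint hW (Point.map (σ : L →ₐ[S] L) P) = redPoint hW P := by
  cases P with
  | zero => exact ⟨trivial, rfl⟩
  | some x y h =>
    rw [Point.map_some]
    by_cases hx : x ∈ A
    · have hy := y_mem_of_x_mem hW h.1 hx
      have n := (inE0_some_iff hW h hx hy).mp hP
      have hx' : (σ : L →ₐ[S] L) x ∈ A := (hσ x hx).1
      have hy' : (σ : L →ₐ[S] L) y ∈ A := (hσ y hy).1
      have ex : res hx' = res hx := hσ.res_eq hx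
      have ey : res hy' = res hy := hσ.res_eq hy
      have n' : (reducedCurve hW).toAffine.Nonsingular (res hx') (res hy') := by
        rw [ex, ey]; exact n
      refine ⟨(inE0_some_iff hW _ hx' hy').mpr n', ?_⟩
      rw [redPoint_some hW hx' hy' n', redPoint_some hW hx hy n]
      simp only [Point.some.injEq]
      exact ⟨ex, ey⟩
    · have hx' : InE1 A _ (Point.map (σ : L →ₐ[S] L) (.some x y h)) := hσ.notMem hx
      exact ⟨hx'.inE0, (redPoint_of_inE1 hW hx').trans (redPoint_of_inE1 hW (P := .some x y h) hx).symm⟩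

/-- Inertia acts trivially on reductions. -/
lemma ActsTriviallyMod.map_sub_inE1 (hσ : ActsTriviallyMod A σ) {P : (W'⁄L).Point}
    (hP : InE0 A _ P) : InE1 A _ (Point.map (σ : L →ₐ[S] L) P - P) :=
  sub_inE1_of_redPoint_eq hW (hσ.redPoint_map hW hP).1 hP (hσ.redPoint_map hW hP).2

end FLTA.EllReduction
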