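import Fermat.Agent.EllReduction.Cases

/-!
# The reduction homomorphism on points with nonsingular reduction
-/

set_option autoImplicit false

open scoped Classical

namespace FLTA.EllReduction

open WeierstrassCurve WeierstrassCurve.Affine

variable {L : Type*} [Field L] [DecidableEq L] {A : ValuationSubring L}
  {W : WeierstrassCurve.Affine L} (hW : IntegralAt A W)

omit [DecidableEq L] in
lemma inE1_neg {P : W.Point} : InE1 A W (-P) ↔ InE1 A W P := by
  cases P with
  | zero => exact Iff.rfl
  | some x y h => exact Iff.rfl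

omit [DecidableEq L] in
lemma polynomialX_negY (x y : L) :
    W.polynomialX.evalEval x (W.negY x y)
      = W.polynomialX.evalEval x y - W.a₁ * W.polynomialY.evalEval x y := by
  simp only [evalEval_polynomialX, evalEval_polynomialY, negY]
  ring

include hW

omit [DecidableEq L] in
lemma inE0_neg {P : W.Point} : InE0 A W (-P) ↔ InE0 A W P := by
  cases P with
  | zero => exact Iff.rfl
  | some x y h =>
    rw [Point.neg_some]
    by_cases hx : x ∈ A
    · have hy := y_mem_of_x_mem hW h.1 hx
      rw [inE0_some_iff hW _ hx (negY_mem hW hx hy), inE0_some_iff hW _ hx hy, negY_reduced hW hx hy,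
        Affine.nonsingular_neg]
    · exact iff_of_true (Or.inl hx) (Or.inl hx)

/-- An integral point translated by the kernel of reduction stays integral. -/
lemma add_of_inE1_of_mem {P : W.Point} {x y : L} {h : W.Nonsingular x y} (hP : InE1 A W P)
    (hx : x ∈ A) :
    ∃ (x' y' : L) (h' : W.Nonsingular x' y') (_ : x' ∈ A),
      P + .some x y h = .some x' y' h' ∧ A.valuation (x' - x) < 1 := by
  cases P with
  | zero => exact ⟨x, y, h, hx, zero_add _, by simp⟩
  | some x₁ y₁ h₁ =>
    obtain ⟨ha, hb⟩ := addX_congr_of_notMem_of_mem hW h₁.1 h.1 hP hx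
    exact ⟨_, _, _, ha, Point.add_of_X_ne fun e => hP (by rw [e]; exact hx), hb⟩

lemma inE1_add {P Q : W.Point} (hP : InE1 A W P) (hQ : InE1 A W Q) : InE1 A W (P + Q) := by
  rcases hR : P + Q with _ | ⟨x, y, h⟩
  · trivial
  · intro hx
    obtain ⟨x', y', h', hx', heq, -⟩ :=
      add_of_inE1_of_mem hW (h := h) (inE1_neg.mpr hQ) hx
    rw [← hR, add_comm P Q, neg_add_cancel_left] at heq
    rw [heq] at hP
    exact hP hx'

/-- Reduction of points. Points with singular reduction are sent to zero. -/
noncomputable def redPoint : W.Point → (reducedCurve hW).toAffine.Point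
  | .zero => .zero
  | .some x y h =>
    if hx : x ∈ A then
      if hns : (reducedCurve hW).toAffine.Nonsingular (res hx) (res (y_mem_of_x_mem hW h.1 hx))
        then .some _ _ hns else .zero
    else .zero

omit [DecidableEq L] in
lemma redPoint_of_inE1 {P : W.Point} (hP : InE1 A W P) : redPoint hW P = 0 := by
  cases P with
  | zero => rfl
  | some x y h => exact dif_neg hP

omit [DecidableEq L] in
lemma redPoint_some {x y : L} {h : W.Nonsingular x y} (hx : x ∈ A) (hy : y ∈ A)
    (hns : (reducedCurve hW).toAffine.Nonsingular (res hx) (res hy)) :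
    redPoint hW (.some x y h) = .some _ _ hns := by
  rw [redPoint, dif_pos hx, dif_pos hns]

omit [DecidableEq L] in
lemma redPoint_eq_zero_iff {P : W.Point} (hP : InE0 A W P) :
    redPoint hW P = 0 ↔ InE1 A W P := by
  refine ⟨fun h0 => ?_, redPoint_of_inE1 hW⟩
  cases P with
  | zero => trivial
  | some x y h =>
    intro hx
    rw [redPoint_some hW hx (y_mem_of_x_mem hW h.1 hx) ((inE0_some_iff hW h hx _).mp hP)] at h0
    exact Point.some_ne_zero _ h0

omit [DecidableEq L] in
lemma redPoint_neg {P : W.Point} (hP : InE0 A W P) : redPoint hW (-P) = -redPoint hW P := by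
  by_cases h1 : InE1 A W P
  · rw [redPoint_of_inE1 hW h1, redPoint_of_inE1 hW (inE1_neg.mpr h1)]
    rfl
  · cases P with
    | zero => exact absurd trivial h1
    | some x y h =>
      have hx : x ∈ A := not_not.mp h1
      have hy := y_mem_of_x_mem hW h.1 hx
      have hns := (inE0_some_iff hW h hx hy).mp hP
      have hns' := (inE0_some_iff hW _ hx (negY_mem hW hx hy)).mp ((inE0_neg hW).mpr hP)
      rw [Point.neg_some, redPoint_some hW hx hy hns, redPoint_some hW hx (negY_mem hW hx hy) hns',
        Point.neg_some]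
      simp only [Point.some.injEq, true_and]
      exact negY_reduced hW hx hy

/-- Addition commutes with reduction for integral points with nonsingular reduction. -/
lemma add_integral {x₁ y₁ x₂ y₂ : L} {h₁ : W.Nonsingular x₁ y₁} {h₂ : W.Nonsingular x₂ y₂}
    (hx₁ : x₁ ∈ A) (hx₂ : x₂ ∈ A) (hP : InE0 A W (.some x₁ y₁ h₁))
    (hQ : InE0 A W (.some x₂ y₂ h₂)) :
    InE0 A W (.some x₁ y₁ h₁ + .some x₂ y₂ h₂) ∧
      redPoint hW (.some x₁ y₁ h₁ + .some x₂ y₂ h₂)
        = redPoint hW (.some x₁ y₁ h₁) + redPoint hW (.some x₂ y₂ h₂) := by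
  have hy₁ := y_mem_of_x_mem hW h₁.1 hx₁
  have hy₂ := y_mem_of_x_mem hW h₂.1 hx₂
  have n₁ := (inE0_some_iff hW h₁ hx₁ hy₁).mp hP
  have n₂ := (inE0_some_iff hW h₂ hx₂ hy₂).mp hQ
  rw [redPoint_some hW hx₁ hy₁ n₁, redPoint_some hW hx₂ hy₂ n₂]
  by_cases hinv : res hx₁ = res hx₂ ∧
      res hy₁ = (reducedCurve hW).toAffine.negY (res hx₂) (res hy₂)
  · rw [Point.add_of_Y_eq hinv.1 hinv.2]
    have h1 : InE1 A W (.some x₁ y₁ h₁ + .some x₂ y₂ h₂) := by
      by_cases hne : x₁ = x₂ ∧ y₁ = W.negY x₂ y₂
      · rw [Point.add_of_Y_eq hne.1 hne.2]; trivial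
      · rw [Point.add_some hne]
        exact addX_notMem_of_inverse hW hx₁ hy₁ hx₂ hy₂ h₂.1 hP hne hinv.1 hinv.2
    exact ⟨h1.inE0, redPoint_of_inE1 hW h1⟩
  · have hne : ¬(x₁ = x₂ ∧ y₁ = W.negY x₂ y₂) := by
      rintro ⟨rfl, rfl⟩
      exact hinv ⟨rfl, by rw [← negY_reduced hW]⟩
    obtain ⟨ha, hb, ea, eb⟩ := add_reduced hW hx₁ hy₁ hx₂ hy₂ h₁.1 h₂.1 hinv
    have hns : (reducedCurve hW).toAffine.Nonsingular (res ha) (res hb) := by
      rw [ea, eb]; exact Affine.nonsingular_add n₁ n₂ hinv
    rw [Point.add_some hne, Point.add_some hinv]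
    refine ⟨(inE0_some_iff hW _ ha hb).mpr hns, ?_⟩
    rw [redPoint_some hW ha hb hns]
    simp only [Point.some.injEq]
    exact ⟨ea, eb⟩

lemma add_inE1_inE0 {P Q : W.Point} (hP : InE1 A W P) (hQ : InE0 A W Q) :
    InE0 A W (P + Q) ∧ redPoint hW (P + Q) = redPoint hW P + redPoint hW Q := by
  rw [redPoint_of_inE1 hW hP, zero_add]
  by_cases hQ1 : InE1 A W Q
  · have := inE1_add hW hP hQ1
    exact ⟨this.inE0, by rw [redPoint_of_inE1 hW this, redPoint_of_inE1 hW hQ1]⟩
  cases Q with
  | zero => exact absurd trivial hQ1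
  | some x y h =>
    have hx : x ∈ A := not_not.mp hQ1
    obtain ⟨x', y', h', hx', heq, hclose⟩ := add_of_inE1_of_mem hW (h := h) hP hx
    have hy := y_mem_of_x_mem hW h.1 hx
    have hy' := y_mem_of_x_mem hW h'.1 hx'
    have n := (inE0_some_iff hW h hx hy).mp hQ
    have ex : res hx' = res hx := (res_eq_res_iff hx' hx).mpr hclose
    have n' : (reducedCurve hW).toAffine.Nonsingular (res hx') (res hy') := by
      rcases Affine.Y_eq_of_X_eq (reduced_equation hW hx' hy' h'.1) n.1 ex with e | e
      · rw [ex, e]; exact n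
      · rw [ex, e]; exact (Affine.nonsingular_neg ..).mpr n
    have hR : InE0 A W (.some x' y' h') := (inE0_some_iff hW h' hx' hy').mpr n'
    rw [heq]
    refine ⟨hR, ?_⟩
    have hback : (.some x' y' h' : W.Point) + (-.some x y h) = P := by
      rw [← heq, add_neg_cancel_right]
    obtain ⟨-, hred⟩ := add_integral hW (h₁ := h') (h₂ := (nonsingular_neg ..).mpr h) hx' hx hR
      ((inE0_neg hW (P := .some x y h)).mpr hQ)
    rw [← Point.neg_some h, hback, redPoint_of_inE1 hW hP, redPoint_neg hW hQ, eq_comm,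
      ← sub_eq_add_neg, sub_eq_zero] at hred
    exact hred

/-- The main statement: nonsingular reduction is stable under addition and reduction is additive. -/
theorem inE0_add_and_redPoint_add {P Q : W.Point} (hP : InE0 A W P) (hQ : InE0 A W Q) :
    InE0 A W (P + Q) ∧ redPoint hW (P + Q) = redPoint hW P + redPoint hW Q := by
  by_cases hP1 : InE1 A W P
  · exact add_inE1_inE0 hW hP1 hQ
  by_cases hQ1 : InE1 A W Q
  · rw [add_comm P Q, add_comm (redPoint hW P)]
    exact add_inE1_inE0 hW hQ1 hP
  cases P with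
  | zero => exact absurd trivial hP1
  | some x₁ y₁ h₁ =>
    cases Q with
    | zero => exact absurd trivial hQ1
    | some x₂ y₂ h₂ => exact add_integral hW (not_not.mp hP1) (not_not.mp hQ1) hP hQ

/-- The subgroup of points with nonsingular reduction. -/
def E0 : AddSubgroup W.Point where
  carrier := {P | InE0 A W P}
  add_mem' hP hQ := (inE0_add_and_redPoint_add hW hP hQ).1
  zero_mem' := trivial
  neg_mem' hP := (inE0_neg hW).mpr hP

/-- The kernel of reduction. -/
def E1 : AddSubgroup W.Point where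
  carrier := {P | InE1 A W P}
  add_mem' hP hQ := inE1_add hW hP hQ
  zero_mem' := trivial
  neg_mem' hP := inE1_neg.mpr hP

@[simp] lemma mem_E0 {P : W.Point} : P ∈ E0 hW ↔ InE0 A W P := Iff.rfl

@[simp] lemma mem_E1 {P : W.Point} : P ∈ E1 hW ↔ InE1 A W P := Iff.rfl

lemma E1_le_E0 : E1 hW ≤ E0 hW := fun _ h => InE1.inE0 h

/-- The reduction homomorphism. -/
noncomputable def red : E0 hW →+ (reducedCurve hW).toAffine.Point where
  toFun P := redPoint hW P.1
  map_zero' := rfl
  map_add' P Q := (inE0_add_and_redPoint_add hW P.2 Q.2).2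

lemma red_apply (P : E0 hW) : red hW P = redPoint hW P.1 := rfl

lemma red_eq_zero_iff (P : E0 hW) : red hW P = 0 ↔ InE1 A W P.1 :=
  redPoint_eq_zero_iff hW P.2

/-- If two points have the same reduction, their difference reduces to infinity. -/
lemma sub_inE1_of_redPoint_eq {P Q : W.Point} (hP : InE0 A W P) (hQ : InE0 A W Q)
    (h : redPoint hW P = redPoint hW Q) : InE1 A W (P - Q) := by
  obtain ⟨h0, hadd⟩ := inE0_add_and_redPoint_add hW hP ((inE0_neg hW).mpr hQ)
  rw [redPoint_neg hW hQ, h, add_neg_cancel] at hadd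
  rw [sub_eq_add_neg]
  exact (redPoint_eq_zero_iff hW h0).mp hadd

omit [DecidableEq L] in
/-- At good reduction every point has nonsingular reduction. -/
lemma inE0_of_valuation_Δ_eq_one (hΔ : A.valuation W.Δ = 1) (P : W.Point) : InE0 A W P := by
  cases P with
  | zero => trivial
  | some x y h =>
    by_cases hx : x ∈ A
    · have hy := y_mem_of_x_mem hW h.1 hx
      refine (inE0_some_iff hW h hx hy).mpr ?_
      refine (Affine.equation_iff_nonsingular_of_Δ_ne_zero ?_).mp (reduced_equation hW hx hy h.1)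
      rw [reducedCurve, map_Δ, Ne, IsLocalRing.residue_eq_zero_iff, A.valuation_lt_one_iff, not_lt]
      have : ((integralCurve hW).Δ : L) = W.Δ := by
        conv_rhs => rw [← integralCurve_map_subtype hW, map_Δ]
        rfl
      rw [this, hΔ]
    · exact Or.inl hx

end FLTA.EllReduction
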