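import Fermat.Agent.EllReduction.Galois
import Fermat.Agent.EllReduction.FreyVal
import Fermat.Prelude.Def_EllipticCurve_ZeroComponentAt

/-!
# Integral Weierstrass models at places of `ℚ̄`
-/

set_option autoImplicit false

open scoped Classical

namespace FLTA.EllReduction

open WeierstrassCurve WeierstrassCurve.Affine

open scoped WeierstrassCurve.Affine

local notation "Qbar" => AlgebraicClosure ℚ

-- use the algebra structure of the prelude definitions
attribute [local instance 10000] AlgebraicClosure.instAlgebra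

/-- The base change to `ℚ̄` of an integral curve. -/
noncomputable abbrev geomCurve (W : WeierstrassCurve ℤ) : WeierstrassCurve.Affine (AlgebraicClosure ℚ) :=
  ((W.map (Int.castRingHom ℚ))⁄(AlgebraicClosure ℚ))

variable (W : WeierstrassCurve ℤ)

lemma geomCurve_eq : geomCurve W = W.map (Int.castRingHom Qbar) := by
  rw [geomCurve, Affine.baseChange, WeierstrassCurve.baseChange, WeierstrassCurve.map_map]
  congr 1

lemma geomCurve_integralAt (A : ValuationSubring Qbar) : IntegralAt A (geomCurve W) := by
  rw [geomCurve_eq]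
  exact ⟨intCast_mem A _, intCast_mem A _, intCast_mem A _, intCast_mem A _, intCast_mem A _⟩

lemma geomCurve_Δ : (geomCurve W).Δ = (W.Δ : Qbar) := by
  rw [geomCurve_eq, map_Δ]
  rfl

lemma geomCurve_c₄ : (geomCurve W).c₄ = (W.c₄ : Qbar) := by
  rw [geomCurve_eq, map_c₄]
  rfl

variable (A : ValuationSubring Qbar)

lemma reducedCurve_geom :
    reducedCurve (geomCurve_integralAt W A) =
      W.map (Int.castRingHom (IsLocalRing.ResidueField A)) := by
  have key : ∀ (n : ℤ) (a : A), (a : Qbar) = (n : Qbar) →
      IsLocalRing.residue A a = (Int.castRingHom (IsLocalRing.ResidueField A)) n := by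
    intro n a h
    rw [show a = (n : A) from Subtype.ext (by simpa using h), map_intCast]
    rfl
  have e := geomCurve_eq W
  ext
  · exact key _ _ (congrArg WeierstrassCurve.a₁ e)
  · exact key _ _ (congrArg WeierstrassCurve.a₂ e)
  · exact key _ _ (congrArg WeierstrassCurve.a₃ e)
  · exact key _ _ (congrArg WeierstrassCurve.a₄ e)
  · exact key _ _ (congrArg WeierstrassCurve.a₆ e)

/-- The prelude's notion of nonsingular reduction agrees with `InE0`. -/
lemma inZeroComponentAt_iff (P : (geomCurve W).Point) :
    W.InZeroComponentAt A P ↔ InE0 A (geomCurve W) P := by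
  have hW := geomCurve_integralAt W A
  cases P with
  | zero => exact iff_of_true (Or.inl rfl) trivial
  | some x y h =>
    constructor
    · rintro (h0 | ⟨x', y', h', heq, hcase⟩)
      · exact absurd h0 (Point.some_ne_zero h)
      · obtain ⟨rfl, rfl⟩ := Point.some.inj heq
        rcases hcase with hx | ⟨hx, hy, hns⟩
        · exact Or.inl hx
        · rw [inE0_some_iff hW h hx hy, reducedCurve_geom]
          exact hns
    · intro hP
      refine Or.inr ⟨x, y, h, rfl, ?_⟩
      by_cases hx : x ∈ A
      · have hy := y_mem_of_x_mem hW h.1 hx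
        refine Or.inr ⟨hx, hy, ?_⟩
        rw [inE0_some_iff hW h hx hy, reducedCurve_geom] at hP
        exact hP
      · exact Or.inl hx

variable {A} {q : ℕ}

lemma valuation_intCast_of_not_dvd (hq : q.Prime) (hA : A.LiesOverPrime q) {n : ℤ}
    (hn : ¬ (q : ℤ) ∣ n) : A.valuation (n : Qbar) = 1 :=
  FreyAux.not_mem_nonunits_of_coprime A hA
    ((Nat.prime_iff_prime_int.mp hq).coprime_iff_not_dvd.mpr hn)

lemma valuation_natCast_of_not_dvd (hq : q.Prime) (hA : A.LiesOverPrime q) {n : ℕ}
    (hn : ¬ q ∣ n) : A.valuation (n : Qbar) = 1 := by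
  have := valuation_intCast_of_not_dvd hq hA (n := (n : ℤ))
    (by exact_mod_cast hn)
  simpa using this

lemma valuation_intCast_lt_one (hA : A.LiesOverPrime q) {n : ℤ} (hn : (q : ℤ) ∣ n) :
    A.valuation (n : Qbar) < 1 := by
  obtain ⟨m, rfl⟩ := hn
  push_cast
  exact valuation_mul_lt_one hA (intCast_mem A m)

lemma valuation_Δ_eq (hq : q.Prime) (hA : A.LiesOverPrime q) (hΔ : W.Δ ≠ 0) :
    A.valuation (geomCurve W).Δ = A.valuation (q : Qbar) ^ W.Δ.natAbs.factorization q := by
  rw [geomCurve_Δ, FreyAux.valuation_intCast A hq hA hΔ, padicValInt,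
    Nat.factorization_def _ hq]

/-- An automorphism of an algebraic field preserving a place preserves its valuation. -/
lemma ActsTriviallyMod.valuation_eq (hq : q.Prime) (hA : A.LiesOverPrime q)
    {σ : Qbar ≃ₐ[ℚ] Qbar} (hσ : ActsTriviallyMod A σ) (x : Qbar) :
    A.valuation (σ x) = A.valuation x := by
  rcases eq_or_ne x 0 with rfl | hx
  · rw [map_zero]
  have : @Algebra.IsAlgebraic ℚ Qbar _ _ DivisionRing.toRatAlgebra := AlgebraicClosure.isAlgebraic ℚ
  obtain ⟨d, i, hd, hdi⟩ := FreyAux.exists_zpow_eq A hq hA hx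
  refine (pow_left_inj₀ zero_le zero_le hd.ne').mp ?_
  have h1 : A.valuation (σ (x ^ d)) = A.valuation (σ ((q : Qbar) ^ i)) := by
    have e : A.valuation (x ^ d) = A.valuation ((q : Qbar) ^ i) := by
      rw [map_pow, map_zpow₀, hdi]
    exact le_antisymm (hσ.valuation_le_iff.mpr e.le) (hσ.valuation_le_iff.mpr e.ge)
  rw [map_pow, map_pow, map_zpow₀, map_natCast, map_zpow₀] at h1
  rw [h1, hdi]

end FLTA.EllReduction
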