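import Fermat.Agent.EllReduction.Kernel

/-!
# The node model `y² + xy = x³ + a` with `a` in the maximal ideal: components

A point outside the identity component has `v x < 1`; it is on a `plus` component if
`v a < (v x)²` and `v y < v x`, on the middle component if `(v x)² ≤ v a`.
-/

set_option autoImplicit false

open scoped Classical

namespace FLTA.EllReduction

open WeierstrassCurve WeierstrassCurve.Affine

variable {L : Type*} [Field L] {A : ValuationSubring L}

/-- The node model. -/
def nodeCurve (a : L) : WeierstrassCurve L := ⟨1, 0, 0, 0, a⟩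

lemma nodeCurve_equation {a x y : L} :
    (nodeCurve a).toAffine.Equation x y ↔ y * (y + x) = x ^ 3 + a := by
  rw [equation_iff]
  simp only [nodeCurve, one_mul, zero_mul, add_zero]
  rw [mul_add, mul_comm y x, ← sq]

lemma nodeCurve_integralAt {a : L} (ha : A.valuation a < 1) : IntegralAt A (nodeCurve a) :=
  ⟨one_mem A, zero_mem A, zero_mem A, zero_mem A, mem_of_valuation_lt_one ha⟩

lemma nodeCurve_negY (a x y : L) : (nodeCurve a).toAffine.negY x y = -(y + x) := by
  simp only [negY, nodeCurve]
  ring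

variable {a : L} (ha : A.valuation a < 1)

include ha

lemma node_y_lt_one {x y : L} (h : (nodeCurve a).toAffine.Equation x y)
    (hx : A.valuation x < 1) : A.valuation y < 1 := by
  by_contra hy
  have hy' := not_lt.mp hy
  rw [nodeCurve_equation] at h
  have hsum : A.valuation (y + x) = A.valuation y :=
    A.valuation.map_add_eq_of_lt_left (hx.trans_le hy')
  have hlt : A.valuation (x ^ 3 + a) < 1 :=
    valuation_add_lt_one (by rw [map_pow]; exact pow_lt_one₀ zero_le hx three_ne_zero) ha
  rw [← h, map_mul, hsum] at hlt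
  exact absurd hlt (not_lt.mpr (one_le_mul hy' hy'))

/-- Outside the identity component means that `x` is in the maximal ideal. -/
lemma node_inE0_iff {x y : L} {h : (nodeCurve a).toAffine.Nonsingular x y} :
    InE0 A (nodeCurve a).toAffine (.some x y h) ↔ 1 ≤ A.valuation x := by
  by_cases hx : x ∈ A
  · have hy := y_mem_of_x_mem (nodeCurve_integralAt ha) h.1 hx
    have h2A : (2 : L) ∈ A := (show ((2 : ℕ) : L) = 2 from rfl) ▸ natCast_mem A 2
    have h3A : (3 : L) ∈ A := (show ((3 : ℕ) : L) = 3 from rfl) ▸ natCast_mem A 3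
    have eX : (nodeCurve a).toAffine.polynomialX.evalEval x y = y - 3 * x ^ 2 := by
      rw [evalEval_polynomialX]; simp only [nodeCurve]; ring
    have eY : (nodeCurve a).toAffine.polynomialY.evalEval x y = 2 * y + x := by
      rw [evalEval_polynomialY]; simp only [nodeCurve]; ring
    constructor
    · intro hP
      by_contra hx1
      have hx1 := not_le.mp hx1
      have hy1 := node_y_lt_one ha h.1 hx1
      simp only [InE0, hx, not_true_eq_false, false_or, eX, eY] at hP
      rcases hP with hP | hP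
      · refine hP.not_lt (valuation_sub_lt_one hy1 ?_)
        rw [mul_comm, sq, mul_assoc]
        exact valuation_mul_lt_one hx1 (mul_mem hx h3A)
      · refine hP.not_lt (valuation_add_lt_one ?_ hx1)
        rw [mul_comm]
        exact valuation_mul_lt_one hy1 h2A
    · intro hx1
      by_contra hP
      simp only [InE0, hx, not_true_eq_false, false_or, eX, eY, not_or] at hP
      have hX : A.valuation (y - 3 * x ^ 2) < 1 :=
        lt_of_le_of_ne (valuation_le_one_of_mem (sub_mem hy (mul_mem h3A (pow_mem hx _)))) hP.1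
      have hY : A.valuation (2 * y + x) < 1 :=
        lt_of_le_of_ne (valuation_le_one_of_mem (add_mem (mul_mem h2A hy) hx)) hP.2
      have he := nodeCurve_equation.mp h.1
      -- both `9x + 2` and `6x + 1` vanish modulo the maximal ideal
      have h6 : A.valuation (x * (6 * x + 1)) < 1 := by
        rw [show x * (6 * x + 1) = (2 * y + x) - (y - 3 * x ^ 2) * 2 by ring]
        exact valuation_sub_lt_one hY (valuation_mul_lt_one hX h2A)
      have h9 : A.valuation (x ^ 3 * (9 * x + 2)) < 1 := by
        rw [show x ^ 3 * (9 * x + 2) = a - (y - 3 * x ^ 2) * (y + x + 3 * x ^ 2) by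
          linear_combination he]
        exact valuation_sub_lt_one ha
          (valuation_mul_lt_one hX (add_mem (add_mem hy hx) (mul_mem h3A (pow_mem hx _))))
      have hxv : A.valuation x = 1 := le_antisymm (valuation_le_one_of_mem hx) hx1
      rw [map_mul, hxv, one_mul] at h6
      rw [map_mul, map_pow, hxv, one_pow, one_mul] at h9
      have : A.valuation ((9 * x + 2) * 2 - (6 * x + 1) * 3) < 1 :=
        valuation_sub_lt_one (valuation_mul_lt_one h9 h2A) (valuation_mul_lt_one h6 h3A)
      rw [show (9 * x + 2) * 2 - (6 * x + 1) * 3 = (1 : L) by ring, map_one] at this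
      exact lt_irrefl _ this
  · exact iff_of_true (Or.inl hx) (one_lt_valuation_of_notMem hx).le

omit ha in
/-- Off the middle component exactly one of `y`, `y + x` is smaller than `x`. -/
lemma node_branch {x y : L} (h : (nodeCurve a).toAffine.Equation x y) (hx : A.valuation x < 1)
    (hlt : A.valuation a < A.valuation x ^ 2) :
    A.valuation y < A.valuation x ∨ A.valuation (y + x) < A.valuation x := by
  by_contra hc
  rw [not_or, not_lt, not_lt] at hc
  have hx0 : 0 < A.valuation x := by
    rcases eq_or_ne (A.valuation x) 0 with e | e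
    · rw [e, zero_pow two_ne_zero] at hlt
      exact absurd hlt not_lt_zero
    · exact zero_lt_iff.mpr e
  have hle : A.valuation x * A.valuation x ≤ A.valuation (y * (y + x)) := by
    rw [map_mul]; exact mul_le_mul' hc.1 hc.2
  rw [nodeCurve_equation.mp h, ← sq] at hle
  refine absurd hle (not_le.mpr (A.valuation.map_add_lt ?_ hlt))
  rw [map_pow]
  exact pow_lt_pow_right_of_lt_one₀ hx0 hx (by norm_num)

/-- On the middle component `v y ^ 2 = v (y + x) ^ 2 = v a`. -/
lemma node_middle {x y : L} (ha0 : a ≠ 0) (h : (nodeCurve a).toAffine.Equation x y)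
    (hx : A.valuation x < 1) (hle : A.valuation x ^ 2 ≤ A.valuation a) :
    A.valuation y ^ 2 = A.valuation a ∧ A.valuation (y + x) ^ 2 = A.valuation a := by
  have hapos : 0 < A.valuation a := A.valuation.pos_iff.mpr ha0
  have hprod : A.valuation y * A.valuation (y + x) = A.valuation a := by
    rw [← map_mul, nodeCurve_equation.mp h, A.valuation.map_add_eq_of_lt_right]
    rw [map_pow]
    rcases eq_or_ne (A.valuation x) 0 with e | e
    · rw [e, zero_pow three_ne_zero]; exact hapos
    · exact lt_of_lt_of_le (pow_lt_pow_right_of_lt_one₀ (zero_lt_iff.mpr e) hx (by norm_num)) hle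
  rcases lt_trichotomy (A.valuation y) (A.valuation (y + x)) with hh | hh | hh
  · have hxv : A.valuation x = A.valuation (y + x) := by
      conv_lhs => rw [show x = (y + x) - y by ring]
      exact A.valuation.map_sub_eq_of_lt_left hh
    have : A.valuation a < A.valuation x ^ 2 := by
      rw [← hprod, hxv, sq]
      refine mul_lt_mul_of_pos_right hh ?_
      exact lt_of_le_of_lt zero_le hh
    exact absurd this (not_lt.mpr hle)
  · rw [← hh] at hprod ⊢
    rw [← sq] at hprod
    exact ⟨hprod, hprod⟩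
  · have hxv : A.valuation x = A.valuation y := by
      conv_lhs => rw [show x = (y + x) - y by ring]
      exact A.valuation.map_sub_eq_of_lt_right hh
    have : A.valuation a < A.valuation x ^ 2 := by
      rw [← hprod, hxv, sq]
      refine mul_lt_mul_of_pos_left hh ?_
      exact lt_of_le_of_lt zero_le hh
    exact absurd this (not_lt.mpr hle)

variable [DecidableEq L]

/-- Two points of the same plus component differ by a point of the identity component. -/
lemma node_plus_sub_plus {x₁ y₁ x₂ y₂ : L} {h₁ : (nodeCurve a).toAffine.Nonsingular x₁ y₁}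
    {h₂ : (nodeCurve a).toAffine.Nonsingular x₂ y₂}
    (hlt : A.valuation a < A.valuation x₁ ^ 2) (hy₁ : A.valuation y₁ < A.valuation x₁)
    (hy₂ : A.valuation y₂ < A.valuation x₂) (hxx : A.valuation x₁ = A.valuation x₂) :
    InE0 A (nodeCurve a).toAffine (.some x₁ y₁ h₁ - .some x₂ y₂ h₂) := by
  have hx0 : A.valuation x₁ ≠ 0 := fun e => by
    rw [e, zero_pow two_ne_zero] at hlt
    exact absurd hlt not_lt_zero
  have hxpos : 0 < A.valuation x₁ := zero_lt_iff.mpr hx0
  rw [sub_eq_add_neg, Point.neg_some]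
  by_cases hne : x₁ = x₂ ∧
      y₁ = (nodeCurve a).toAffine.negY x₂ ((nodeCurve a).toAffine.negY x₂ y₂)
  · rw [Point.add_of_Y_eq hne.1 hne.2]
    exact inE0_zero _
  have hxne : x₁ ≠ x₂ := by
    intro e
    subst e
    rcases Y_eq_of_X_eq h₁.1 ((nonsingular_neg ..).mpr h₂).1 rfl with e | e
    · rw [e, nodeCurve_negY, Valuation.map_neg] at hy₁
      rw [A.valuation.map_add_eq_of_lt_right hy₂] at hy₁
      exact lt_irrefl _ hy₁
    · exact hne ⟨rfl, e⟩
  have e3 := slope_symm_sum₃ h₁.1 ((nonsingular_neg ..).mpr h₂).1 hne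
  have hI := slope_mul_X_sub h₁.1 ((nonsingular_neg ..).mpr h₂).1 hne
  rw [Point.add_some hne, node_inE0_iff ha]
  set lam := (nodeCurve a).toAffine.slope x₁ x₂ y₁ ((nodeCurve a).toAffine.negY x₂ y₂) with hlam
  set x₃ := (nodeCurve a).toAffine.addX x₁ x₂ lam with hx₃
  rw [nodeCurve_negY] at hI
  simp only [nodeCurve, zero_mul, add_zero] at e3
  set mu := y₁ - lam * x₁ with hmu
  have key : mu * (x₂ - x₁) = x₁ * x₂ + (x₂ * y₁ + x₁ * y₂) := by
    rw [hmu]; linear_combination x₁ * hI
  have hsmall : A.valuation (x₂ * y₁ + x₁ * y₂) < A.valuation (x₁ * x₂) := by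
    refine A.valuation.map_add_lt ?_ ?_
    · rw [map_mul, map_mul, ← hxx]
      exact mul_lt_mul_of_pos_left hy₁ hxpos
    · rw [map_mul, map_mul]
      exact mul_lt_mul_of_pos_left hy₂ hxpos
  have hp : A.valuation (mu * (x₂ - x₁)) = A.valuation x₁ ^ 2 := by
    rw [key, A.valuation.map_add_eq_of_lt_left hsmall, map_mul, ← hxx, sq]
  have hmuge : A.valuation x₁ ≤ A.valuation mu := by
    by_contra hc
    have hd : A.valuation (x₂ - x₁) ≤ A.valuation x₁ := A.valuation.map_sub_le hxx.ge le_rfl
    rw [map_mul, sq] at hp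
    refine hp.not_lt ?_
    calc A.valuation mu * A.valuation (x₂ - x₁) ≤ A.valuation mu * A.valuation x₁ := by gcongr
      _ < A.valuation x₁ * A.valuation x₁ := mul_lt_mul_of_pos_right (not_le.mp hc) hxpos
  have hmu2 : A.valuation a < A.valuation (mu ^ 2) := by
    rw [map_pow]; exact hlt.trans_le (pow_le_pow_left₀ zero_le hmuge 2)
  have hv := congrArg A.valuation e3
  rw [A.valuation.map_sub_eq_of_lt_left hmu2, map_mul, map_mul, ← hxx, map_pow] at hv
  by_contra hc
  refine hv.not_lt ?_
  calc A.valuation x₁ * A.valuation x₁ * A.valuation x₃ < A.valuation x₁ * A.valuation x₁ * 1 :=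
        mul_lt_mul_of_pos_left (not_le.mp hc) (mul_pos hxpos hxpos)
    _ ≤ A.valuation mu ^ 2 := by rw [mul_one, ← sq]; exact pow_le_pow_left₀ zero_le hmuge 2

/-- Two points of the middle component sum to a point of the identity component. -/
lemma node_middle_add_middle {x₁ y₁ x₂ y₂ : L} (ha0 : a ≠ 0)
    {h₁ : (nodeCurve a).toAffine.Nonsingular x₁ y₁}
    {h₂ : (nodeCurve a).toAffine.Nonsingular x₂ y₂}
    (hx₁ : A.valuation x₁ < 1) (hm₁ : A.valuation x₁ ^ 2 ≤ A.valuation a)
    (hx₂ : A.valuation x₂ < 1) (hm₂ : A.valuation x₂ ^ 2 ≤ A.valuation a) :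
    InE0 A (nodeCurve a).toAffine (.some x₁ y₁ h₁ + .some x₂ y₂ h₂) := by
  obtain ⟨hu₁, -⟩ := node_middle ha ha0 h₁.1 hx₁ hm₁
  obtain ⟨hu₂, hw₂⟩ := node_middle ha ha0 h₂.1 hx₂ hm₂
  by_cases hne : x₁ = x₂ ∧ y₁ = (nodeCurve a).toAffine.negY x₂ y₂
  · rw [Point.add_of_Y_eq hne.1 hne.2]
    exact inE0_zero _
  have hapos : 0 < A.valuation a := A.valuation.pos_iff.mpr ha0
  set s := A.valuation y₁ with hs
  have e : ∀ {b : A.ValueGroup}, b ^ 2 = A.valuation a → b = s := fun hb =>
    (pow_left_inj₀ zero_le zero_le two_ne_zero).mp (hb.trans hu₁.symm)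
  have hy₂ := e hu₂
  have hw₂' := e hw₂
  have hspos : 0 < s := zero_lt_iff.mpr fun e0 => by
    rw [e0, zero_pow two_ne_zero] at hu₁; exact hapos.ne hu₁
  have hle : ∀ {b : A.ValueGroup}, b ^ 2 ≤ A.valuation a → b ≤ s := fun hb =>
    (pow_le_pow_iff_left₀ zero_le zero_le two_ne_zero).mp (hb.trans hu₁.ge)
  have hxs₁ := hle hm₁
  have hxs₂ := hle hm₂
  have hII := slope_mul_Y_sub h₁.1 h₂.1 hne
  rw [Point.add_some hne, node_inE0_iff ha]
  set lam := (nodeCurve a).toAffine.slope x₁ x₂ y₁ y₂ with hlam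
  simp only [nodeCurve, negY, one_mul, zero_mul, add_zero, sub_zero] at hII
  have hq : A.valuation (x₁ ^ 2 + x₁ * x₂ + x₂ ^ 2) < s := by
    have p : ∀ {u w : L}, A.valuation u < 1 → A.valuation w ≤ s → A.valuation (u * w) < s :=
      fun hu hw => by
        rw [map_mul]
        calc _ ≤ A.valuation _ * s := by gcongr
          _ < 1 * s := mul_lt_mul_of_pos_right hu hspos
          _ = s := one_mul s
    exact A.valuation.map_add_lt (A.valuation.map_add_lt (by rw [sq]; exact p hx₁ hxs₁)
      (p hx₁ hxs₂)) (by rw [sq]; exact p hx₂ hxs₂)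
  have hden : A.valuation (y₁ - (-y₂ - x₂)) ≤ s := by
    rw [show y₁ - (-y₂ - x₂) = y₁ + (y₂ + x₂) by ring]
    exact A.valuation.map_add_le le_rfl hw₂'.le
  have hnum : A.valuation (x₁ ^ 2 + x₁ * x₂ + x₂ ^ 2 - y₁) = s := by
    rw [A.valuation.map_sub_eq_of_lt_right hq]
  have hnum' : A.valuation (x₁ ^ 2 + x₁ * x₂ + x₂ ^ 2 + (y₂ + x₂)) = s := by
    rw [A.valuation.map_add_eq_of_lt_right (by rw [hw₂']; exact hq), hw₂']
  have hone : ∀ {c n : L}, c * (y₁ - (-y₂ - x₂)) = n → A.valuation n = s →
      1 ≤ A.valuation c := by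
    intro c n hc hn
    by_contra hlt
    refine hn.not_lt ?_
    rw [← hc, map_mul]
    calc A.valuation c * A.valuation (y₁ - (-y₂ - x₂)) ≤ A.valuation c * s := by gcongr
      _ < 1 * s := mul_lt_mul_of_pos_right (not_le.mp hlt) hspos
      _ = s := one_mul s
  have h1 := hone hII hnum
  have h2 : 1 ≤ A.valuation (lam + 1) := hone (by linear_combination hII) hnum'
  have hprod : 1 ≤ A.valuation (lam * (lam + 1)) := by rw [map_mul]; exact one_le_mul h1 h2
  have e : (nodeCurve a).toAffine.addX x₁ x₂ lam = lam * (lam + 1) - (x₁ + x₂) := by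
    simp only [addX, nodeCurve]; ring
  rw [e, A.valuation.map_sub_eq_of_lt_left ((valuation_add_lt_one hx₁ hx₂).trans_le hprod)]
  exact hprod

/-- The sum of two plus points whose product of sizes is still at most halfway. -/
lemma node_plus_add_plus {x₁ y₁ x₂ y₂ : L} {h₁ : (nodeCurve a).toAffine.Nonsingular x₁ y₁}
    {h₂ : (nodeCurve a).toAffine.Nonsingular x₂ y₂}
    (hx₁ : A.valuation x₁ < 1) (hy₁ : A.valuation y₁ < A.valuation x₁)
    (hx₂ : A.valuation x₂ < 1) (hy₂ : A.valuation y₂ < A.valuation x₂)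
    (hle : A.valuation a ≤ (A.valuation x₁ * A.valuation x₂) ^ 2) :
    ∃ (x y : L) (h : (nodeCurve a).toAffine.Nonsingular x y),
      (.some x₁ y₁ h₁ + .some x₂ y₂ h₂ : (nodeCurve a).toAffine.Point) = .some x y h ∧
      A.valuation x < 1 ∧
      (A.valuation a < (A.valuation x₁ * A.valuation x₂) ^ 2 →
        A.valuation x = A.valuation x₁ * A.valuation x₂ ∧ A.valuation y < A.valuation x) ∧
      (A.valuation a = (A.valuation x₁ * A.valuation x₂) ^ 2 →
        A.valuation x ^ 2 ≤ A.valuation a) := by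
  have hp₁ : 0 < A.valuation x₁ := lt_of_le_of_lt zero_le hy₁
  have hp₂ : 0 < A.valuation x₂ := lt_of_le_of_lt zero_le hy₂
  have hne : ¬(x₁ = x₂ ∧ y₁ = (nodeCurve a).toAffine.negY x₂ y₂) := by
    rintro ⟨rfl, e⟩
    rw [e, nodeCurve_negY, Valuation.map_neg, A.valuation.map_add_eq_of_lt_right hy₂] at hy₁
    exact lt_irrefl _ hy₁
  set p := A.valuation x₁ * A.valuation x₂ with hp
  have hppos : 0 < p := mul_pos hp₁ hp₂
  have hp1 : p < 1 := mul_lt_one_of_nonneg_of_lt_one_left zero_le hx₁ hx₂.le
  have hII := slope_mul_Y_sub h₁.1 h₂.1 hne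
  have hI := slope_mul_X_sub h₁.1 h₂.1 hne
  have e3 := slope_symm_sum₃ h₁.1 h₂.1 hne
  have he₁ := nodeCurve_equation.mp h₁.1
  refine ⟨_, _, _, Point.add_some hne, ?_⟩
  set lam := (nodeCurve a).toAffine.slope x₁ x₂ y₁ y₂ with hlam
  set x₃ := (nodeCurve a).toAffine.addX x₁ x₂ lam with hx₃
  set y₄ := (nodeCurve a).toAffine.addY x₁ x₂ y₁ lam with hy₄
  simp only [nodeCurve, negY, one_mul, zero_mul, add_zero, sub_zero] at hII
  simp only [nodeCurve, zero_mul, add_zero] at e3
  set mu := y₁ - lam * x₁ with hmu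
  set D := x₂ * y₁ + x₁ * y₂ + x₁ * x₂ with hD
  have keyD : mu * D = -((x₁ * x₂) ^ 2 - a * (x₁ + x₂)) := by
    rw [hmu, hD]
    linear_combination (-x₁ ^ 2) * hII + (y₁ * x₁) * hI + (x₁ + x₂) * he₁
  have hDs : A.valuation (x₂ * y₁ + x₁ * y₂) < p := by
    refine A.valuation.map_add_lt ?_ ?_
    · rw [map_mul, hp, mul_comm (A.valuation x₁)]; exact mul_lt_mul_of_pos_left hy₁ hp₂
    · rw [map_mul, hp]; exact mul_lt_mul_of_pos_left hy₂ hp₁
  have hpv : A.valuation (x₁ * x₂) = p := map_mul _ _ _
  have hDv : A.valuation D = p := by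
    rw [hD, A.valuation.map_add_eq_of_lt_right (by rw [hpv]; exact hDs), hpv]
  have has : A.valuation (a * (x₁ + x₂)) < p ^ 2 := by
    rw [map_mul]
    calc A.valuation a * A.valuation (x₁ + x₂) ≤ p ^ 2 * A.valuation (x₁ + x₂) := by gcongr
      _ < p ^ 2 * 1 := mul_lt_mul_of_pos_left (valuation_add_lt_one hx₁ hx₂) (pow_pos hppos 2)
      _ = p ^ 2 := mul_one _
  have hmuv : A.valuation mu = p := by
    have := congrArg A.valuation keyD
    have hdom : A.valuation (a * (x₁ + x₂)) < A.valuation ((x₁ * x₂) ^ 2) := by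
      rw [map_pow, hpv]; exact has
    rw [map_mul, hDv, Valuation.map_neg, A.valuation.map_sub_eq_of_lt_left hdom, map_pow, hpv,
      sq] at this
    exact mul_right_cancel₀ hppos.ne' this
  have hv3 : A.valuation x₃ * p ≤ p ^ 2 := by
    have := congrArg A.valuation e3
    rw [map_mul, map_mul, ← hp] at this
    rw [mul_comm, this]
    exact A.valuation.map_sub_le (by rw [map_pow, hmuv]) hle
  have hx3p : A.valuation x₃ ≤ p := by
    rw [sq] at hv3
    exact le_of_mul_le_mul_right hv3 hppos
  refine ⟨hx3p.trans_lt hp1, fun hlt => ?_, fun heq => ?_⟩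
  · have hx3 : A.valuation x₃ = p := by
      have := congrArg A.valuation e3
      rw [map_mul, map_mul, ← hp, A.valuation.map_sub_eq_of_lt_left
        (by rw [map_pow, hmuv]; exact hlt), map_pow, hmuv, sq] at this
      exact mul_left_cancel₀ hppos.ne' this
    refine ⟨hx3, ?_⟩
    -- `λ` is small and `x₃ + μ` is smaller than `x₃`
    have hl : A.valuation lam < 1 := by
      have hpx : p < A.valuation x₁ := by
        rw [hp]
        calc A.valuation x₁ * A.valuation x₂ < A.valuation x₁ * 1 := mul_lt_mul_of_pos_left hx₂ hp₁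
          _ = A.valuation x₁ := mul_one _
      have : A.valuation (lam * x₁) < A.valuation x₁ := by
        rw [show lam * x₁ = y₁ - mu by rw [hmu]; ring]
        exact A.valuation.map_sub_lt hy₁ (by rw [hmuv]; exact hpx)
      rw [map_mul] at this
      by_contra hc
      exact absurd this (not_lt.mpr (le_mul_of_one_le_left' (not_lt.mp hc)))
    have hmup : A.valuation (mu + x₁ * x₂) < p := by
      have e : (mu + x₁ * x₂) * D = a * (x₁ + x₂) + x₁ * x₂ * (x₂ * y₁ + x₁ * y₂) := by
        rw [add_mul, keyD, hD]; ring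
      have hlt' : A.valuation ((mu + x₁ * x₂) * D) < p ^ 2 := by
        rw [e]
        refine A.valuation.map_add_lt has ?_
        rw [map_mul, hpv, sq]
        exact mul_lt_mul_of_pos_left hDs hppos
      rw [map_mul, hDv, sq] at hlt'
      exact lt_of_mul_lt_mul_of_nonneg_right hlt' zero_le
    have hxm : A.valuation (x₃ + mu) < p := by
      have e : (x₃ + mu) * (x₁ * x₂) = mu * (mu + x₁ * x₂) - a := by
        linear_combination e3
      have hlt' : A.valuation ((x₃ + mu) * (x₁ * x₂)) < p ^ 2 := by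
        rw [e]
        refine A.valuation.map_sub_lt ?_ hlt
        rw [map_mul, hmuv, sq]
        exact mul_lt_mul_of_pos_left hmup hppos
      rw [map_mul, hpv, sq] at hlt'
      exact lt_of_mul_lt_mul_of_nonneg_right hlt' zero_le
    have e : y₄ = -(lam * x₃ + (x₃ + mu)) := by
      rw [hy₄, addY, negAddY, nodeCurve_negY, ← hx₃, hmu]; ring
    rw [e, Valuation.map_neg, hx3]
    refine A.valuation.map_add_lt ?_ hxm
    rw [map_mul, hx3]
    calc A.valuation lam * p < 1 * p := mul_lt_mul_of_pos_right hl hppos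
      _ = p := one_mul p
  · rw [heq]
    exact pow_le_pow_left₀ zero_le hx3p 2

end FLTA.EllReduction
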