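import Fermat.Agent.EllReduction.Cases
import Fermat.Agent.EllIsogeny.VarChange

/-!
# Changes of variables integral at a place: effect on `InE0`, `InE1` and on automorphisms

The isomorphism of point groups is `FLTA.EllIsogeny.vcPointEquiv`.
-/

set_option autoImplicit false

open scoped WeierstrassCurve.Affine

namespace FLTA.EllReduction

open WeierstrassCurve WeierstrassCurve.Affine FLTA.EllIsogeny

variable {L : Type*} [Field L] (A : ValuationSubring L)

/-- A change of variables that is invertible over `A`. -/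
structure IntegralVC (C : VariableChange L) : Prop where
  u : A.valuation (C.u : L) = 1
  r : C.r ∈ A
  s : C.s ∈ A
  t : C.t ∈ A

variable {A} {W : WeierstrassCurve.Affine L} {C : VariableChange L}

lemma IntegralVC.u_mem (hC : IntegralVC A C) : (C.u : L) ∈ A :=
  A.mem_of_valuation_le_one _ hC.u.le

lemma IntegralVC.u_inv_mem (hC : IntegralVC A C) : (C.u : L)⁻¹ ∈ A :=
  A.mem_of_valuation_le_one _ (by rw [map_inv₀, hC.u, inv_one])

lemma IntegralVC.integralAt (hC : IntegralVC A C) (hW : IntegralAt A W) :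
    IntegralAt A (C • W) := by
  have h1 := hC.u_inv_mem
  have hn : ∀ n : ℕ, (n : L) ∈ A := natCast_mem A
  have h2 : (2 : L) ∈ A := by simpa only [Nat.cast_ofNat] using hn 2
  have h3 : (3 : L) ∈ A := by simpa only [Nat.cast_ofNat] using hn 3
  obtain ⟨a₁, a₂, a₃, a₄, a₆⟩ := hW
  obtain ⟨-, hr, hs, ht⟩ := hC
  constructor <;> simp only [variableChange_def, Units.val_inv_eq_inv_val] <;>
    repeat' first
      | assumption | apply sub_mem | apply add_mem | apply mul_mem | apply pow_mem

lemma IntegralVC.vcX_mem_iff (hC : IntegralVC A C) {x : L} : vcX C x ∈ A ↔ x ∈ A := by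
  have hu : (C.u : L) ≠ 0 := C.u.ne_zero
  refine ⟨fun h => ?_, fun h => add_mem (mul_mem (pow_mem hC.u_mem _) h) hC.r⟩
  have : x = ((C.u : L)⁻¹) ^ 2 * (vcX C x - C.r) := by rw [vcX]; field_simp; ring
  rw [this]
  exact mul_mem (pow_mem hC.u_inv_mem _) (sub_mem h hC.r)

lemma polynomialY_vc (x y : L) :
    (C • W).toAffine.polynomialY.evalEval x y
      = ((C.u : L)⁻¹) ^ 3 * W.polynomialY.evalEval (vcX C x) (vcY C x y) := by
  have hu : (C.u : L) ≠ 0 := C.u.ne_zero
  simp only [evalEval_polynomialY, variableChange_def, vcX, vcY, Units.val_inv_eq_inv_val]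
  field_simp
  ring

lemma polynomialX_vc (x y : L) :
    (C • W).toAffine.polynomialX.evalEval x y
      = ((C.u : L)⁻¹) ^ 4 * (W.polynomialX.evalEval (vcX C x) (vcY C x y)
          + C.s * W.polynomialY.evalEval (vcX C x) (vcY C x y)) := by
  have hu : (C.u : L) ≠ 0 := C.u.ne_zero
  simp only [evalEval_polynomialX, evalEval_polynomialY, variableChange_def, vcX, vcY,
    Units.val_inv_eq_inv_val]
  field_simp
  ring

variable [DecidableEq L]

lemma inE1_vcPointEquiv (hC : IntegralVC A C) (P : (C • W).toAffine.Point) :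
    InE1 A W (vcPointEquiv W C P) ↔ InE1 A (C • W).toAffine P := by
  rcases P with _ | ⟨x, y, h⟩
  · simp [← Point.zero_def]
  · rw [vcPointEquiv_some]
    exact not_congr hC.vcX_mem_iff

lemma inE0_vcPointEquiv (hC : IntegralVC A C) (hW : IntegralAt A W)
    (P : (C • W).toAffine.Point) :
    InE0 A W (vcPointEquiv W C P) ↔ InE0 A (C • W).toAffine P := by
  rcases P with _ | ⟨x, y, h⟩
  · simp [← Point.zero_def]
  rw [vcPointEquiv_some]
  by_cases hx : x ∈ A
  · have hX := hC.vcX_mem_iff.mpr hx
    have hY := y_mem_of_x_mem hW ((vc_equation W C x y).mp h.1) hX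
    set p := W.polynomialX.evalEval (vcX C x) (vcY C x y) with hp
    set r := W.polynomialY.evalEval (vcX C x) (vcY C x y) with hr
    have hpA : A.valuation p ≤ 1 := valuation_le_one_of_mem (polynomialX_mem hW hX hY)
    have hrA : A.valuation r ≤ 1 := valuation_le_one_of_mem (polynomialY_mem hW hX hY)
    simp only [InE0, hx, hX, not_true, false_or, polynomialX_vc, polynomialY_vc, ← hp, ← hr,
      map_mul, map_pow, map_inv₀, hC.u, inv_one, one_pow, one_mul]
    rcases hrA.lt_or_eq with hlt | heq
    · have hsr : A.valuation (C.s * r) < 1 := by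
        rw [mul_comm]; exact valuation_mul_lt_one hlt hC.s
      rcases hpA.lt_or_eq with hp1 | hp1
      · simp [hlt.ne, hp1.ne, (valuation_add_lt_one hp1 hsr).ne]
      · simp [hp1, A.valuation.map_add_eq_of_lt_left (hp1.symm ▸ hsr : A.valuation (C.s * r) < A.valuation p)]
    · simp [heq]
  · have hX : vcX C x ∉ A := fun hh => hx (hC.vcX_mem_iff.mp hh)
    simp [InE0, hx, hX]

section Automorphism

variable {R : Type*} [CommRing R] [Algebra R L] {S : Type*} [CommRing S] [Algebra S L]
  [Algebra R S] [IsScalarTower R S L] {W' : WeierstrassCurve.Affine R}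

/-- An automorphism fixing the change of variables acts coordinatewise through `vcPointEquiv`. -/
lemma smul_vcPointEquiv (σ : L ≃ₐ[S] L) (hu : σ (C.u : L) = C.u) (hr : σ C.r = C.r)
    (hs : σ C.s = C.s) (ht : σ C.t = C.t) {x y : L}
    (h : (C • (W'⁄L)).toAffine.Nonsingular x y)
    (h' : (C • (W'⁄L)).toAffine.Nonsingular (σ x) (σ y)) :
    Point.map (σ : L →ₐ[S] L) (vcPointEquiv (W'⁄L) C (.some x y h))
      = vcPointEquiv (W'⁄L) C (.some (σ x) (σ y) h') := by
  rw [vcPointEquiv_some, vcPointEquiv_some, Point.map_some]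
  simp [vcX, vcY, hu, hr, hs, ht]

end Automorphism

end FLTA.EllReduction
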